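/-
S35, cells [P-MAPS] + the `Pic⁰`/Tate plumbing of [P-EQUIV] (helper8; prefix `s35p_`).

For `q ≠ 0` the two degeneracy maps `α_q` (inclusion) and `β_q` (`q ↦ q^q`)
`F̄_N → F̄_{N q}` induce, by push-forward of divisors, two homomorphisms
`J₀(N q) → J₀(N)` and hence two `ℤ_p`-linear maps on the Tate modules:

* `s35p_tmMap p f : tm_T J p →ₗ[ℤ_[p]] tm_T J' p` for `f : J →+ J'` (the Tate module is a functor),
  `s35p_tmMap_comm` (an intertwining relation on the `p`-power torsion passes to Tate modules);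
* `s35p_pushPic0 φ hφ hfin hN : Pic0 K F' →+ Pic0 K F` (generic), `s35p_pushPic0_mk`,
  `s35p_pushPic0_smul` (equivariance under intertwined semilinear automorphisms);
* `s35p_P1J N q`, `s35p_P2J N q : JZero (N * q) →+ JZero N`, `s35p_P1J_mk`, `s35p_P2J_mk`,
  `s35p_P1J_smul`, `s35p_P2J_smul` (Galois equivariance);
* **`s35p_P1 N q p`, `s35p_P2 N q p : tj_T (N * q) p →ₗ[ℤ_[p]] tj_T N p`**, `s35p_P1_apply`,
  `s35p_P2_apply`, **`s35p_P1_rho`, `s35p_P2_rho`** (they commute with `tj_rho`);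
* [P-EQUIV], abstract in the divisor identity (D) (`s35p_DivComm`, helper23's
  `s35pe_div_comm_alpha/beta`): `s35p_pushJ_hecke_of`, **`s35p_P1_hecke_of`, `s35p_P2_hecke_of`** :
  `P_i ∘ T_ℓ = T_ℓ ∘ P_i` on the Tate modules.
-/
import Mathlib
import Fermat.Agent.JT3.Tate.JZero

set_option autoImplicit false
set_option linter.unusedSectionVars false
set_option linter.style.haveILetI false
set_option synthInstance.maxHeartbeats 400000
set_option maxHeartbeats 1000000

noncomputable section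

namespace Fermat.Agent.S35

open ModularCurve AlgebraicCurve Fermat.Agent.S24 Fermat.Agent.JT3

local notation "GQ" => (AlgebraicClosure ℚ ≃ₐ[ℚ] AlgebraicClosure ℚ)

/-! ### the Tate module is a functor -/

section TateFunctor

variable {J J' : Type*} [AddCommGroup J] [AddCommGroup J'] (p : ℕ) [hp : Fact p.Prime]

/-- a homomorphism `J →+ J'` induces a `ℤ_p`-linear map on the Tate modules -/
def s35p_tmMap (f : J →+ J') : tm_T J p →ₗ[ℤ_[p]] tm_T J' p where
  toFun x := ⟨fun n => f (x.1 n), fun n =>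
    ⟨by rw [← map_nsmul, tm_tor, map_zero], by rw [← map_nsmul, tm_compat]⟩⟩
  map_add' x y := tm_ext fun n => map_add f (x.1 n) (y.1 n)
  map_smul' _ _ := tm_ext fun _ => map_nsmul f _ _

theorem s35p_tmMap_apply (f : J →+ J') (x : tm_T J p) (n : ℕ) :
    (s35p_tmMap p f x).1 n = f (x.1 n) := rfl

/-- an intertwining relation which holds on the `p`-power torsion passes to the Tate modules -/
theorem s35p_tmMap_comm (f : J →+ J') (g : AddMonoid.End J) (g' : AddMonoid.End J')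
    (h : ∀ x : J, (∃ n : ℕ, p ^ n • x = 0) → f (g x) = g' (f x)) :
    (s35p_tmMap p f) ∘ₗ (tm_map J p g) = (tm_map J' p g') ∘ₗ (s35p_tmMap p f) :=
  LinearMap.ext fun x => tm_ext fun n => h _ ⟨n, tm_tor x n⟩

/-- `x` is killed by `s35p_tmMap p f` iff all its components are killed by `f` -/
theorem s35p_tmMap_eq_zero_iff (f : J →+ J') (x : tm_T J p) :
    s35p_tmMap p f x = 0 ↔ ∀ n, f (x.1 n) = 0 :=
  ⟨fun h n => congrArg (fun y : tm_T J' p => y.1 n) h, fun h => tm_ext h⟩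

end TateFunctor

/-! ### push-forward on `Pic⁰` along a finite homomorphism of function fields -/

section Pic0Push

variable {K F F' : Type*} [Field K] [Field F] [Field F'] [Algebra K F] [Algebra K F']
variable (φ : F →ₐ[K] F') (hφ : φ.toRingHom.IsIntegral)

/-- push-forward of degree zero divisors -/
def s35p_pushDegZero :
    Divisor.degZero (K := K) (F := F') →+ Divisor.degZero (K := K) (F := F) :=
  ((Divisor.pushforwardAlong φ hφ).domRestrict (Divisor.degZero (K := K) (F := F'))).codRestrict _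
    (fun D => Divisor.pushforwardAlong_mem_degZero φ hφ D.2)

@[simp]
theorem s35p_coe_pushDegZero (D : Divisor.degZero (K := K) (F := F')) :
    (s35p_pushDegZero φ hφ D : Divisor K F) = Divisor.pushforwardAlong φ hφ (D : Divisor K F') :=
  rfl

variable (hfin : FiniteAlong K φ) (hN : NormFormulaAlong K φ hfin)

/-- push-forward of divisor classes of degree zero -/
def s35p_pushPic0 : Pic0 K F' →+ Pic0 K F :=
  QuotientAddGroup.map _ _ (s35p_pushDegZero φ hφ) (by
    rintro ⟨D, hD0⟩ hD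
    simp only [AddSubgroup.mem_addSubgroupOf] at hD ⊢
    exact Divisor.isPrincipal_pushforwardAlong φ hφ hfin hN hD)

theorem s35p_pushPic0_mk (D : Divisor.degZero (K := K) (F := F')) :
    s35p_pushPic0 φ hφ hfin hN (Pic0.mk D) = Pic0.mk (s35p_pushDegZero φ hφ D) :=
  rfl

/-- the push-forward is equivariant under intertwined semilinear automorphisms -/
theorem s35p_pushPic0_smul {g : SemilinearAut K F} {g' : SemilinearAut K F'}
    (h : SemilinearAut.IntertwinesAlong (φ : F →+* F') g g')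
    (hdeg : ∀ v : Place K F, v.deg ≠ 0) (x : Pic0 K F') :
    s35p_pushPic0 φ hφ hfin hN (g' • x) = g • s35p_pushPic0 φ hφ hfin hN x := by
  obtain ⟨D, rfl⟩ := Pic0.mk_surjective x
  rw [SemilinearAut.pic0_smul_mk, s35p_pushPic0_mk, s35p_pushPic0_mk, SemilinearAut.pic0_smul_mk]
  congr 1
  apply Subtype.ext
  show Divisor.pushforwardAlong φ hφ (g' • (D : Divisor K F'))
    = g • Divisor.pushforwardAlong φ hφ (D : Divisor K F')
  exact egh_pushforwardAlong_smul hφ h hdeg _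

/-- a class killed by `m` is the class of a divisor whose `m`-th multiple is principal -/
theorem s35p_isPrincipal_of_nsmul_mk {D : Divisor.degZero (K := K) (F := F)} {m : ℕ}
    (h : m • Pic0.mk D = 0) : (m • (D : Divisor K F)).IsPrincipal := by
  have h1 : Pic0.mk (m • D) = 0 := by
    rw [← h]; exact map_nsmul (QuotientAddGroup.mk' _) m D
  have h2 := (QuotientAddGroup.eq_zero_iff (m • D)).mp h1
  rw [AddSubgroup.mem_addSubgroupOf] at h2
  exact h2

end Pic0Push

/-! ### the modular instance: `J₀(N q) → J₀(N)` -/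

section Modular

variable (N q : ℕ) [NeZero N] [NeZero q]

/-- `(α_q)_* : J₀(N q) → J₀(N)` -/
def s35p_P1J : JZero (N * q) →+ JZero N :=
  s35p_pushPic0 (heckeAlphaBar Kbar N q) (hib_alphaIntegral N q) (hib_finiteAlong_alpha N q)
    (hib_normFormulaAlong_alpha N q)

/-- `(β_q)_* : J₀(N q) → J₀(N)` -/
def s35p_P2J : JZero (N * q) →+ JZero N :=
  s35p_pushPic0 (heckeBetaBar Kbar N q) (hib_betaIntegral N q) (hib_finiteAlong_beta N q)
    (hib_normFormulaAlong_beta N q)

theorem s35p_P1J_mk (D : Divisor.degZero (K := Kbar) (F := Fbar (N * q))) :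
    s35p_P1J N q (Pic0.mk D) =
      Pic0.mk (s35p_pushDegZero (heckeAlphaBar Kbar N q) (hib_alphaIntegral N q) D) := rfl

theorem s35p_P2J_mk (D : Divisor.degZero (K := Kbar) (F := Fbar (N * q))) :
    s35p_P2J N q (Pic0.mk D) =
      Pic0.mk (s35p_pushDegZero (heckeBetaBar Kbar N q) (hib_betaIntegral N q) D) := rfl

theorem s35p_deg_ne_zero (v : Place Kbar (Fbar N)) : v.deg ≠ 0 := by
  rw [rt_deg_eq_one (rt_isSepGen_jBar N) v]
  exact one_ne_zero

/-- `(α_q)_*` is Galois equivariant -/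
theorem s35p_P1J_smul (σ : GQ) (x : JZero (N * q)) :
    s35p_P1J N q (σ • x) = σ • s35p_P1J N q x :=
  s35p_pushPic0_smul _ _ _ _ (egh_intertwines_alpha N q σ) (s35p_deg_ne_zero N) x

/-- `(β_q)_*` is Galois equivariant -/
theorem s35p_P2J_smul (σ : GQ) (x : JZero (N * q)) :
    s35p_P2J N q (σ • x) = σ • s35p_P2J N q x :=
  s35p_pushPic0_smul _ _ _ _ (egh_intertwines_beta N q σ) (s35p_deg_ne_zero N) x

variable (p : ℕ) [hp : Fact p.Prime]

/-- **`P₁ = (α_q)_*` on the Tate modules** -/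
def s35p_P1 : tj_T (N * q) p →ₗ[ℤ_[p]] tj_T N p := s35p_tmMap p (s35p_P1J N q)

/-- **`P₂ = (β_q)_*` on the Tate modules** -/
def s35p_P2 : tj_T (N * q) p →ₗ[ℤ_[p]] tj_T N p := s35p_tmMap p (s35p_P2J N q)

theorem s35p_P1_apply (x : tj_T (N * q) p) (n : ℕ) :
    (s35p_P1 N q p x).1 n = s35p_P1J N q (x.1 n) := rfl

theorem s35p_P2_apply (x : tj_T (N * q) p) (n : ℕ) :
    (s35p_P2 N q p x).1 n = s35p_P2J N q (x.1 n) := rfl

/-- **`P₁` commutes with the Galois action** -/
theorem s35p_P1_rho (σ : GQ) (x : tj_T (N * q) p) :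
    s35p_P1 N q p (tj_rho (N * q) p σ x) = tj_rho N p σ (s35p_P1 N q p x) :=
  tm_ext fun n => s35p_P1J_smul N q σ (x.1 n)

/-- **`P₂` commutes with the Galois action** -/
theorem s35p_P2_rho (σ : GQ) (x : tj_T (N * q) p) :
    s35p_P2 N q p (tj_rho (N * q) p σ x) = tj_rho N p σ (s35p_P2 N q p x) :=
  tm_ext fun n => s35p_P2J_smul N q σ (x.1 n)

theorem s35p_P1_rho_comp (σ : GQ) :
    s35p_P1 N q p ∘ₗ tj_rho (N * q) p σ = tj_rho N p σ ∘ₗ s35p_P1 N q p :=
  LinearMap.ext fun x => s35p_P1_rho N q p σ x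

theorem s35p_P2_rho_comp (σ : GQ) :
    s35p_P2 N q p ∘ₗ tj_rho (N * q) p σ = tj_rho N p σ ∘ₗ s35p_P2 N q p :=
  LinearMap.ext fun x => s35p_P2_rho N q p σ x

end Modular

/-! ### [P-EQUIV], abstract in the divisor identity (D) -/

section Equiv

variable (N q ℓ : ℕ) [NeZero N] [NeZero q] [NeZero ℓ]

/-- the divisor identity (D) for a degeneracy map `γ : F̄_N → F̄_{N q}`: on divisors with a
principal multiple, `γ_*` intertwines the Hecke correspondences `T_ℓ` of levels `N q` and `N` -/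
def s35p_DivComm (γ : Fbar N →ₐ[Kbar] Fbar (N * q)) (hγ : γ.toRingHom.IsIntegral) : Prop :=
  ∀ (D : Divisor Kbar (Fbar (N * q))) (m : ℕ), m ≠ 0 → (m • D).IsPrincipal →
    Divisor.pushforwardAlong γ hγ
        (Divisor.correspondence (heckeBetaBar Kbar (N * q) ℓ) (heckeAlphaBar Kbar (N * q) ℓ)
          (hib_betaIntegral (N * q) ℓ) (hib_alphaIntegral (N * q) ℓ) D)
      = Divisor.correspondence (heckeBetaBar Kbar N ℓ) (heckeAlphaBar Kbar N ℓ)
          (hib_betaIntegral N ℓ) (hib_alphaIntegral N ℓ) (Divisor.pushforwardAlong γ hγ D)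

variable {N q ℓ}

/-- (D) ⟹ `γ_*` intertwines `T_ℓ` on the torsion of the Jacobians -/
theorem s35p_pushJ_hecke_of {γ : Fbar N →ₐ[Kbar] Fbar (N * q)} {hγ : γ.toRingHom.IsIntegral}
    (hfin : FiniteAlong Kbar γ) (hN : NormFormulaAlong Kbar γ hfin)
    (h : s35p_DivComm N q ℓ γ hγ) (x : JZero (N * q)) (m : ℕ) (hm : m ≠ 0) (hx : m • x = 0) :
    s35p_pushPic0 γ hγ hfin hN (heckeOperatorAlong Kbar (N * q) ℓ x)
      = heckeOperatorAlong Kbar N ℓ (s35p_pushPic0 γ hγ hfin hN x) := by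
  obtain ⟨D, rfl⟩ := Pic0.mk_surjective x
  have hD := s35p_isPrincipal_of_nsmul_mk hx
  rw [hib_heckeOperatorAlong_eq, hib_heckeOperatorAlong_eq, s35p_pushPic0_mk]
  show s35p_pushPic0 γ hγ hfin hN (Pic0.mk (Pic0.degZeroCorrespondence _ _
      (hib_betaIntegral (N * q) ℓ) (hib_alphaIntegral (N * q) ℓ)
      (hib_fundamentalIdentityAlong_beta (N * q) ℓ) D))
    = Pic0.mk (Pic0.degZeroCorrespondence _ _ (hib_betaIntegral N ℓ) (hib_alphaIntegral N ℓ)
      (hib_fundamentalIdentityAlong_beta N ℓ) (s35p_pushDegZero γ hγ D))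
  rw [s35p_pushPic0_mk]
  congr 1
  apply Subtype.ext
  exact h (D : Divisor Kbar (Fbar (N * q))) m hm hD

variable (p : ℕ) [hp : Fact p.Prime]

/-- **[P-EQUIV] for `P₁`**, abstract in (D) -/
theorem s35p_P1_hecke_of (hℓ : ℓ.Prime)
    (h : s35p_DivComm N q ℓ (heckeAlphaBar Kbar N q) (hib_alphaIntegral N q)) :
    s35p_P1 N q p ∘ₗ tj_hecke (N * q) p ⟨ℓ, hℓ⟩ = tj_hecke N p ⟨ℓ, hℓ⟩ ∘ₗ s35p_P1 N q p := by
  refine s35p_tmMap_comm p (s35p_P1J N q) _ _ ?_
  rintro x ⟨n, hx⟩
  exact s35p_pushJ_hecke_of _ _ h x (p ^ n) (pow_ne_zero _ hp.out.ne_zero) hx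

/-- **[P-EQUIV] for `P₂`**, abstract in (D) -/
theorem s35p_P2_hecke_of (hℓ : ℓ.Prime)
    (h : s35p_DivComm N q ℓ (heckeBetaBar Kbar N q) (hib_betaIntegral N q)) :
    s35p_P2 N q p ∘ₗ tj_hecke (N * q) p ⟨ℓ, hℓ⟩ = tj_hecke N p ⟨ℓ, hℓ⟩ ∘ₗ s35p_P2 N q p := by
  refine s35p_tmMap_comm p (s35p_P2J N q) _ _ ?_
  rintro x ⟨n, hx⟩
  exact s35p_pushJ_hecke_of _ _ h x (p ^ n) (pow_ne_zero _ hp.out.ne_zero) hx

end Equiv

end Fermat.Agent.S35
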