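/-
Project S35, cell [PLUMB] (Mathlib only): from a statement about the vectors of a free module `T`
over a principal ideal domain `R` to the same statement about the vectors of `K ⊗[R] T`, `K` a
field which is a torsion-free `R`-algebra.

* `s35pl_exists_indep` : every `u : K ⊗[R] T` is `∑ k_j ⊗ x_j` with `(k_j)` linearly independent
                         over `R`;
* `s35pl_eq_zero`      : if `(k_j)` is linearly independent over `R` and `T'` is flat, then
                         `∑ k_j ⊗ y_j = 0` in `K ⊗[R] T'` forces `y_j = 0` for all `j`;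
* `s35pl_main`         : [PLUMB]. If `Φ (Φ x) = c • x` for every `x : T` fixed by the
                         endomorphisms in `Fix` and killed by `P1 P2 : T → T'`, then
                         `Φ_K (Φ_K u) = c • u` for every `u : K ⊗[R] T` fixed by the base changes of
                         the endomorphisms in `Fix` and killed by the base changes of `P1`, `P2`.
Prefix `s35pl_`.  Owner: helper28.
-/
import Mathlib

set_option autoImplicit false

namespace Fermat.Agent.S35

open TensorProduct

section plumb

variable {R : Type*} [CommRing R] [IsDomain R] [IsPrincipalIdealRing R]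
  {K : Type*} [Field K] [Algebra R K]
  {T : Type*} [AddCommGroup T] [Module R T]
  {T' : Type*} [AddCommGroup T'] [Module R T']

omit [IsDomain R] [IsPrincipalIdealRing R] in
/-- If `(k_j)` is linearly independent over `R` and `T'` is flat, then `∑ k_j ⊗ y_j = 0` forces
all `y_j = 0`. -/
theorem s35pl_eq_zero [Module.Flat R T'] {n : ℕ} {k : Fin n → K} (hk : LinearIndependent R k)
    (y : Fin n → T') (h : ∑ j, k j ⊗ₜ[R] y j = (0 : K ⊗[R] T')) (j : Fin n) : y j = 0 := by
  classical
  set φ : (Fin n →₀ R) →ₗ[R] K := Finsupp.linearCombination R k with hφ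
  have hinj : Function.Injective (φ.rTensor T') :=
    Module.Flat.rTensor_preserves_injective_linearMap φ hk
  set z : (Fin n →₀ R) ⊗[R] T' := ∑ i, (Finsupp.single i (1 : R)) ⊗ₜ[R] y i with hz
  have hz0 : z = 0 := by
    apply hinj
    rw [map_zero, hz, map_sum, ← h]
    refine Finset.sum_congr rfl fun i _ => ?_
    rw [LinearMap.rTensor_tmul, hφ, Finsupp.linearCombination_single, one_smul]
  have h1 := congrArg (fun w => TensorProduct.finsuppScalarLeft R T' (Fin n) w j) hz0
  simp only [map_zero, Finsupp.coe_zero, Pi.zero_apply] at h1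
  rw [← h1, hz, map_sum, Finsupp.finsetSum_apply]
  simp only [TensorProduct.finsuppScalarLeft_apply_tmul_apply]
  rw [Finset.sum_eq_single j]
  · rw [Finsupp.single_eq_same, one_smul]
  · intro i _ hij
    rw [Finsupp.single_apply, if_neg hij, zero_smul]
  · intro hj
    exact absurd (Finset.mem_univ j) hj

/-- Every element of `K ⊗[R] T` has a representation `∑ k_j ⊗ x_j` with `(k_j)` linearly
independent over `R`. -/
theorem s35pl_exists_indep [Module.IsTorsionFree R K] (u : K ⊗[R] T) :
    ∃ (n : ℕ) (k : Fin n → K) (x : Fin n → T), LinearIndependent R k ∧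
      u = ∑ j, k j ⊗ₜ[R] x j := by
  classical
  obtain ⟨S, hS⟩ := TensorProduct.exists_finset u
  set F : Submodule R K := Submodule.span R ((S.image Prod.fst : Finset K) : Set K) with hF
  have : Module.Finite R F := Module.Finite.span_of_finite R (Finset.finite_toSet _)
  have : Module.IsTorsionFree R F :=
    Function.Injective.moduleIsTorsionFree F.subtype F.injective_subtype (fun _ _ => rfl)
  obtain ⟨n, b⟩ : Σ n : ℕ, Module.Basis (Fin n) R F := Module.basisOfFiniteTypeTorsionFree'
  have hmem : ∀ i ∈ S, i.1 ∈ F := fun i hi =>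
    Submodule.subset_span (Finset.mem_coe.2 (Finset.mem_image_of_mem Prod.fst hi))
  -- coordinates of the first components
  let c : K → Fin n → R := fun a => if h : a ∈ F then fun j => b.repr ⟨a, h⟩ j else 0
  have hc : ∀ a (h : a ∈ F), a = ∑ j, c a j • (b j : K) := by
    intro a h
    have h1 := b.sum_repr ⟨a, h⟩
    have h2 := congrArg (F.subtype) h1
    rw [map_sum] at h2
    simp only [map_smul, Submodule.subtype_apply] at h2
    refine h2.symm.trans (Finset.sum_congr rfl fun j _ => ?_)
    simp only [c, dif_pos h]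
  refine ⟨n, fun j => (b j : K), fun j => ∑ i ∈ S, c i.1 j • i.2, ?_, ?_⟩
  · exact b.linearIndependent.map' F.subtype (Submodule.ker_subtype F)
  · rw [hS]
    simp only [TensorProduct.tmul_sum]
    rw [Finset.sum_comm]
    refine Finset.sum_congr rfl fun i hi => ?_
    conv_lhs => rw [hc i.1 (hmem i hi), TensorProduct.sum_tmul]
    refine Finset.sum_congr rfl fun j _ => ?_
    rw [TensorProduct.smul_tmul]

omit [IsDomain R] [IsPrincipalIdealRing R] in
/-- base change of a linear map on a sum of pure tensors -/
theorem s35pl_baseChange_sum (f : T →ₗ[R] T') {n : ℕ} (k : Fin n → K) (x : Fin n → T) :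
    f.baseChange K (∑ j, k j ⊗ₜ[R] x j) = ∑ j, k j ⊗ₜ[R] f (x j) := by
  rw [map_sum]
  exact Finset.sum_congr rfl fun j _ => LinearMap.baseChange_tmul _ _ _

/-- **[PLUMB].** -/
theorem s35pl_main [Module.IsTorsionFree R K] [Module.Free R T] [Module.Flat R T']
    (P1 P2 : T →ₗ[R] T') (Fix : Set (Module.End R T)) (Φ : Module.End R T) (c : R)
    (hTOR : ∀ x : T, (∀ f ∈ Fix, f x = x) → P1 x = 0 → P2 x = 0 → Φ (Φ x) = c • x)
    (u : K ⊗[R] T) (hfix : ∀ f ∈ Fix, f.baseChange K u = u)
    (h1 : P1.baseChange K u = 0) (h2 : P2.baseChange K u = 0) :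
    Φ.baseChange K (Φ.baseChange K u) = algebraMap R K c • u := by
  obtain ⟨n, k, x, hk, rfl⟩ := s35pl_exists_indep (R := R) (K := K) u
  have hx1 : ∀ j, P1 (x j) = 0 := by
    rw [s35pl_baseChange_sum] at h1
    exact s35pl_eq_zero hk _ h1
  have hx2 : ∀ j, P2 (x j) = 0 := by
    rw [s35pl_baseChange_sum] at h2
    exact s35pl_eq_zero hk _ h2
  have hxf : ∀ f ∈ Fix, ∀ j, f (x j) = x j := by
    intro f hf j
    have h3 := hfix f hf
    rw [s35pl_baseChange_sum] at h3
    have h4 : ∑ j, k j ⊗ₜ[R] (f (x j) - x j) = (0 : K ⊗[R] T) := by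
      simp only [TensorProduct.tmul_sub, Finset.sum_sub_distrib]
      rw [h3, sub_self]
    exact sub_eq_zero.1 (s35pl_eq_zero hk _ h4 j)
  rw [s35pl_baseChange_sum, map_sum, Finset.smul_sum]
  refine Finset.sum_congr rfl fun j _ => ?_
  rw [LinearMap.baseChange_tmul, hTOR (x j) (fun f hf => hxf f hf j) (hx1 j) (hx2 j),
    TensorProduct.tmul_smul, algebraMap_smul]

end plumb

end Fermat.Agent.S35
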