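/-
Project S35: THE GEOMETRIC SEAMS (interim architect: helper6).  Twin of `SS/Seams.lean` +
`SS/CoreSeam.lean` for the TORIC clause  "`φ² = q²` on the inertia-fixed `q`-new classes".

Notation: `N = N' * q`, `q ∤ N'` prime, `α, β : F̄_{N'} → F̄_{N' q}` the two degeneracy maps
(`heckeAlphaBar`, `heckeBetaBar`), `A` a valuation ring of `Q̄` over `q`, `I_A` its inertia group,
`φ` a Frobenius element at `A`.

Chain (top to bottom):

  [FROBSQ] (`pkq_S35_of_tate`, S35/PackQ.lean)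
     ⟸ [TOR-T] (Tate module)  ⟸ [TATE-LIM]  `s35_Geom N' q`
     ⟸ [KUM]   `s35_KeyBar N' q`
     ⟸ [DESC]  `s35_CoreLeg N' q` (q odd, Legendre cover) resp. `s35_CoreHes N' q` (q = 2, Hesse)
     ⟸ [ABEL] `s35_AbelLeg` + [TORIC] `s35_ToricLeg` (`s35_coreAt_of_abel_toric`, below).

* `s35_Geom N' q`   : a fixed nonzero multiple of `φ² - q²` kills the prime-to-`q` torsion classes of
                      `J₀(N' q)` which are fixed by `I_A` and killed by both push-forwards to `J₀(N')`;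
* `s35_KeyBar N' q` : the Kummer form over `Q̄`;
* `s35_Frob O φ q`  : `φ` (and `φ⁻¹`) preserve the valuation ring `O` and `φ` induces `x ↦ x ^ q` on
                      its residue field;
* `s35_CoreAt`      : THE CORE over `(L, O, φ)`, `O` UNRAMIFIED (uniformiser `q`), in the cover field
                      `E = lg_E L (N' q)`, with the norms to `E' = lg_E L N'` along the inclusion and
                      along `W` (Atkin–Lehner);
* `s35_AbelAt`      : [ABEL]: after raising to a fixed power and dividing by an `m`-th power, the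
                      function is a unit with CONSTANT reductions at the two Gauss valuations;
* `s35_ToricAt`     : [TORIC]: for such functions `φ² g = c · r^m · g^(q²)`.
Prefix `s35_`.
-/
import Mathlib
import Fermat.Agent.SS.Seams
import Fermat.Agent.JT3.Hecke.InputsBar
import Fermat.Agent.SS.Model.TwoPrimesLeg
import Fermat.Agent.SS.Model.Sigma
import Fermat.Agent.S24.Hurwitz.Places
import Fermat.Agent.SS.Model.FactsHesse

set_option autoImplicit false
set_option linter.unusedSectionVars false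
set_option linter.unusedVariables false
set_option linter.style.haveILetI false

noncomputable section

namespace Fermat.Agent.S35

open ModularCurve AlgebraicCurve IsLocalRing Fermat.Agent.JT3 Fermat.Agent.S24 Fermat.Agent.SS

local notation "GQ" => (AlgebraicClosure ℚ ≃ₐ[ℚ] AlgebraicClosure ℚ)

/-! ### Over `Q̄` -/

section Bar

variable (N' q : ℕ) [NeZero N'] [NeZero q]

/-- the norm `F̄_{N' q} → F̄_{N'}` along the inclusion `α`. -/
def s35_normA (f : Fbar (N' * q)) : Fbar N' :=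
  letI := algebraAlong (heckeAlphaBar Kbar N' q)
  Algebra.norm (Fbar N') f

/-- the norm `F̄_{N' q} → F̄_{N'}` along `β = (X ↦ X^q)`. -/
def s35_normB (f : Fbar (N' * q)) : Fbar N' :=
  letI := algebraAlong (heckeBetaBar Kbar N' q)
  Algebra.norm (Fbar N') f

/-- **Geometric seam.** For every valuation ring `P` of `Q̄` over `q` and every Frobenius element
`φ` at `P` there is `d ≠ 0` (UNIFORM IN `m`) such that for every `m` prime to `q` and every
`z ∈ J₀(N' q)[m]` which is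
fixed by the inertia group of `P` and is the class of a divisor whose push-forwards along `α` and
`β` are principal: `d (φ² - q²) z = 0`. -/
def s35_Geom : Prop :=
  ∀ P : ValuationSubring (AlgebraicClosure ℚ), P.LiesOverPrime q →
    ∀ φ : GQ, P.IsFrobeniusAt φ q → ∃ d : ℕ, d ≠ 0 ∧ ∀ m : ℕ, ¬ q ∣ m →
      ∀ D : Divisor.degZero (K := Kbar) (F := Fbar (N' * q)),
        m • (Pic0.mk D : JZero (N' * q)) = 0 →
        (∀ s ∈ P.inertiaSubgroupIn ℚ, s • (Pic0.mk D : JZero (N' * q)) = Pic0.mk D) →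
        (Divisor.pushforwardAlong (heckeAlphaBar Kbar N' q) (hib_alphaIntegral N' q)
          (D : Divisor Kbar (Fbar (N' * q)))).IsPrincipal →
        (Divisor.pushforwardAlong (heckeBetaBar Kbar N' q) (hib_betaIntegral N' q)
          (D : Divisor Kbar (Fbar (N' * q)))).IsPrincipal →
        d • (φ • (φ • (Pic0.mk D : JZero (N' * q))) - (q ^ 2) • (Pic0.mk D : JZero (N' * q))) = 0

/-- **Kummer seam.** For `φ` a Frobenius element at `P` over `q` there is `d ≠ 0` (uniform in `m`)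
such that for `q ∤ m` and `f ≠ 0` with all orders divisible by `m`, whose Kummer class is fixed by the inertia
group and whose norms along `α` and `β` are `m`-th powers up to constants:
`(φ²f)^d = c · r^m · f^(q² d)`. -/
def s35_KeyBar : Prop :=
  ∀ P : ValuationSubring (AlgebraicClosure ℚ), P.LiesOverPrime q →
    ∀ φ : GQ, P.IsFrobeniusAt φ q → ∃ d : ℕ, d ≠ 0 ∧ ∀ m : ℕ, ¬ q ∣ m →
      ∀ f : Fbar (N' * q), f ≠ 0 →
        (∀ v : Place Kbar (Fbar (N' * q)), (m : ℤ) ∣ v.ord f) →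
        (∀ s ∈ P.inertiaSubgroupIn ℚ, ∃ (c : Kbar) (r : Fbar (N' * q)), r ≠ 0 ∧
          ss_act (N' * q) s f = algebraMap Kbar (Fbar (N' * q)) c * r ^ m * f) →
        (∃ (c : Kbar) (r : Fbar N'), r ≠ 0 ∧
          s35_normA N' q f = algebraMap Kbar (Fbar N') c * r ^ m) →
        (∃ (c : Kbar) (r : Fbar N'), r ≠ 0 ∧
          s35_normB N' q f = algebraMap Kbar (Fbar N') c * r ^ m) →
        ∃ (c : Kbar) (r : Fbar (N' * q)), r ≠ 0 ∧
          ss_act (N' * q) φ (ss_act (N' * q) φ f) ^ d =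
            algebraMap Kbar (Fbar (N' * q)) c * r ^ m * f ^ (q ^ 2 * d)

end Bar

/-! ### Over an unramified base -/

/-- `φ` and `φ⁻¹` preserve the valuation ring `O`, and `φ` induces `x ↦ x ^ q` on its residue
field. -/
def s35_Frob {L : Type*} [Field L] (O : ValuationSubring L) (φ : L ≃+* L) (q : ℕ) : Prop :=
  ∀ x ∈ O, φ x ∈ O ∧ φ.symm x ∈ O ∧ φ x - x ^ q ∈ O.nonunits

section Legendre

variable {L : Type*} [Field L] [CharZero L] [Algebra L (AlgebraicClosure ℚ)]
  (O : ValuationSubring L) [IsDiscreteValuationRing O] {π : O} (hπ : Irreducible π)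
  (N' q : ℕ) [NeZero N'] [NeZero q] [hq : Fact q.Prime] [CharP (ResidueField O) q]
  (hq2 : ¬ 2 ∣ q) (hqN' : ¬ q ∣ N')

/-- the norm `E = lg_E L (N' q) → E' = lg_E L N'` (along the inclusion). -/
def s35_normE (g : ↥(lg_E L (N' * q))) : ↥(lg_E L N') :=
  letI := ssm_gi_algebra (ssm_al_E_le L N' q)
  Algebra.norm ↥(lg_E L N') g

/-- all orders of `g` at the places of `E / L` are divisible by `m`, and the norms of `g` along the
inclusion and along `W` are `m`-th powers up to constants. -/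
def s35_NewAt (m : ℕ) (g : ↥(lg_E L (N' * q))) : Prop :=
  g ≠ 0 ∧ (∀ v : Place L ↥(lg_E L (N' * q)), (m : ℤ) ∣ v.ord g) ∧
    (∃ (c : L) (r : ↥(lg_E L N')), r ≠ 0 ∧
      s35_normE N' q g = algebraMap L ↥(lg_E L N') c * r ^ m) ∧
    (∃ (c : L) (r : ↥(lg_E L N')), r ≠ 0 ∧
      s35_normE N' q (ssm_gl_W L N' q hq2 hqN' g) = algebraMap L ↥(lg_E L N') c * r ^ m)

/-- **THE CORE** over `(L, φ)` in the Legendre cover field: for `g` as in `s35_NewAt`,
`(φ²g)^d = c · r^m · g^(q² d)` (`φ` acting on the coefficients: `ssm_sg_aut`). -/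
def s35_CoreAt (φ : L ≃+* L) (m d : ℕ) : Prop :=
  ∀ g : ↥(lg_E L (N' * q)), s35_NewAt N' q hq2 hqN' m g →
    ∃ (c : L) (r : ↥(lg_E L (N' * q))), r ≠ 0 ∧
      ssm_sg_aut (N' * q) φ (ssm_sg_aut (N' * q) φ g) ^ d =
        algebraMap L ↥(lg_E L (N' * q)) c * r ^ m * g ^ (q ^ 2 * d)

/-- the reductions of `g` at the two Gauss valuations `V₁`, `V₂ = W V₁` are constants. -/
def s35_ConstRed (g : ↥(lg_E L (N' * q))) : Prop :=
  ∃ k1 k2 : O, IsUnit k1 ∧ IsUnit k2 ∧
    g - algebraMap L ↥(lg_E L (N' * q)) (k1 : L) ∈ (ssm_gl_V1 O hπ N' q).nonunits ∧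
    g - algebraMap L ↥(lg_E L (N' * q)) (k2 : L) ∈ (ssm_gl_V2 O hπ N' q hq2 hqN').nonunits

/-- **[ABEL]** at `(L, O, m)` with exponent `d`: `g^d = c · R^m · g'` with `g'` of constant
reductions. -/
def s35_AbelAt (m d : ℕ) : Prop :=
  ∀ g : ↥(lg_E L (N' * q)), s35_NewAt N' q hq2 hqN' m g →
    ∃ (c : L) (R g' : ↥(lg_E L (N' * q))), c ≠ 0 ∧ R ≠ 0 ∧ g' ≠ 0 ∧
      g ^ d = algebraMap L ↥(lg_E L (N' * q)) c * R ^ m * g' ∧
      s35_ConstRed O hπ N' q hq2 hqN' g'

/-- **[TORIC]** at `(L, O, φ, m)`: for `g'` with all orders divisible by `m` and constant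
reductions, `φ²g' = c · r^m · g'^(q²)`. -/
def s35_ToricAt (φ : L ≃+* L) (m : ℕ) : Prop :=
  ∀ g' : ↥(lg_E L (N' * q)), g' ≠ 0 →
    (∀ v : Place L ↥(lg_E L (N' * q)), (m : ℤ) ∣ v.ord g') →
    s35_ConstRed O hπ N' q hq2 hqN' g' →
    ∃ (c : L) (r : ↥(lg_E L (N' * q))), r ≠ 0 ∧
      ssm_sg_aut (N' * q) φ (ssm_sg_aut (N' * q) φ g') =
        algebraMap L ↥(lg_E L (N' * q)) c * r ^ m * g' ^ (q ^ 2)

theorem s35_alg_aux {F : Type*} [Field F] (A A' C' PR r R g' : F) (m Q : ℕ) (hA : A ≠ 0)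
    (hR : R ≠ 0) :
    A' * PR ^ m * (C' * r ^ m * g' ^ Q) =
      (A' * C' / A ^ Q) * (PR * r / R ^ Q) ^ m * (A * R ^ m * g') ^ Q := by
  have h1 : (R ^ Q) ^ m = (R ^ m) ^ Q := by rw [← pow_mul, ← pow_mul, mul_comm]
  rw [div_pow, mul_pow, mul_pow, mul_pow, h1]
  field_simp

/-- **The core from [ABEL] and [TORIC].** -/
theorem s35_coreAt_of_abel_toric (φ : L ≃+* L) (m d : ℕ)
    (hA : s35_AbelAt O hπ N' q hq2 hqN' m d) (hT : s35_ToricAt O hπ N' q hq2 hqN' φ m) :
    s35_CoreAt N' q hq2 hqN' φ m d := by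
  intro g hg
  obtain ⟨c, R, g', hc0, hR0, hg'0, hgd, hred⟩ := hA g hg
  obtain ⟨hg0, hord, -, -⟩ := hg
  have hcE : algebraMap L ↥(lg_E L (N' * q)) c ≠ 0 := by
    rw [Ne, map_eq_zero]
    exact hc0
  -- the orders of `g'` are divisible by `m`
  have hord' : ∀ v : Place L ↥(lg_E L (N' * q)), (m : ℤ) ∣ v.ord g' := by
    intro v
    have h1 := congrArg v.ord hgd
    rw [← zpow_natCast, v.ord_zpow, v.ord_mul (mul_ne_zero hcE (pow_ne_zero m hR0)) hg'0,
      v.ord_mul hcE (pow_ne_zero m hR0), hw_ord_algebraMap, zero_add, ← zpow_natCast,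
      v.ord_zpow] at h1
    have h2 : v.ord g' = (d : ℤ) * v.ord g - (m : ℤ) * v.ord R := by
      rw [h1]; ring
    rw [h2]
    exact dvd_sub (Dvd.dvd.mul_left (hord v) _) (dvd_mul_right _ _)
  obtain ⟨c', r, hr0, hφ⟩ := hT g' hg'0 hord' hred
  set Φ := (ssm_sg_aut (N' * q) φ).trans (ssm_sg_aut (N' * q) φ) with hΦ
  have hΦg : ∀ z, Φ z = ssm_sg_aut (N' * q) φ (ssm_sg_aut (N' * q) φ z) := fun z => rfl
  have hΦc : Φ (algebraMap L ↥(lg_E L (N' * q)) c) =
      algebraMap L ↥(lg_E L (N' * q)) (φ (φ c)) := by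
    rw [hΦg, ssm_sg_aut_algebraMap, ssm_sg_aut_algebraMap]
  have hR0' : R ^ (q ^ 2) ≠ 0 := pow_ne_zero _ hR0
  have hcq : algebraMap L ↥(lg_E L (N' * q)) c ^ (q ^ 2) ≠ 0 := pow_ne_zero _ hcE
  refine ⟨φ (φ c) * c' / c ^ (q ^ 2), Φ R * r / R ^ (q ^ 2), ?_, ?_⟩
  · exact div_ne_zero (mul_ne_zero ((map_ne_zero Φ).2 hR0) hr0) hR0'
  · rw [← hΦg, ← map_pow, hgd, map_mul, map_mul, map_pow, hΦc, hΦg g', hφ, pow_mul', hgd]
    rw [map_div₀, map_mul, map_pow]
    exact s35_alg_aux _ _ _ _ _ _ _ m (q ^ 2) hcE hR0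

end Legendre

end Fermat.Agent.S35
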