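/-
Project S35: THE GEOMETRIC CORE SEAMS, HESSE TWIN (helper8; twin of the section `Legendre` of
helper6's `S35/Seams.lean`, for `q ≠ 3` prime — in the application `q = 2`).

Context = `SS/Model/FactsHesse.lean`: `E = hs_E L h3 (N' q)`, `E' = hs_E L h3 N'`,
`W = ssm_fh_W` the Atkin–Lehner involution of `E`, `V₁ = ssm_fh_V1` the Gauss valuation subring,
`V₂ = ssm_fh_V2 = W V₁`, `φ` acting on the coefficients by `ssm_sgh_aut`.

* `s35h_normE`   : the norm `E → E'` (along the inclusion);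
* `s35h_NewAt`   : all orders of `g` divisible by `m`, the norms of `g` and of `W g` are `m`-th powers
                   up to constants;
* `s35h_CoreAt`  : THE CORE over `(L, φ)`: `(φ²g)^d = c · r^m · g^(q² d)`;
* `s35h_ConstRed`: the reductions at `V₁`, `V₂` are constants;
* `s35h_AbelAt`  : [ABEL]; `s35h_ToricAt` : [TORIC];
* `s35h_coreAt_of_abel_toric` : [ABEL] + [TORIC] ⟹ the core.
Prefix `s35h_`.
-/
import Mathlib
import Fermat.Agent.S35.Seams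
import Fermat.Agent.SS.Model.FactsHesse
import Fermat.Agent.SS.Model.SigmaHesse

set_option autoImplicit false
set_option linter.unusedSectionVars false
set_option linter.unusedVariables false
set_option linter.style.haveILetI false

noncomputable section

namespace Fermat.Agent.S35

open ModularCurve AlgebraicCurve IsLocalRing Fermat.Agent.JT3 Fermat.Agent.S24 Fermat.Agent.SS

section Hesse

variable {L : Type*} [Field L] [CharZero L] [Algebra L (AlgebraicClosure ℚ)] (h3 : (3 : L) ≠ 0)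
  (O : ValuationSubring L) [IsDiscreteValuationRing O] (h3O : IsUnit (3 : O)) {π : O}
  (hπ : Irreducible π)
  (N' q : ℕ) [NeZero N'] [NeZero q] [hq : Fact q.Prime] [CharP (ResidueField O) q]
  (hq3 : ¬ 3 ∣ q) (hqN' : ¬ q ∣ N')

/-- the norm `E = hs_E L h3 (N' q) → E' = hs_E L h3 N'` (along the inclusion). -/
def s35h_normE (g : ↥(hs_E L h3 (N' * q))) : ↥(hs_E L h3 N') :=
  letI := ssm_gi_algebra (ssm_alh_E_le L h3 (ssm_fh_hF9 h3) N' q)
  Algebra.norm ↥(hs_E L h3 N') g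

/-- all orders of `g` at the places of `E / L` are divisible by `m`, and the norms of `g` along the
inclusion and along `W` are `m`-th powers up to constants. -/
def s35h_NewAt (m : ℕ) (g : ↥(hs_E L h3 (N' * q))) : Prop :=
  g ≠ 0 ∧ (∀ v : Place L ↥(hs_E L h3 (N' * q)), (m : ℤ) ∣ v.ord g) ∧
    (∃ (c : L) (r : ↥(hs_E L h3 N')), r ≠ 0 ∧
      s35h_normE h3 N' q g = algebraMap L ↥(hs_E L h3 N') c * r ^ m) ∧
    (∃ (c : L) (r : ↥(hs_E L h3 N')), r ≠ 0 ∧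
      s35h_normE h3 N' q (ssm_fh_W h3 N' q hq3 hqN' g) = algebraMap L ↥(hs_E L h3 N') c * r ^ m)

/-- **THE CORE** over `(L, φ)` in the Hesse cover field: for `g` as in `s35h_NewAt`,
`(φ²g)^d = c · r^m · g^(q² d)` (`φ` acting on the coefficients: `ssm_sgh_aut`). -/
def s35h_CoreAt (φ : L ≃+* L) (m d : ℕ) : Prop :=
  ∀ g : ↥(hs_E L h3 (N' * q)), s35h_NewAt h3 N' q hq3 hqN' m g →
    ∃ (c : L) (r : ↥(hs_E L h3 (N' * q))), r ≠ 0 ∧
      ssm_sgh_aut h3 (N' * q) φ (ssm_sgh_aut h3 (N' * q) φ g) ^ d =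
        algebraMap L ↥(hs_E L h3 (N' * q)) c * r ^ m * g ^ (q ^ 2 * d)

/-- the reductions of `g` at the two Gauss valuations `V₁`, `V₂ = W V₁` are constants. -/
def s35h_ConstRed (g : ↥(hs_E L h3 (N' * q))) : Prop :=
  ∃ k1 k2 : O, IsUnit k1 ∧ IsUnit k2 ∧
    g - algebraMap L ↥(hs_E L h3 (N' * q)) (k1 : L) ∈ (ssm_fh_V1 h3 O h3O hπ N' q).nonunits ∧
    g - algebraMap L ↥(hs_E L h3 (N' * q)) (k2 : L) ∈
      (ssm_fh_V2 h3 O h3O hπ N' q hq3 hqN').nonunits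

/-- **[ABEL]** at `(L, O, m)` with exponent `d`: `g^d = c · R^m · g'` with `g'` of constant
reductions. -/
def s35h_AbelAt (m d : ℕ) : Prop :=
  ∀ g : ↥(hs_E L h3 (N' * q)), s35h_NewAt h3 N' q hq3 hqN' m g →
    ∃ (c : L) (R g' : ↥(hs_E L h3 (N' * q))), c ≠ 0 ∧ R ≠ 0 ∧ g' ≠ 0 ∧
      g ^ d = algebraMap L ↥(hs_E L h3 (N' * q)) c * R ^ m * g' ∧
      s35h_ConstRed h3 O h3O hπ N' q hq3 hqN' g'

/-- **[TORIC]** at `(L, O, φ, m)`: for `g'` with all orders divisible by `m` and constant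
reductions, `φ²g' = c · r^m · g'^(q²)`. -/
def s35h_ToricAt (φ : L ≃+* L) (m : ℕ) : Prop :=
  ∀ g' : ↥(hs_E L h3 (N' * q)), g' ≠ 0 →
    (∀ v : Place L ↥(hs_E L h3 (N' * q)), (m : ℤ) ∣ v.ord g') →
    s35h_ConstRed h3 O h3O hπ N' q hq3 hqN' g' →
    ∃ (c : L) (r : ↥(hs_E L h3 (N' * q))), r ≠ 0 ∧
      ssm_sgh_aut h3 (N' * q) φ (ssm_sgh_aut h3 (N' * q) φ g') =
        algebraMap L ↥(hs_E L h3 (N' * q)) c * r ^ m * g' ^ (q ^ 2)

/-- **The core from [ABEL] and [TORIC]** (Hesse twin of `s35_coreAt_of_abel_toric`). -/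
theorem s35h_coreAt_of_abel_toric (φ : L ≃+* L) (m d : ℕ)
    (hA : s35h_AbelAt h3 O h3O hπ N' q hq3 hqN' m d)
    (hT : s35h_ToricAt h3 O h3O hπ N' q hq3 hqN' φ m) :
    s35h_CoreAt h3 N' q hq3 hqN' φ m d := by
  intro g hg
  obtain ⟨c, R, g', hc0, hR0, hg'0, hgd, hred⟩ := hA g hg
  obtain ⟨hg0, hord, -, -⟩ := hg
  have hcE : algebraMap L ↥(hs_E L h3 (N' * q)) c ≠ 0 := by
    rw [Ne, map_eq_zero]
    exact hc0
  -- the orders of `g'` are divisible by `m`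
  have hord' : ∀ v : Place L ↥(hs_E L h3 (N' * q)), (m : ℤ) ∣ v.ord g' := by
    intro v
    have h1 := congrArg v.ord hgd
    rw [← zpow_natCast, v.ord_zpow, v.ord_mul (mul_ne_zero hcE (pow_ne_zero m hR0)) hg'0,
      v.ord_mul hcE (pow_ne_zero m hR0), hw_ord_algebraMap, zero_add, ← zpow_natCast,
      v.ord_zpow] at h1
    have h2 : v.ord g' = (d : ℤ) * v.ord g - (m : ℤ) * v.ord R := by
      rw [h1]; ring
    rw [h2]
    exact dvd_sub (Dvd.dvd.mul_left (hord v) _) (dvd_mul_right _ _)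
  obtain ⟨c', r, hr0, hφ⟩ := hT g' hg'0 hord' hred
  set Φ := (ssm_sgh_aut h3 (N' * q) φ).trans (ssm_sgh_aut h3 (N' * q) φ) with hΦ
  have hΦg : ∀ z, Φ z = ssm_sgh_aut h3 (N' * q) φ (ssm_sgh_aut h3 (N' * q) φ z) := fun z => rfl
  have hΦc : Φ (algebraMap L ↥(hs_E L h3 (N' * q)) c) =
      algebraMap L ↥(hs_E L h3 (N' * q)) (φ (φ c)) := by
    rw [hΦg, ssm_sgh_aut_algebraMap, ssm_sgh_aut_algebraMap]
  have hR0' : R ^ (q ^ 2) ≠ 0 := pow_ne_zero _ hR0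
  have hcq : algebraMap L ↥(hs_E L h3 (N' * q)) c ^ (q ^ 2) ≠ 0 := pow_ne_zero _ hcE
  refine ⟨φ (φ c) * c' / c ^ (q ^ 2), Φ R * r / R ^ (q ^ 2), ?_, ?_⟩
  · exact div_ne_zero (mul_ne_zero ((map_ne_zero Φ).2 hR0) hr0) hR0'
  · rw [← hΦg, ← map_pow, hgd, map_mul, map_mul, map_pow, hΦc, hΦg g', hφ, pow_mul', hgd]
    rw [map_div₀, map_mul, map_pow]
    exact s35_alg_aux _ _ _ _ _ _ _ m (q ^ 2) hcE hR0

end Hesse

end Fermat.Agent.S35
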