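/-
S35, cell [K35] KUMMER TRANSLATION (helper16; prefix `s35k_`): the S35 twin of `SS/Kummer.lean` and
of `sst_tate_unip` (`SS/Transfer.lean`).

* `s35k_Geom N q`   : GEOMETRIC seam: for every place `P` of `Q̄` over `q` there is `E₀ ≠ 0` such that
                      for every Frobenius element `φ` at `P`, every `m` prime to `q` and every
                      `z ∈ J₀(N q)[m]` fixed by the inertia group `I_P` and killed by the two
                      push-forwards `(α_q)_*, (β_q)_* : J₀(N q) → J₀(N)`: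
                      `E₀ • (φ² z - q² z) = 0`;
* `s35k_KeyBar N q` : KUMMER seam: the same for functions: `f ∈ Q̄(X₀(N q))ˣ` with all orders divisible
                      by `m`, `s f = c · r^m · f` for `s ∈ I_P`, `Norm_α f = c · h^m`,
                      `Norm_β f = c · h^m`   ⟹   `(φ² f)^E₀ = c · r^m · f^(q² E₀)`;
* `s35k_geom_of_keyBar` : `s35k_KeyBar N q → s35k_Geom N q`;
* `s35k_torT`       : `s35k_Geom N q` ⟹ the clause [TOR-T] of `s35t_TorNew` (S35/FrobSqOf.lean) for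
                      `T' := tj_T N p`, `P_i := s35p_P_i N q p`.
-/
import Mathlib
import Fermat.Agent.S35.PMaps
import Fermat.Agent.SS.Kummer
import Fermat.Agent.JT3.Riemann.Main

set_option autoImplicit false
set_option linter.unusedSectionVars false
set_option linter.style.haveILetI false
set_option synthInstance.maxHeartbeats 400000
set_option maxHeartbeats 1000000

noncomputable section

namespace Fermat.Agent.S35

open ModularCurve AlgebraicCurve Fermat.Agent.S24 Fermat.Agent.JT3 Fermat.Agent.SS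

local notation "GQ" => (AlgebraicClosure ℚ ≃ₐ[ℚ] AlgebraicClosure ℚ)
local notation "Qbar" => AlgebraicClosure ℚ

/-! ### generic Kummer dictionary -/

section Generic

variable {K F F' : Type*} [Field K] [Field F] [Field F'] [Algebra K F] [Algebra K F']

/-- the norm along a homomorphism of fields `φ : F → F'` -/
def s35k_norm (φ : F →ₐ[K] F') (f : F') : F :=
  letI := algebraAlong φ
  Algebra.norm F f

variable [IsAlgClosed K]

/-- two nonzero functions with the same orders at all places differ by a nonzero constant -/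
theorem s35k_eq_const_mul {x : F} (hx : rt_IsSepGen K x) {f f' : F} (hf : f ≠ 0) (hf' : f' ≠ 0)
    (h : ∀ v : Place K F, v.ord f = v.ord f') :
    ∃ c : K, c ≠ 0 ∧ f = algebraMap K F c * f' := by
  have hq : f / f' ≠ 0 := div_ne_zero hf hf'
  have hmem : ∀ v : Place K F, f / f' ∈ v.toValuationSubring := by
    intro v
    rw [hw_mem_iff_ord_nonneg v hq, div_eq_mul_inv, v.ord_mul hf (inv_ne_zero hf'), v.ord_inv,
      h v]
    omega
  obtain ⟨a, ha⟩ := rt_const_of_forall_mem hx (f / f') hmem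
  have ha0 : a ≠ 0 := by
    rintro rfl
    rw [map_zero] at ha
    exact hq ha
  refine ⟨a, ha0, ?_⟩
  rw [← ha, div_mul_cancel₀ f hf']

/-- a class `[D]` with `m D = div f` which is fixed by `g`: `g f = c · r^m · f`. -/
theorem s35k_fix_kummer {x : F} (hx : rt_IsSepGen K x) (g : SemilinearAut K F)
    (D : Divisor.degZero (K := K) (F := F)) {m : ℕ} {f : F} (hf : f ≠ 0)
    (hD : ∀ v : Place K F, (m : ℤ) * (D : Divisor K F) v = v.ord f)
    (hfix : g • Pic0.mk D = Pic0.mk D) :
    ∃ (c : K) (r : F), r ≠ 0 ∧ g • f = algebraMap K F c * r ^ m * f := by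
  have h0 : Pic0.mk (SemilinearAut.degZeroSMulHom g D - D) = 0 := by
    have h1 : Pic0.mk (SemilinearAut.degZeroSMulHom g D - D) =
        Pic0.mk (SemilinearAut.degZeroSMulHom g D) - Pic0.mk D := rfl
    rw [h1, ← SemilinearAut.pic0_smul_mk, hfix, sub_self]
  have h2 := (QuotientAddGroup.eq_zero_iff _).1 h0
  rw [AddSubgroup.mem_addSubgroupOf] at h2
  obtain ⟨r, hr, hrD⟩ := h2
  have hgf : g • f ≠ 0 := by
    rw [Ne, smul_eq_zero_iff_eq]; exact hf
  have hord : ∀ v : Place K F, v.ord (g • f) = v.ord (r ^ m * f) := by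
    intro v
    have e1 : v.ord (g • f) = (m : ℤ) * (g • (D : Divisor K F)) v := by
      rw [ssk_ord_smul, ← hD, SemilinearAut.divisor_smul_apply]
    have e2 := hrD v
    rw [AddSubgroup.coe_sub, SemilinearAut.coe_degZeroSMulHom, Finsupp.sub_apply] at e2
    rw [e1, v.ord_mul (pow_ne_zero m hr) hf, ssk_ord_pow, ← hD v, ← e2]
    ring
  obtain ⟨c, -, hc⟩ := s35k_eq_const_mul hx hgf (mul_ne_zero (pow_ne_zero m hr) hf) hord
  exact ⟨c, r, hr, by rw [hc, mul_assoc]⟩

/-- a class `[D]` with `m D = div f` killed by the push-forward along `φ`: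
`Norm_φ f = c · h^m`. -/
theorem s35k_push_kummer {x : F} (hx : rt_IsSepGen K x) (φ : F →ₐ[K] F')
    (hφ : φ.toRingHom.IsIntegral) (hfin : FiniteAlong K φ) (hN : NormFormulaAlong K φ hfin)
    (D : Divisor.degZero (K := K) (F := F')) {m : ℕ} {f : F'} (hf : f ≠ 0)
    (hD : ∀ w : Place K F', (m : ℤ) * (D : Divisor K F') w = w.ord f)
    (hpush : s35p_pushPic0 φ hφ hfin hN (Pic0.mk D) = 0) :
    ∃ (c : K) (h : F), h ≠ 0 ∧ s35k_norm φ f = algebraMap K F c * h ^ m := by
  rw [s35p_pushPic0_mk] at hpush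
  have h2 := (QuotientAddGroup.eq_zero_iff _).1 hpush
  rw [AddSubgroup.mem_addSubgroupOf] at h2
  obtain ⟨h, hh, hhD⟩ := h2
  rw [s35p_coe_pushDegZero] at hhD
  -- the norm formula for `m • D = div f`
  have hnorm : ∀ v : Place K F,
      Divisor.pushforwardAlong φ hφ (m • (D : Divisor K F')) v = v.ord (s35k_norm φ f) := by
    intro v
    letI := algebraAlong φ
    haveI := isScalarTower_along φ
    haveI := isIntegral_along φ hφ
    haveI : Module.Finite F F' := hfin
    exact hN f hf (m • (D : Divisor K F')) (fun w => by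
      rw [Finsupp.smul_apply, nsmul_eq_mul]; exact hD w) v
  have hnf : s35k_norm φ f ≠ 0 := by
    letI := algebraAlong φ
    haveI : Module.Finite F F' := hfin
    exact Algebra.norm_ne_zero_iff.mpr hf
  have hord : ∀ v : Place K F, v.ord (s35k_norm φ f) = v.ord (h ^ m) := by
    intro v
    rw [← hnorm v, map_nsmul, Finsupp.smul_apply, nsmul_eq_mul, hhD v, ssk_ord_pow]
  obtain ⟨c, -, hc⟩ := s35k_eq_const_mul hx hnf (pow_ne_zero m hh) hord
  exact ⟨c, h, hh, hc⟩

/-- from the Kummer relation `(g² f)^E = c · r^m · f^(Q E)` to the class relation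
`E • (g² [D] - Q [D]) = 0`. -/
theorem s35k_class_of_kummer (g : SemilinearAut K F) (D : Divisor.degZero (K := K) (F := F))
    {m : ℕ} (hm : m ≠ 0) {f : F} (hf : f ≠ 0)
    (hD : ∀ v : Place K F, (m : ℤ) * (D : Divisor K F) v = v.ord f) (E Q : ℕ)
    {c : K} {r : F} (hr : r ≠ 0)
    (h : (g • (g • f)) ^ E = algebraMap K F c * r ^ m * f ^ (Q * E)) :
    E • (g • (g • Pic0.mk D) - Q • Pic0.mk D) = 0 := by
  have hgf : g • f ≠ 0 := by
    rw [Ne, smul_eq_zero_iff_eq]; exact hf
  have hggf : g • (g • f) ≠ 0 := by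
    rw [Ne, smul_eq_zero_iff_eq]; exact hgf
  have hc : c ≠ 0 := by
    rintro rfl
    rw [map_zero, zero_mul, zero_mul] at h
    exact pow_ne_zero E hggf h
  have hcF : algebraMap K F c ≠ 0 := by rwa [Ne, map_eq_zero]
  have hz : g • (g • Pic0.mk D) - Q • Pic0.mk D =
      Pic0.mk (SemilinearAut.degZeroSMulHom g (SemilinearAut.degZeroSMulHom g D) - Q • D) := by
    rw [SemilinearAut.pic0_smul_mk, SemilinearAut.pic0_smul_mk]
    rfl
  rw [hz]
  have hz2 : E • Pic0.mk (SemilinearAut.degZeroSMulHom g (SemilinearAut.degZeroSMulHom g D)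
        - Q • D) =
      Pic0.mk (E • (SemilinearAut.degZeroSMulHom g (SemilinearAut.degZeroSMulHom g D)
        - Q • D)) := rfl
  rw [hz2]
  refine (QuotientAddGroup.eq_zero_iff _).2 ?_
  rw [AddSubgroup.mem_addSubgroupOf]
  refine ⟨r, hr, fun w => ?_⟩
  have h1 := congrArg w.ord h
  rw [ssk_ord_pow, w.ord_mul (mul_ne_zero hcF (pow_ne_zero m hr)) (pow_ne_zero _ hf),
    w.ord_mul hcF (pow_ne_zero m hr), ssk_ord_algebraMap w hc, ssk_ord_pow, ssk_ord_pow,
    zero_add] at h1
  have e2 : w.ord (g • (g • f)) = (m : ℤ) * (g • (g • (D : Divisor K F))) w := by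
    rw [ssk_ord_smul, ssk_ord_smul, ← hD, SemilinearAut.divisor_smul_apply,
      SemilinearAut.divisor_smul_apply]
  rw [e2, ← hD w] at h1
  have hm' : (m : ℤ) ≠ 0 := by exact_mod_cast hm
  apply mul_left_cancel₀ hm'
  show (m : ℤ) * ((E • (SemilinearAut.degZeroSMulHom g (SemilinearAut.degZeroSMulHom g D)
        - Q • D) : Divisor.degZero (K := K) (F := F)) : Divisor K F) w = (m : ℤ) * w.ord r
  rw [AddSubgroup.coe_nsmul, AddSubgroup.coe_sub, AddSubgroup.coe_nsmul,
    SemilinearAut.coe_degZeroSMulHom, SemilinearAut.coe_degZeroSMulHom, Finsupp.smul_apply,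
    Finsupp.sub_apply, Finsupp.smul_apply, nsmul_eq_mul, nsmul_eq_mul]
  push_cast at h1 ⊢
  linear_combination h1

end Generic

/-! ### the two seams -/

section Seams

variable (N q : ℕ) [NeZero N] [NeZero q]

/-- **Geometric seam of S35.** -/
def s35k_Geom : Prop :=
  ∀ P : ValuationSubring Qbar, P.LiesOverPrime q → ∃ E₀ : ℕ, E₀ ≠ 0 ∧
    ∀ φ : GQ, P.IsFrobeniusAt φ q → ∀ m : ℕ, ¬ q ∣ m → ∀ z : JZero (N * q), m • z = 0 →
      (∀ s ∈ P.inertiaSubgroupIn ℚ, s • z = z) → s35p_P1J N q z = 0 → s35p_P2J N q z = 0 →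
        E₀ • (φ • (φ • z) - (q ^ 2) • z) = 0

/-- **Kummer seam of S35.** -/
def s35k_KeyBar : Prop :=
  ∀ P : ValuationSubring Qbar, P.LiesOverPrime q → ∃ E₀ : ℕ, E₀ ≠ 0 ∧
    ∀ φ : GQ, P.IsFrobeniusAt φ q → ∀ m : ℕ, ¬ q ∣ m →
      ∀ f : modularFunctionFieldBar (N * q), f ≠ 0 →
        (∀ v : Place Qbar (modularFunctionFieldBar (N * q)), (m : ℤ) ∣ v.ord f) →
        (∀ s ∈ P.inertiaSubgroupIn ℚ, ∃ (c : Qbar) (r : modularFunctionFieldBar (N * q)), r ≠ 0 ∧
          ss_act (N * q) s f =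
            algebraMap Qbar (modularFunctionFieldBar (N * q)) c * r ^ m * f) →
        (∃ (c : Qbar) (h : modularFunctionFieldBar N), h ≠ 0 ∧
          s35k_norm (heckeAlphaBar Qbar N q) f =
            algebraMap Qbar (modularFunctionFieldBar N) c * h ^ m) →
        (∃ (c : Qbar) (h : modularFunctionFieldBar N), h ≠ 0 ∧
          s35k_norm (heckeBetaBar Qbar N q) f =
            algebraMap Qbar (modularFunctionFieldBar N) c * h ^ m) →
        ∃ (c : Qbar) (r : modularFunctionFieldBar (N * q)), r ≠ 0 ∧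
          (ss_act (N * q) φ (ss_act (N * q) φ f)) ^ E₀ =
            algebraMap Qbar (modularFunctionFieldBar (N * q)) c * r ^ m * f ^ (q ^ 2 * E₀)

/-- **[K35]** the Kummer seam implies the geometric seam. -/
theorem s35k_geom_of_keyBar (h : s35k_KeyBar N q) : s35k_Geom N q := by
  intro P hP
  obtain ⟨E₀, hE₀, H⟩ := h P hP
  refine ⟨E₀, hE₀, fun φ hφ m hqm z hmz hfix hP1 hP2 => ?_⟩
  have hm : m ≠ 0 := by
    rintro rfl
    exact hqm (dvd_zero q)
  obtain ⟨D, rfl⟩ := Pic0.mk_surjective z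
  obtain ⟨f, hf, hfD⟩ := s35p_isPrincipal_of_nsmul_mk hmz
  have hD : ∀ v : Place Qbar (modularFunctionFieldBar (N * q)),
      (m : ℤ) * (D : Divisor Qbar (modularFunctionFieldBar (N * q))) v = v.ord f := by
    intro v
    rw [← hfD v, Finsupp.smul_apply, nsmul_eq_mul]
  set gφ : SemilinearAut Qbar (modularFunctionFieldBar (N * q)) :=
    arithmeticGalois (modularFunctionFieldFull (N * q)) φ with hgφ
  obtain ⟨c, r, hr, hrel⟩ := H φ hφ m hqm f hf (fun v => ⟨_, (hD v).symm⟩)
    (fun s hs => s35k_fix_kummer (rt_isSepGen_jBar (N * q))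
      (arithmeticGalois (modularFunctionFieldFull (N * q)) s) D hf hD (hfix s hs))
    (s35k_push_kummer (rt_isSepGen_jBar N) _ _ _ _ D hf hD hP1)
    (s35k_push_kummer (rt_isSepGen_jBar N) _ _ _ _ D hf hD hP2)
  exact s35k_class_of_kummer gφ D hm hf hD E₀ (q ^ 2) hr hrel

end Seams

/-! ### from the geometric seam to the Tate module -/

section TateTorsionFree

variable {J : Type*} [AddCommGroup J] (p : ℕ) [hp : Fact p.Prime]

/-- the Tate module has no `ℕ`-torsion -/
theorem s35k_tm_nsmul_eq_zero {d : ℕ} (hd : d ≠ 0) (y : tm_T J p) (h : d • y = 0) : y = 0 := by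
  have hpp : p.Prime := hp.out
  obtain ⟨k, e, he, rfl⟩ := Nat.exists_eq_pow_mul_and_not_dvd hd p hpp.ne_one
  refine tm_ext fun n => ?_
  rw [tm_zero_apply, ← tm_pow_smul y n k]
  have h1 : (p ^ k * e) • y.1 (n + k) = 0 := by
    have := congrArg (fun z : tm_T J p => z.1 (n + k)) h
    simpa only [tm_nsmul_apply, tm_zero_apply] using this
  have h2 : p ^ (n + k) • y.1 (n + k) = 0 := tm_tor y (n + k)
  have d1 : addOrderOf (y.1 (n + k)) ∣ p ^ k * e := addOrderOf_dvd_of_nsmul_eq_zero h1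
  have d2 : addOrderOf (y.1 (n + k)) ∣ p ^ (n + k) := addOrderOf_dvd_of_nsmul_eq_zero h2
  obtain ⟨j, -, hj⟩ := (Nat.dvd_prime_pow hpp).mp d2
  have hcop : Nat.Coprime (p ^ j) e :=
    Nat.Coprime.pow_left j ((Nat.Prime.coprime_iff_not_dvd hpp).mpr he)
  have d3 : addOrderOf (y.1 (n + k)) ∣ p ^ k := by
    rw [hj] at d1 ⊢
    exact hcop.dvd_of_dvd_mul_right d1
  exact addOrderOf_dvd_iff_nsmul_eq_zero.mp d3

end TateTorsionFree

section Tate

variable (N q : ℕ) [NeZero N] [NeZero q] (p : ℕ) [hp : Fact p.Prime]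

/-- **[TOR-T]** from the geometric seam: an element of `T_p J₀(N q)` fixed by the inertia group
`I_A` (`A | q`, `q ≠ p`) and killed by `P₁`, `P₂` satisfies `φ² x = q² x` for every Frobenius
element `φ` at `A`. -/
theorem s35k_torT (hG : s35k_Geom N q) (hq : q.Prime) (hqp : q ≠ p)
    (A : ValuationSubring Qbar) (hA : A.LiesOverPrime q) (φ : GQ) (hφ : A.IsFrobeniusAt φ q)
    (x : tj_T (N * q) p)
    (hfix : ∀ s ∈ A.inertiaSubgroupIn ℚ, tj_rho (N * q) p s x = x)
    (h1 : s35p_P1 N q p x = 0) (h2 : s35p_P2 N q p x = 0) :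
    tj_rho (N * q) p φ (tj_rho (N * q) p φ x) = ((q : ℤ_[p]) ^ 2) • x := by
  obtain ⟨E₀, hE₀, hG⟩ := hG A hA
  have hpp : p.Prime := hp.out
  have key : E₀ • (tj_rho (N * q) p φ (tj_rho (N * q) p φ x) - ((q : ℤ_[p]) ^ 2) • x) = 0 := by
    refine tm_ext fun n => ?_
    rw [tm_nsmul_apply, tm_zero_apply]
    have hqn : ¬ q ∣ p ^ n := fun h =>
      hqp ((Nat.prime_dvd_prime_iff_eq hq hpp).mp (hq.dvd_of_dvd_pow h))
    have hz := hG φ hφ (p ^ n) hqn (x.1 n) (tm_tor x n)
      (fun s hs => by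
        have := congrArg (fun y : tj_T (N * q) p => y.1 n) (hfix s hs)
        simpa only [tj_rho_apply] using this)
      (by rw [← s35p_P1_apply, h1]; rfl)
      (by rw [← s35p_P2_apply, h2]; rfl)
    have h3 : (tj_rho (N * q) p φ (tj_rho (N * q) p φ x) - ((q : ℤ_[p]) ^ 2) • x).1 n =
        φ • (φ • x.1 n) - (q ^ 2) • x.1 n := by
      have e : ((q : ℤ_[p]) ^ 2) = ((q ^ 2 : ℕ) : ℤ_[p]) := by push_cast; ring
      rw [tm_sub_apply, tj_rho_apply, tj_rho_apply, e, tm_natCast_smul_apply]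
    rw [h3]
    exact hz
  exact sub_eq_zero.mp (s35k_tm_nsmul_eq_zero p hE₀ _ key)

end Tate

end Fermat.Agent.S35
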