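/-
Project S35, cell [TOP]: the statement of S35 from node E, S18, the geometric seam of S34
(`ss_Geom`) and the seam [FROBSQ] for the Tate module of `J₀(M)`.

* `s35t_FrobSq`    : the seam [FROBSQ] for `J₀(M)`: for a newform `g` of level `M`, every
                     `χ_g`-eigenvector of `Frac(O') ⊗ T_λ J₀(M)` which is fixed by an inertia group
                     `I_A`, `A | q`, `q ‖ M`, `q ≠ λ`, satisfies `φ² u = q² u` for every Frobenius
                     element `φ` at `A` (the `htoric` hypothesis of `pkq_S35_of_tate` at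
                     `D := tjp_tate M lam S ..`, `ℤ_λ`-algebra structure `cya_padicHom`);
* `s35t_result_of` : the frozen statement of S35 verbatim from `tjp_NodeE`, `tjp_S18`,
                     `ss_Geom` at every `q ‖ N`, and `s35t_FrobSq`.
Model: `sst_S34` in SS/Transfer.lean.  Prefix `s35t_`.  Owner: helper28.
-/
import Mathlib
import Fermat.Prelude.Def_CuspForm_Newforms
import Fermat.Agent.SS.Transfer
import Fermat.Agent.S35.PackQ

set_option autoImplicit false
set_option linter.unusedSectionVars false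
set_option linter.style.haveILetI false

noncomputable section

namespace Fermat.Agent.S35

open IsLocalRing TensorProduct Polynomial Fermat.Agent.JT3 Fermat.Agent.SS ModularCurve
open CuspForm CuspForm.IsNewform

local notation "GQ" => (AlgebraicClosure ℚ ≃ₐ[ℚ] AlgebraicClosure ℚ)
local notation "Qbar" => AlgebraicClosure ℚ

/-- **The seam [FROBSQ] for `J₀(M)`.** -/
def s35t_FrobSq : Prop :=
  ∀ {M : ℕ} [NeZero M] {g : CuspForm (CongruenceSubgroup.Gamma0 M) 2} (_ : g.IsNewform)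
    (lam : ℕ) [Fact lam.Prime] (S : Finset ℕ)
    (O' : Type) [CommRing O'] [IsDomain O'] [IsDiscreteValuationRing O']
    [IsAdicComplete (IsLocalRing.maximalIdeal O') O'] [Finite (IsLocalRing.ResidueField O')]
    [CharZero O'] (hlamO' : (lam : O') ∈ IsLocalRing.maximalIdeal O')
    (chig : CuspForm.heckeAlgebra M 2 (↑S : Set ℕ) →+* ℂ)
    (_ : ∀ (ℓ : ℕ) (hℓ : ℓ.Prime) (hℓM : ¬ ℓ ∣ M) (hℓS : ℓ ∉ (↑S : Set ℕ)),
      chig (CuspForm.heckeAlgebra.T hℓ hℓM hℓS) = ModularFormClass.qCoeff g ℓ)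
    (iota : chig.range →+* O')
    (_ : lam ∈ S) (_ : ∀ q : ℕ, q.Prime → q ∣ M → q ∈ S),
    letI : Algebra ℤ_[lam] O' := (cya_padicHom lam O' hlamO').toAlgebra
    ∀ q : ℕ, q.Prime → q ≠ lam → q ∣ M → ¬ q ^ 2 ∣ M →
      ∀ A : ValuationSubring Qbar, A.LiesOverPrime q → ∀ φ : GQ, A.IsFrobeniusAt φ q →
        ∀ u : FractionRing O' ⊗[ℤ_[lam]] tj_T M lam,
          (∀ (ℓ : ℕ) (hℓ : ℓ.Prime) (hℓM : ¬ ℓ ∣ M) (hℓS : ℓ ∉ (↑S : Set ℕ)),
            (tjp_Tl M lam S ℓ).baseChange (FractionRing O') u =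
              algebraMap O' (FractionRing O')
                ((iota.comp chig.rangeRestrict) (CuspForm.heckeAlgebra.T hℓ hℓM hℓS)) • u) →
          (∀ s ∈ A.inertiaSubgroupIn ℚ, (tj_rho M lam s).baseChange (FractionRing O') u = u) →
            (tj_rho M lam φ).baseChange (FractionRing O')
                ((tj_rho M lam φ).baseChange (FractionRing O') u) =
              ((q : FractionRing O') ^ 2) • u

/-- **S35 from node E, S18, the geometric seam of S34 and the seam [FROBSQ]** (the frozen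
statement verbatim). -/
theorem s35t_result_of (hE : tjp_NodeE) (hS18 : tjp_S18)
    (hG : ∀ (N : ℕ) [NeZero N] (q : ℕ), q.Prime → q ∣ N → ¬ q ^ 2 ∣ N → ss_Geom N q)
    (hF : s35t_FrobSq)
    {M : ℕ} [NeZero M] {g : CuspForm (CongruenceSubgroup.Gamma0 M) 2} (hg : g.IsNewform)
    (lam : ℕ) [Fact lam.Prime]
    (S : Finset ℕ)
    (O' : Type) [CommRing O'] [IsDomain O'] [IsDiscreteValuationRing O']
    [IsAdicComplete (IsLocalRing.maximalIdeal O') O'] [Finite (IsLocalRing.ResidueField O')]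
    [CharZero O'] (hlamO' : (lam : O') ∈ IsLocalRing.maximalIdeal O')
    (chig : CuspForm.heckeAlgebra M 2 (↑S : Set ℕ) →+* ℂ)
    (hchig : ∀ (ℓ : ℕ) (hℓ : ℓ.Prime) (hℓM : ¬ ℓ ∣ M) (hℓS : ℓ ∉ (↑S : Set ℕ)),
      chig (CuspForm.heckeAlgebra.T hℓ hℓM hℓS) = ModularFormClass.qCoeff g ℓ)
    (iota : chig.range →+* O')
    (hlamS : lam ∈ S) (hMS : ∀ q : ℕ, q.Prime → q ∣ M → q ∈ S)
    :
    ∃ (O'' : Type) (_ : CommRing O'') (_ : IsDomain O'') (_ : IsDiscreteValuationRing O'')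
      (_ : IsAdicComplete (IsLocalRing.maximalIdeal O'') O'') (_ : Finite (IsLocalRing.ResidueField O''))
      (_ : CharZero O'') (_ : Algebra O' O'') (_ : Module.Finite O' O'') (_ : IsLocalHom (algebraMap O' O'')),
      Function.Injective (algebraMap O' O'') ∧
      ∃ ρ : GaloisRepAdic O'',
        (∀ (ℓ : ℕ) (hℓ : ℓ.Prime) (hℓM : ¬ ℓ ∣ M) (hℓS : ℓ ∉ (↑S : Set ℕ)),
          ∀ A : ValuationSubring (AlgebraicClosure ℚ), A.LiesOverPrime ℓ →
            ∀ σ : AlgebraicClosure ℚ ≃ₐ[ℚ] AlgebraicClosure ℚ, A.IsFrobeniusAt σ ℓ →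
              LinearMap.charpoly (ρ.ρ σ) =
                X ^ 2 - C (algebraMap O' O'' ((iota.comp chig.rangeRestrict) (CuspForm.heckeAlgebra.T hℓ hℓM hℓS))) * X
                  + C ((ℓ : O''))) ∧
        (∀ q : ℕ, q.Prime → q ≠ lam → q ∣ M → ¬ q ^ 2 ∣ M →
          ∀ A : ValuationSubring (AlgebraicClosure ℚ), A.LiesOverPrime q →
            ∀ σ : AlgebraicClosure ℚ ≃ₐ[ℚ] AlgebraicClosure ℚ, A.IsFrobeniusAt σ q →
              LinearMap.charpoly (ρ.ρ σ) = X ^ 2 - C ((q : O'') + 1) * X + C ((q : O'')) ∨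
              LinearMap.charpoly (ρ.ρ σ) = X ^ 2 + C ((q : O'') + 1) * X + C ((q : O''))) := by
  letI : Algebra ℤ_[lam] O' := (cya_padicHom lam O' hlamO').toAlgebra
  obtain ⟨χ₀, hχ₀⟩ := tjp_eigen_gen M lam S (iota.comp chig.rangeRestrict)
  exact pkq_S35_of_tate (tjp_tate M lam S hlamS (hE M) (hS18 M)) hlamS hMS O' hlamO'
    (iota.comp chig.rangeRestrict) χ₀ hχ₀
    (fun q hq hqp hqM hq2 A hA s hs =>
      sst_tate_unip M lam q hq hqp (hG M q hq hqM hq2) A hA s hs)
    (hF hg lam S O' hlamO' chig hchig iota hlamS hMS)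

end Fermat.Agent.S35
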