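/-
Project S35, cell [PLUMB] at the Tate module of `J₀(M)`: the seam [FROBSQ] (`s35t_FrobSq`,
S35/Top.lean) from [TOR-T] + [NEW-K].

* `s35t_TorNew`     : for a newform `g` of level `M` and every prime `q ‖ M`, `q ≠ λ`, there are a
                      free `ℤ_λ`-module `T'` and two linear maps `P1 P2 : T_λ J₀(M) → T'` (the maps
                      induced by the two degeneracy maps `X₀(M) → X₀(M/q)`) such that
    [TOR-T]  every `x : T_λ J₀(M)` fixed by an inertia group `I_A`, `A | q`, and killed by `P1` and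
             `P2` satisfies `φ² x = q² x` for every Frobenius element `φ` at `A`;
    [NEW-K]  the base changes of `P1`, `P2` kill the `χ_g`-eigenvectors of `Frac(O') ⊗ T_λ J₀(M)`;
* `s35t_frobsq_of`  : `s35t_TorNew → s35t_FrobSq`  (by `s35pl_main`).
Prefix `s35t_`.  Owner: helper28.
-/
import Mathlib
import Fermat.Agent.S35.Top
import Fermat.Agent.S35.Plumb

set_option autoImplicit false
set_option linter.unusedSectionVars false
set_option linter.style.haveILetI false

noncomputable section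

namespace Fermat.Agent.S35

open IsLocalRing TensorProduct Polynomial Fermat.Agent.JT3 Fermat.Agent.SS ModularCurve
open CuspForm CuspForm.IsNewform

local notation "GQ" => (AlgebraicClosure ℚ ≃ₐ[ℚ] AlgebraicClosure ℚ)
local notation "Qbar" => AlgebraicClosure ℚ

/-- **[TOR-T] + [NEW-K]** for `J₀(M)`. -/
def s35t_TorNew : Prop :=
  ∀ {M : ℕ} [NeZero M] {g : CuspForm (CongruenceSubgroup.Gamma0 M) 2} (_ : g.IsNewform)
    (lam : ℕ) [Fact lam.Prime] (S : Finset ℕ)
    (O' : Type) [CommRing O'] [IsDomain O'] [IsDiscreteValuationRing O']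
    [IsAdicComplete (IsLocalRing.maximalIdeal O') O'] [Finite (IsLocalRing.ResidueField O')]
    [CharZero O'] (hlamO' : (lam : O') ∈ IsLocalRing.maximalIdeal O')
    (chig : CuspForm.heckeAlgebra M 2 (↑S : Set ℕ) →+* ℂ)
    (_ : ∀ (ℓ : ℕ) (hℓ : ℓ.Prime) (hℓM : ¬ ℓ ∣ M) (hℓS : ℓ ∉ (↑S : Set ℕ)),
      chig (CuspForm.heckeAlgebra.T hℓ hℓM hℓS) = ModularFormClass.qCoeff g ℓ)
    (iota : chig.range →+* O')
    (_ : lam ∈ S) (_ : ∀ q : ℕ, q.Prime → q ∣ M → q ∈ S),
    letI : Algebra ℤ_[lam] O' := (cya_padicHom lam O' hlamO').toAlgebra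
    ∀ q : ℕ, q.Prime → q ≠ lam → q ∣ M → ¬ q ^ 2 ∣ M →
      ∃ (T' : Type) (_ : AddCommGroup T') (_ : Module ℤ_[lam] T') (_ : Module.Free ℤ_[lam] T')
        (P1 P2 : tj_T M lam →ₗ[ℤ_[lam]] T'),
        (∀ A : ValuationSubring Qbar, A.LiesOverPrime q → ∀ φ : GQ, A.IsFrobeniusAt φ q →
          ∀ x : tj_T M lam, (∀ s ∈ A.inertiaSubgroupIn ℚ, tj_rho M lam s x = x) →
            P1 x = 0 → P2 x = 0 →
              tj_rho M lam φ (tj_rho M lam φ x) = ((q : ℤ_[lam]) ^ 2) • x) ∧
        (∀ u : FractionRing O' ⊗[ℤ_[lam]] tj_T M lam,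
          (∀ (ℓ : ℕ) (hℓ : ℓ.Prime) (hℓM : ¬ ℓ ∣ M) (hℓS : ℓ ∉ (↑S : Set ℕ)),
            (tjp_Tl M lam S ℓ).baseChange (FractionRing O') u =
              algebraMap O' (FractionRing O')
                ((iota.comp chig.rangeRestrict) (CuspForm.heckeAlgebra.T hℓ hℓM hℓS)) • u) →
          P1.baseChange (FractionRing O') u = 0 ∧ P2.baseChange (FractionRing O') u = 0)

/-- **[PLUMB]**: [TOR-T] + [NEW-K] give the seam [FROBSQ]. -/
theorem s35t_frobsq_of (h : s35t_TorNew) : s35t_FrobSq := by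
  intro M _ g hg lam _ S O' _ _ _ _ _ _ hlamO' chig hchig iota hlamS hMS
  letI : Algebra ℤ_[lam] O' := (cya_padicHom lam O' hlamO').toAlgebra
  intro q hq hqlam hqM hq2 A hA φ hφ u hu hfix
  obtain ⟨T', _, _, _, P1, P2, hTOR, hNEW⟩ :=
    h hg lam S O' hlamO' chig hchig iota hlamS hMS q hq hqlam hqM hq2
  obtain ⟨h1, h2⟩ := hNEW u hu
  have hinjO : Function.Injective (algebraMap ℤ_[lam] O') :=
    pk_padic_injective lam (algebraMap ℤ_[lam] O')
  have hinj : Function.Injective (algebraMap ℤ_[lam] (FractionRing O')) := by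
    rw [IsScalarTower.algebraMap_eq ℤ_[lam] O' (FractionRing O')]
    exact (IsFractionRing.injective O' (FractionRing O')).comp hinjO
  have htf : Module.IsTorsionFree ℤ_[lam] (FractionRing O') := by
    rw [Module.isTorsionFree_iff_smul_eq_zero]
    intro r m hrm
    rw [Algebra.smul_def, mul_eq_zero] at hrm
    rcases hrm with h0 | h0
    · exact Or.inl (hinj (h0.trans (map_zero _).symm))
    · exact Or.inr h0
  have key := s35pl_main (R := ℤ_[lam]) (K := FractionRing O') P1 P2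
    {f | ∃ s ∈ A.inertiaSubgroupIn ℚ, f = tj_rho M lam s} (tj_rho M lam φ) ((q : ℤ_[lam]) ^ 2)
    (fun x hx hx1 hx2 => hTOR A hA φ hφ x (fun s hs => hx _ ⟨s, hs, rfl⟩) hx1 hx2)
    u (fun f hf => by
      obtain ⟨s, hs, rfl⟩ := hf
      exact hfix s hs) h1 h2
  rw [key, map_pow, map_natCast]

end Fermat.Agent.S35
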