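/-
S35 cell [NEW-0] (= [EIG-DESC]; helper26; helper6's S35 ARCHITECTURE NOTE 1, #2162 (2)).

From a nonzero simultaneous eigenvector of the Hecke operators `tjp_Tl N p S ℓ` (`ℓ` good) in
`K ⊗ T_p J₀(N)` whose eigenvalues are the images of complex numbers `a ℓ` (elements of a ring `R`
mapping injectively to `K` and to `ℂ`) to a NONZERO cusp form `h ∈ S₂(Γ₀(N))` with
`T_ℓ h = a ℓ • h` for all good `ℓ`:

* `s35n_main`     : the general statement (`ι₁ : R →+* K` injective, `ι₂ : R →+* ℂ`);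
* `s35n_main_sub` : `R` a subring of `ℂ` integral over `ℤ`, `K = Frac O`, `iota : R →+* O`
                    (injectivity of `iota` is automatic);
* `s35n_SeamSMO`  : the statement of helper3's `smo_occurs` (strong multiplicity one cell [SMO]);
* `s35n_new0`     : **[NEW-0]**: for a newform `g` of level `M`, a proper divisor `N'` of `M` and
                    `S ⊇ primes(M)`, the `χ_g`-eigenspace `pk_eigenspace p N' S (tjp_Tl N' p S) O K a`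
                    of `K ⊗ T_p J₀(N')` is `⊥`.

Route: `T_p J₀(N) = Hom(H, ℤ_p)` (`tjp_lattice`, `tjp_he`), coordinates with respect to a frame of
`H`, the transfer lemma [LIN] (`s35n_lin`) from `K` to `ℂ`, Eichler–Shimura `Hom(H, ℂ) = S₂ × S₂`
Hecke-equivariantly (`t2f_exists_pair`, `t2f_compat_TH`, `t2f_pair_injective`; `periodHomPair` is
`ℂ`-linear).
Prefix `s35n_`.
-/
import Mathlib
import Fermat.Agent.JT3.Tate.Package
import Fermat.Agent.JT3.T2.Faithful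
import Fermat.Agent.JT3.Pack.Main
import Fermat.Agent.S35.New0.Core
import Fermat.Prelude.Def_CuspForm_Newforms
import Fermat.Agent.S22

set_option autoImplicit false
set_option linter.style.haveILetI false
set_option linter.unusedSectionVars false

noncomputable section

namespace Fermat.Agent.S35

open Fermat.Agent.JT3 CongruenceSubgroup ModularCurve IsLocalRing
open scoped TensorProduct

variable (N p : ℕ) [NeZero N] [Fact p.Prime] (S : Finset ℕ)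

/-- **[EIG-DESC]**, general form. -/
theorem s35n_main {K : Type} [Field K] [CharZero K] [Algebra ℤ_[p] K]
    {R : Type*} [CommRing R] (ι₁ : R →+* K) (hι₁ : Function.Injective ι₁) (ι₂ : R →+* ℂ)
    (a : ℕ → R) (v : K ⊗[ℤ_[p]] tj_T N p) (hv0 : v ≠ 0)
    (hv : ∀ ℓ, pk_Good N S ℓ → (tjp_Tl N p S ℓ).baseChange K v = ι₁ (a ℓ) • v) :
    ∃ h : CuspForm (Gamma0 N) 2, h ≠ 0 ∧
      ∀ (ℓ : ℕ) (hℓ : ℓ.Prime) (hℓN : ¬ ℓ ∣ N), ℓ ∉ (↑S : Set ℕ) →
        CuspForm.heckeTLin 2 hℓ hℓN h = ι₂ (a ℓ) • h := by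
  obtain ⟨ψ, hψ0, hψ⟩ := s35n_core (fun ℓ => (t2f_TH N ℓ).toAddMonoidHom) (tjp_lattice N p)
    (tjp_Tl N p S) (pk_Good N S) (fun ℓ hℓ x => tjp_he N p S ℓ hℓ x) ι₁ hι₁ ι₂ a v hv0 hv
  obtain ⟨f, g, hfg⟩ := t2f_exists_pair ψ
  have hne : ¬ (f = 0 ∧ g = 0) := by
    rintro ⟨rfl, rfl⟩
    apply hψ0
    apply gh_hom_ext
    intro x
    have h1 := DFunLike.congr_fun hfg x
    have h2 : periodHomPair N ((0 : CuspForm (Gamma0 N) 2), (0 : CuspForm (Gamma0 N) 2)) = 0 :=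
      map_zero (periodHomPair N)
    rw [h2] at h1
    exact h1
  have key : ∀ (ℓ : ℕ) (hℓ : ℓ.Prime) (hℓN : ¬ ℓ ∣ N), ℓ ∉ (↑S : Set ℕ) →
      CuspForm.heckeTLin 2 hℓ hℓN f = ι₂ (a ℓ) • f ∧
        CuspForm.heckeTLin 2 hℓ hℓN g = ι₂ (a ℓ) • g := by
    intro ℓ hℓ hℓN hℓS
    have h1 := t2f_compat_TH hℓ hℓN ψ f g hfg
    have h2 : (ψ.comp (t2f_TH N ℓ).toAddMonoidHom).comp (gh_mk N) =
        periodHomPair N (ι₂ (a ℓ) • f, ι₂ (a ℓ) • g) := by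
      rw [← Prod.smul_mk, map_smul, ← hfg]
      refine AddMonoidHom.ext fun x => ?_
      rw [AddMonoidHom.comp_apply, AddMonoidHom.comp_apply, AddMonoidHom.smul_apply,
        AddMonoidHom.comp_apply, smul_eq_mul]
      exact hψ ℓ ⟨hℓ, hℓN, hℓS⟩ (gh_mk N x)
    exact t2f_pair_injective (h1.symm.trans h2)
  by_cases hf : f = 0
  · have hg : g ≠ 0 := fun hg => hne ⟨hf, hg⟩
    exact ⟨g, hg, fun ℓ hℓ hℓN hℓS => (key ℓ hℓ hℓN hℓS).2⟩
  · exact ⟨f, hf, fun ℓ hℓ hℓN hℓS => (key ℓ hℓ hℓN hℓS).1⟩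

/-- **[EIG-DESC]**, subring form: `R ⊆ ℂ` integral over `ℤ`, `K = Frac O`, `iota : R →+* O`. -/
theorem s35n_main_sub {O : Type} [CommRing O] [IsDomain O] [CharZero O] [Algebra ℤ_[p] O]
    {K : Type} [Field K] [Algebra O K] [IsFractionRing O K] [Algebra ℤ_[p] K]
    {R : Subring ℂ} (hR : ∀ x : R, IsIntegral ℤ (x : ℂ)) (iota : R →+* O)
    (a : ℕ → R) (v : K ⊗[ℤ_[p]] tj_T N p) (hv0 : v ≠ 0)
    (hv : ∀ ℓ, pk_Good N S ℓ →
      (tjp_Tl N p S ℓ).baseChange K v = algebraMap O K (iota (a ℓ)) • v) :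
    ∃ h : CuspForm (Gamma0 N) 2, h ≠ 0 ∧
      ∀ (ℓ : ℕ) (hℓ : ℓ.Prime) (hℓN : ¬ ℓ ∣ N), ℓ ∉ (↑S : Set ℕ) →
        CuspForm.heckeTLin 2 hℓ hℓN h = (a ℓ : ℂ) • h := by
  haveI : CharZero K := charZero_of_injective_algebraMap (IsFractionRing.injective O K)
  exact s35n_main N p S ((algebraMap O K).comp iota)
    ((IsFractionRing.injective O K).comp (s35n_iota_injective hR iota)) R.subtype a v hv0 hv

/-- The statement of helper3's `smo_occurs` (cell [SMO], strong multiplicity one for the good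
Hecke eigensystem), verbatim from finding #2141. -/
def s35n_SeamSMO : Prop :=
  ∀ {N M' : ℕ} [NeZero N] [NeZero M'] (_ : M' ∣ N) {f : CuspForm (Gamma0 N) 2}
    (_ : f.IsNormalizedEigenform) (S : Finset ℕ) (h : CuspForm (Gamma0 M') 2) (_ : h ≠ 0)
    (_ : ∀ (ℓ : ℕ) (hℓ : ℓ.Prime) (hℓM' : ¬ ℓ ∣ M'), ℓ ∉ S →
      CuspForm.heckeTLin 2 hℓ hℓM' h = ModularFormClass.qCoeff f ℓ • h),
    CuspForm.GoodEigensystemOccursAt f M'

/-- the values of a character of the Hecke algebra are algebraic integers -/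
theorem s35n_range_isIntegral {M : ℕ} [NeZero M] (S : Finset ℕ)
    (chig : CuspForm.heckeAlgebra M 2 (↑S : Set ℕ) →+* ℂ) (x : chig.range) :
    IsIntegral ℤ (x : ℂ) := by
  obtain ⟨t, ht⟩ := x.2
  haveI : Module.Finite ℤ (CuspForm.heckeAlgebra M 2 (↑S : Set ℕ)) :=
    Fermat.Agent.S22.result M 2 (↑S : Set ℕ)
  have h1 : IsIntegral ℤ t := IsIntegral.of_finite ℤ t
  rw [← ht]
  exact map_isIntegral_int chig h1

/-- **[NEW-0]**: the eigensystem of a newform of level `M` does not occur in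
`K ⊗ T_p J₀(N')` for a proper divisor `N'` of `M`. -/
theorem s35n_new0 (hSMO : s35n_SeamSMO) {M : ℕ} [NeZero M]
    {g : CuspForm (Gamma0 M) 2} (hg : g.IsNewform) (S : Finset ℕ)
    (hMS : ∀ q : ℕ, q.Prime → q ∣ M → q ∈ S)
    (N' : ℕ) [NeZero N'] (hN' : N' ∣ M) (hne : N' ≠ M)
    (O : Type) [CommRing O] [IsDomain O] [IsDiscreteValuationRing O]
    [IsAdicComplete (maximalIdeal O) O] [CharZero O] [Algebra ℤ_[p] O]
    (K : Type) [Field K] [Algebra O K] [IsFractionRing O K] [Algebra ℤ_[p] K]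
    [IsScalarTower ℤ_[p] O K]
    (chig : CuspForm.heckeAlgebra M 2 (↑S : Set ℕ) →+* ℂ)
    (hchig : ∀ (ℓ : ℕ) (hℓ : ℓ.Prime) (hℓM : ¬ ℓ ∣ M) (hℓS : ℓ ∉ (↑S : Set ℕ)),
      chig (CuspForm.heckeAlgebra.T hℓ hℓM hℓS) = ModularFormClass.qCoeff g ℓ)
    (iota : chig.range →+* O) (a : ℕ → O)
    (ha : ∀ (ℓ : ℕ) (hℓ : ℓ.Prime) (hℓM : ¬ ℓ ∣ M) (hℓS : ℓ ∉ (↑S : Set ℕ)),
      a ℓ = iota (chig.rangeRestrict (CuspForm.heckeAlgebra.T hℓ hℓM hℓS))) :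
    pk_eigenspace p N' S (tjp_Tl N' p S) O K a = ⊥ := by
  classical
  by_contra hbot
  obtain ⟨v, hvmem, hv0⟩ := Submodule.exists_mem_ne_zero_of_ne_bot hbot
  -- good primes for `(N', S)` are good for `(M, S)`
  have hgood : ∀ ℓ, pk_Good N' S ℓ → pk_Good M S ℓ := by
    rintro ℓ ⟨hℓ, -, hℓS⟩
    exact ⟨hℓ, fun hd => hℓS (Finset.mem_coe.2 (hMS ℓ hℓ hd)), hℓS⟩
  let a' : ℕ → chig.range := fun ℓ =>
    if h : pk_Good M S ℓ then chig.rangeRestrict (CuspForm.heckeAlgebra.T h.1 h.2.1 h.2.2) else 0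
  have ha' : ∀ ℓ (h : pk_Good M S ℓ),
      a' ℓ = chig.rangeRestrict (CuspForm.heckeAlgebra.T h.1 h.2.1 h.2.2) := fun ℓ h => by
    simp only [a', dif_pos h]
  obtain ⟨h, hh0, hh⟩ := s35n_main_sub N' p S (s35n_range_isIntegral S chig) iota a' v hv0
    (fun ℓ hℓ => by
      have h1 := (pk_mem_eigenspace p N' S (tjp_Tl N' p S) O K a v).1 hvmem ℓ hℓ
      have hℓM := hgood ℓ hℓ
      rw [h1, ha ℓ hℓM.1 hℓM.2.1 hℓM.2.2, ha' ℓ hℓM])
  refine hg.2 N' hN' hne (hSMO hN' hg.1 S h hh0 fun ℓ hℓ hℓN' hℓS => ?_)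
  have hℓS' : ℓ ∉ (↑S : Set ℕ) := fun hm => hℓS (Finset.mem_coe.1 hm)
  have hℓM : pk_Good M S ℓ := hgood ℓ ⟨hℓ, hℓN', hℓS'⟩
  rw [hh ℓ hℓ hℓN' hℓS', ha' ℓ hℓM]
  congr 1
  exact hchig ℓ hℓM.1 hℓM.2.1 hℓM.2.2

end Fermat.Agent.S35
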