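/-
S35 cell [NEW-K] (helper26; helper6's S35 ARCHITECTURE NOTE 1, #2162 (1)).

`g` a newform of level `M`, `N'` a proper divisor of `M`, `P : T_p J₀(M) → T_p J₀(N')` a
`ℤ_p`-linear map commuting with the Hecke operators at the good primes ([P-EQUIV]).  Then
`P ⊗ K` kills every `χ_g`-eigenvector of `K ⊗ T_p J₀(M)`  (`s35n_newK`): its image is a
`χ_g`-eigenvector at level `N'`, and the `χ_g`-eigenspace at level `N'` is `⊥` by [NEW-0]
(`s35n_new0`).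
Prefix `s35n_`.
-/
import Mathlib
import Fermat.Agent.S35.New0

set_option autoImplicit false
set_option linter.style.haveILetI false
set_option linter.unusedSectionVars false

noncomputable section

namespace Fermat.Agent.S35

open Fermat.Agent.JT3 CongruenceSubgroup ModularCurve IsLocalRing
open scoped TensorProduct

/-- **[NEW-K]** (with the strong-multiplicity-one seam as a hypothesis). -/
theorem s35n_newK (p : ℕ) [Fact p.Prime] (hSMO : s35n_SeamSMO) {M : ℕ} [NeZero M]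
    {g : CuspForm (Gamma0 M) 2} (hg : g.IsNewform) (S : Finset ℕ)
    (hMS : ∀ q : ℕ, q.Prime → q ∣ M → q ∈ S)
    (N' : ℕ) [NeZero N'] (hN' : N' ∣ M) (hne : N' ≠ M)
    (O : Type) [CommRing O] [IsDomain O] [IsDiscreteValuationRing O]
    [IsAdicComplete (maximalIdeal O) O] [CharZero O] [Algebra ℤ_[p] O]
    (K : Type) [Field K] [Algebra O K] [IsFractionRing O K] [Algebra ℤ_[p] K]
    [IsScalarTower ℤ_[p] O K]
    (chig : CuspForm.heckeAlgebra M 2 (↑S : Set ℕ) →+* ℂ)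
    (hchig : ∀ (ℓ : ℕ) (hℓ : ℓ.Prime) (hℓM : ¬ ℓ ∣ M) (hℓS : ℓ ∉ (↑S : Set ℕ)),
      chig (CuspForm.heckeAlgebra.T hℓ hℓM hℓS) = ModularFormClass.qCoeff g ℓ)
    (iota : chig.range →+* O)
    (P : tj_T M p →ₗ[ℤ_[p]] tj_T N' p)
    (hP : ∀ ℓ, pk_Good M S ℓ → P ∘ₗ tjp_Tl M p S ℓ = tjp_Tl N' p S ℓ ∘ₗ P)
    (u : K ⊗[ℤ_[p]] tj_T M p)
    (hu : ∀ (ℓ : ℕ) (hℓ : ℓ.Prime) (hℓM : ¬ ℓ ∣ M) (hℓS : ℓ ∉ (↑S : Set ℕ)),
      (tjp_Tl M p S ℓ).baseChange K u =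
        algebraMap O K ((iota.comp chig.rangeRestrict) (CuspForm.heckeAlgebra.T hℓ hℓM hℓS)) • u) :
    P.baseChange K u = 0 := by
  classical
  let a : ℕ → O := fun ℓ =>
    if h : pk_Good M S ℓ then
      (iota.comp chig.rangeRestrict) (CuspForm.heckeAlgebra.T h.1 h.2.1 h.2.2) else 0
  have ha : ∀ (ℓ : ℕ) (hℓ : ℓ.Prime) (hℓM : ¬ ℓ ∣ M) (hℓS : ℓ ∉ (↑S : Set ℕ)),
      a ℓ = iota (chig.rangeRestrict (CuspForm.heckeAlgebra.T hℓ hℓM hℓS)) := by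
    intro ℓ hℓ hℓM hℓS
    have h : pk_Good M S ℓ := ⟨hℓ, hℓM, hℓS⟩
    simp only [a, dif_pos h]
    rfl
  have hbot := s35n_new0 p hSMO hg S hMS N' hN' hne O K chig hchig iota a ha
  have hmem : P.baseChange K u ∈ pk_eigenspace p N' S (tjp_Tl N' p S) O K a := by
    rw [pk_mem_eigenspace]
    intro ℓ hℓ
    have hℓM : pk_Good M S ℓ :=
      ⟨hℓ.1, fun hd => hℓ.2.2 (Finset.mem_coe.2 (hMS ℓ hℓ.1 hd)), hℓ.2.2⟩
    have h1 : (tjp_Tl N' p S ℓ).baseChange K (P.baseChange K u) =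
        P.baseChange K ((tjp_Tl M p S ℓ).baseChange K u) := by
      rw [← LinearMap.comp_apply, ← LinearMap.comp_apply, ← LinearMap.baseChange_comp,
        ← LinearMap.baseChange_comp, hP ℓ hℓM]
    rw [h1, hu ℓ hℓM.1 hℓM.2.1 hℓM.2.2, map_smul, ha ℓ hℓM.1 hℓM.2.1 hℓM.2.2]
    rfl
  rw [hbot, Submodule.mem_bot] at hmem
  exact hmem

end Fermat.Agent.S35
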