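/-
Project S35, cell [TN-ASM]: the last wiring of the seam [FROBSQ].

* `s35t_P1_equiv`, `s35t_P2_equiv` : [P-EQUIV] in closed form: for `q` prime, `q ∤ N`, the maps
      `P_i : T_p J₀(N q) → T_p J₀(N)` of S35/PMaps.lean commute with the Hecke operators
      `tjp_Tl` at the good primes of level `N q`;
* `s35t_TorT`        : the statement [TOR-T] at every level `N q` (`q ∤ N`) for the maps
                       `s35p_P1`, `s35p_P2`;
* `s35t_torNew_of`   : `s35t_TorT → s35n_SeamSMO → s35t_TorNew`;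
* `s35t_frobSq_of_torT` : `s35t_TorT → s35n_SeamSMO → s35t_FrobSq`.
Prefix `s35t_`.  Owner: helper28.
-/
import Mathlib
import Fermat.Agent.S35.FrobSqOf
import Fermat.Agent.S35.PMaps
import Fermat.Agent.S35.PEquiv.DivInst
import Fermat.Agent.S35.NewK

set_option autoImplicit false
set_option linter.unusedSectionVars false
set_option linter.style.haveILetI false
set_option linter.overlappingInstances false

noncomputable section

namespace Fermat.Agent.S35

open IsLocalRing TensorProduct Polynomial Fermat.Agent.JT3 Fermat.Agent.SS ModularCurve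
open CuspForm CuspForm.IsNewform AlgebraicCurve Fermat.Agent.S24

local notation "GQ" => (AlgebraicClosure ℚ ≃ₐ[ℚ] AlgebraicClosure ℚ)
local notation "Qbar" => AlgebraicClosure ℚ

section equiv

variable (N q : ℕ) [NeZero N] [NeZero q] (p : ℕ) [Fact p.Prime] (S : Finset ℕ)

/-- a good prime of level `N q` is a good prime of level `N` -/
theorem s35t_good_of_good {ℓ : ℕ} (h : pk_Good (N * q) S ℓ) : pk_Good N S ℓ :=
  ⟨h.1, fun hd => h.2.1 (Dvd.dvd.mul_right hd q), h.2.2⟩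

/-- **[P-EQUIV] for `P₁`, closed form.** -/
theorem s35t_P1_equiv (hq : q.Prime) (hqN : ¬ q ∣ N) (ℓ : ℕ) (hℓ : pk_Good (N * q) S ℓ) :
    s35p_P1 N q p ∘ₗ tjp_Tl (N * q) p S ℓ = tjp_Tl N p S ℓ ∘ₗ s35p_P1 N q p := by
  haveI : NeZero ℓ := ⟨hℓ.1.ne_zero⟩
  rw [tjp_Tl_good (N * q) p S hℓ, tjp_Tl_good N p S (s35t_good_of_good N q S hℓ)]
  exact s35p_P1_hecke_of p hℓ.1
    (fun D m hm hD => s35pe_div_comm_alpha N q ℓ hq hqN hℓ.1 hℓ.2.1 D m hm hD)

/-- **[P-EQUIV] for `P₂`, closed form.** -/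
theorem s35t_P2_equiv (hq : q.Prime) (hqN : ¬ q ∣ N) (ℓ : ℕ) (hℓ : pk_Good (N * q) S ℓ) :
    s35p_P2 N q p ∘ₗ tjp_Tl (N * q) p S ℓ = tjp_Tl N p S ℓ ∘ₗ s35p_P2 N q p := by
  haveI : NeZero ℓ := ⟨hℓ.1.ne_zero⟩
  rw [tjp_Tl_good (N * q) p S hℓ, tjp_Tl_good N p S (s35t_good_of_good N q S hℓ)]
  exact s35p_P2_hecke_of p hℓ.1
    (fun D m hm hD => s35pe_div_comm_beta N q ℓ hq hqN hℓ.1 hℓ.2.1 D m hm hD)

end equiv

/-- **[TOR-T]**: on the vectors of `T_λ J₀(N q)` fixed by an inertia group at `q` (`q ∤ N`,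
`q ≠ λ`) and killed by the two degeneracy maps to level `N`, the square of a Frobenius element at
`q` is `q²`. -/
def s35t_TorT : Prop :=
  ∀ (N q : ℕ) [NeZero N] [NeZero q] (lam : ℕ) [Fact lam.Prime], q.Prime → q ≠ lam → ¬ q ∣ N →
    ∀ A : ValuationSubring Qbar, A.LiesOverPrime q → ∀ φ : GQ, A.IsFrobeniusAt φ q →
      ∀ x : tj_T (N * q) lam, (∀ s ∈ A.inertiaSubgroupIn ℚ, tj_rho (N * q) lam s x = x) →
        s35p_P1 N q lam x = 0 → s35p_P2 N q lam x = 0 →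
          tj_rho (N * q) lam φ (tj_rho (N * q) lam φ x) = ((q : ℤ_[lam]) ^ 2) • x

/-- **[TN-ASM]**: [TOR-T] and strong multiplicity one give [TOR-T] + [NEW-K] in the shape of
`s35t_TorNew`. -/
theorem s35t_torNew_of (hT : s35t_TorT) (hSMO : s35n_SeamSMO) : s35t_TorNew := by
  intro M _ g hg lam _ S O' _ _ _ _ _ _ hlamO' chig hchig iota hlamS hMS
  letI : Algebra ℤ_[lam] O' := (cya_padicHom lam O' hlamO').toAlgebra
  intro q hq hqlam hqM hq2
  obtain ⟨N', rfl⟩ : ∃ N', M = N' * q := ⟨M / q, (Nat.div_mul_cancel hqM).symm⟩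
  have hN'0 : N' ≠ 0 := fun h => (NeZero.ne (N' * q)) (by rw [h, zero_mul])
  haveI : NeZero N' := ⟨hN'0⟩
  haveI : NeZero q := ⟨hq.ne_zero⟩
  have hqN' : ¬ q ∣ N' := by
    rintro ⟨c, rfl⟩
    apply hq2
    exact ⟨c, by ring⟩
  have hdvd : N' ∣ N' * q := Dvd.intro q rfl
  have hne : N' ≠ N' * q := by
    intro h
    have h1 : N' * 1 = N' * q := by rw [mul_one]; exact h
    exact hq.one_lt.ne (Nat.eq_of_mul_eq_mul_left (Nat.pos_of_ne_zero hN'0) h1)
  refine ⟨tj_T N' lam, inferInstance, inferInstance, inferInstance, s35p_P1 N' q lam,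
    s35p_P2 N' q lam, ?_, ?_⟩
  · intro A hA φ hφ x hfix h1 h2
    exact hT N' q lam hq hqlam hqN' A hA φ hφ x hfix h1 h2
  · intro u hu
    exact ⟨s35n_newK lam hSMO hg S hMS N' hdvd hne O' (FractionRing O') chig hchig iota
        (s35p_P1 N' q lam) (fun ℓ hℓ => s35t_P1_equiv N' q lam S hq hqN' ℓ hℓ) u hu,
      s35n_newK lam hSMO hg S hMS N' hdvd hne O' (FractionRing O') chig hchig iota
        (s35p_P2 N' q lam) (fun ℓ hℓ => s35t_P2_equiv N' q lam S hq hqN' ℓ hℓ) u hu⟩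

/-- **[FROBSQ] from [TOR-T] and strong multiplicity one.** -/
theorem s35t_frobSq_of_torT (hT : s35t_TorT) (hSMO : s35n_SeamSMO) : s35t_FrobSq :=
  s35t_frobsq_of (s35t_torNew_of hT hSMO)

end Fermat.Agent.S35
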