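/-
S35, wiring cells [KUM] + [TATE-LIM] for the seam names of `S35/Seams.lean` (helper16; prefix
`s35sk_`).

* `s35sk_P1J_eq_zero_iff`, `s35sk_P2J_eq_zero_iff` : the class of `D` is killed by the push-forward
      `(α_q)_*` (resp. `(β_q)_*`) iff the push-forward of `D` is principal;
* `s35sk_geom_of_keyBar` : [KUM]      `s35_KeyBar N q → s35_Geom N q`;
* `s35sk_torT_of_geom`   : [TATE-LIM] `s35_Geom N q` ⟹ the clause [TOR-T] at level `N q`;
* `s35sk_torT_of_geom_all`, `s35sk_torT` : `s35t_TorT` (S35/TorNewOf.lean) from `s35_Geom` resp.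
      `s35_KeyBar` at all `(N, q)` with `q` prime, `q ∤ N`.
-/
import Mathlib
import Fermat.Agent.S35.Seams
import Fermat.Agent.S35.KummerGeom
import Fermat.Agent.S35.TorNewOf

set_option autoImplicit false
set_option linter.unusedSectionVars false
set_option linter.unusedVariables false
set_option linter.style.haveILetI false
set_option synthInstance.maxHeartbeats 400000
set_option maxHeartbeats 1000000

noncomputable section

namespace Fermat.Agent.S35

open ModularCurve AlgebraicCurve Fermat.Agent.S24 Fermat.Agent.JT3 Fermat.Agent.SS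

local notation "GQ" => (AlgebraicClosure ℚ ≃ₐ[ℚ] AlgebraicClosure ℚ)
local notation "Qbar" => AlgebraicClosure ℚ

section Seams

variable (N q : ℕ) [NeZero N] [NeZero q]

/-- `(α_q)_* [D] = 0` iff the push-forward of `D` along `α_q` is principal -/
theorem s35sk_P1J_eq_zero_iff (D : Divisor.degZero (K := Kbar) (F := Fbar (N * q))) :
    s35p_P1J N q (Pic0.mk D) = 0 ↔
      (Divisor.pushforwardAlong (heckeAlphaBar Kbar N q) (hib_alphaIntegral N q)
        (D : Divisor Kbar (Fbar (N * q)))).IsPrincipal := by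
  rw [s35p_P1J_mk]
  constructor
  · intro h
    have h2 := (QuotientAddGroup.eq_zero_iff _).1 h
    rw [AddSubgroup.mem_addSubgroupOf] at h2
    exact h2
  · intro h
    refine (QuotientAddGroup.eq_zero_iff _).2 ?_
    rw [AddSubgroup.mem_addSubgroupOf]
    exact h

/-- `(β_q)_* [D] = 0` iff the push-forward of `D` along `β_q` is principal -/
theorem s35sk_P2J_eq_zero_iff (D : Divisor.degZero (K := Kbar) (F := Fbar (N * q))) :
    s35p_P2J N q (Pic0.mk D) = 0 ↔
      (Divisor.pushforwardAlong (heckeBetaBar Kbar N q) (hib_betaIntegral N q)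
        (D : Divisor Kbar (Fbar (N * q)))).IsPrincipal := by
  rw [s35p_P2J_mk]
  constructor
  · intro h
    have h2 := (QuotientAddGroup.eq_zero_iff _).1 h
    rw [AddSubgroup.mem_addSubgroupOf] at h2
    exact h2
  · intro h
    refine (QuotientAddGroup.eq_zero_iff _).2 ?_
    rw [AddSubgroup.mem_addSubgroupOf]
    exact h

/-- **[KUM]** the Kummer seam of `S35/Seams.lean` implies its geometric seam. -/
theorem s35sk_geom_of_keyBar (h : s35_KeyBar N q) : s35_Geom N q := by
  intro P hP φ hφ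
  obtain ⟨d, hd, H⟩ := h P hP φ hφ
  refine ⟨d, hd, fun m hqm D hmz hfix hP1 hP2 => ?_⟩
  have hm : m ≠ 0 := by
    rintro rfl
    exact hqm (dvd_zero q)
  obtain ⟨f, hf, hfD⟩ := s35p_isPrincipal_of_nsmul_mk hmz
  have hD : ∀ v : Place Qbar (modularFunctionFieldBar (N * q)),
      (m : ℤ) * (D : Divisor Qbar (modularFunctionFieldBar (N * q))) v = v.ord f := by
    intro v
    rw [← hfD v, Finsupp.smul_apply, nsmul_eq_mul]
  set gφ : SemilinearAut Qbar (modularFunctionFieldBar (N * q)) :=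
    arithmeticGalois (modularFunctionFieldFull (N * q)) φ with hgφ
  obtain ⟨c, r, hr, hrel⟩ := H m hqm f hf (fun v => ⟨_, (hD v).symm⟩)
    (fun s hs => s35k_fix_kummer (rt_isSepGen_jBar (N * q))
      (arithmeticGalois (modularFunctionFieldFull (N * q)) s) D hf hD (hfix s hs))
    (s35k_push_kummer (rt_isSepGen_jBar N) _ _ _ _ D hf hD ((s35sk_P1J_eq_zero_iff N q D).2 hP1))
    (s35k_push_kummer (rt_isSepGen_jBar N) _ _ _ _ D hf hD ((s35sk_P2J_eq_zero_iff N q D).2 hP2))
  exact s35k_class_of_kummer gφ D hm hf hD d (q ^ 2) hr hrel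

end Seams

section Tate

variable (N q : ℕ) [NeZero N] [NeZero q] (p : ℕ) [hp : Fact p.Prime]

/-- **[TATE-LIM]** from the geometric seam of `S35/Seams.lean`: an element of `T_p J₀(N q)` fixed
by the inertia group `I_A` (`A | q`, `q ≠ p`) and killed by `P₁`, `P₂` satisfies `φ² x = q² x` for
every Frobenius element `φ` at `A`. -/
theorem s35sk_torT_of_geom (hG : s35_Geom N q) (hq : q.Prime) (hqp : q ≠ p)
    (A : ValuationSubring Qbar) (hA : A.LiesOverPrime q) (φ : GQ) (hφ : A.IsFrobeniusAt φ q)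
    (x : tj_T (N * q) p)
    (hfix : ∀ s ∈ A.inertiaSubgroupIn ℚ, tj_rho (N * q) p s x = x)
    (h1 : s35p_P1 N q p x = 0) (h2 : s35p_P2 N q p x = 0) :
    tj_rho (N * q) p φ (tj_rho (N * q) p φ x) = ((q : ℤ_[p]) ^ 2) • x := by
  obtain ⟨d, hd, hG⟩ := hG A hA φ hφ
  have hpp : p.Prime := hp.out
  have key : d • (tj_rho (N * q) p φ (tj_rho (N * q) p φ x) - ((q : ℤ_[p]) ^ 2) • x) = 0 := by
    refine tm_ext fun n => ?_
    rw [tm_nsmul_apply, tm_zero_apply]
    have hqn : ¬ q ∣ p ^ n := fun h =>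
      hqp ((Nat.prime_dvd_prime_iff_eq hq hpp).mp (hq.dvd_of_dvd_pow h))
    obtain ⟨D, hDz⟩ := Pic0.mk_surjective (x.1 n)
    have hP1 : s35p_P1J N q (Pic0.mk D) = 0 := by
      rw [hDz, ← s35p_P1_apply, h1]; rfl
    have hP2 : s35p_P2J N q (Pic0.mk D) = 0 := by
      rw [hDz, ← s35p_P2_apply, h2]; rfl
    have hz := hG (p ^ n) hqn D (by rw [hDz]; exact tm_tor x n)
      (fun s hs => by
        have := congrArg (fun y : tj_T (N * q) p => y.1 n) (hfix s hs)
        rw [hDz]
        simpa only [tj_rho_apply] using this)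
      ((s35sk_P1J_eq_zero_iff N q D).1 hP1)
      ((s35sk_P2J_eq_zero_iff N q D).1 hP2)
    have h3 : (tj_rho (N * q) p φ (tj_rho (N * q) p φ x) - ((q : ℤ_[p]) ^ 2) • x).1 n =
        φ • (φ • x.1 n) - (q ^ 2) • x.1 n := by
      have e : ((q : ℤ_[p]) ^ 2) = ((q ^ 2 : ℕ) : ℤ_[p]) := by push_cast; ring
      rw [tm_sub_apply, tj_rho_apply, tj_rho_apply, e, tm_natCast_smul_apply]
    rw [h3, ← hDz]
    exact hz
  exact sub_eq_zero.mp (s35k_tm_nsmul_eq_zero p hd _ key)

end Tate

/-- `s35t_TorT` from the geometric seam at all `(N, q)`, `q` prime, `q ∤ N`. -/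
theorem s35sk_torT_of_geom_all
    (h : ∀ (N q : ℕ) [NeZero N] [NeZero q], q.Prime → ¬ q ∣ N → s35_Geom N q) : s35t_TorT := by
  intro N q _ _ lam _ hq hql hqN A hA φ hφ x hfix h1 h2
  exact s35sk_torT_of_geom N q lam (h N q hq hqN) hq hql A hA φ hφ x hfix h1 h2

/-- **`s35t_TorT` from the Kummer seam** at all `(N, q)`, `q` prime, `q ∤ N`. -/
theorem s35sk_torT
    (h : ∀ (N q : ℕ) [NeZero N] [NeZero q], q.Prime → ¬ q ∣ N → s35_KeyBar N q) : s35t_TorT :=
  s35sk_torT_of_geom_all fun N q _ _ hq hqN => s35sk_geom_of_keyBar N q (h N q hq hqN)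

end Fermat.Agent.S35
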