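/-
S35, cell **[SMO]** (helper3): strong multiplicity one in characteristic `0`, from the mod-`p`
representations of S29 and weak Chebotarev.  Prefix `smo_`.

* `smo_coeff_eq_of`  : two normalised eigenforms `f` (level `N`), `g'` (level `M' ∣ N`) whose
  coefficients `a_ℓ` agree for all primes `ℓ ∉ S`, `ℓ ∤ N` (`S` finite) have `a_ℓ(g') = a_ℓ(f)` for
  EVERY prime `ℓ ∤ N`;
* `smo_exists_eigenform` : a nonzero simultaneous eigenvector of `{T_ℓ : ℓ ∉ S, ℓ ∤ M'}` in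
  `S₂(Γ₀(M'))` gives a normalised eigenform of level `M'` with the same eigenvalues;
* `smo_occurs_of`    : hence `GoodEigensystemOccursAt f M'`;
* `smo_newform_not_occurs_of` : for a newform no eigenvector at a proper divisor level.

Everything is stated with the conclusion of S29 as a hypothesis `smo_S29`; the closed forms are in
`S35/SMOFinal.lean`.
-/
import Mathlib
import Fermat.Prelude.Def_GaloisRep_Residual
import Fermat.Prelude.Def_CuspForm_Newforms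
import Fermat.Agent.S49.Normalize
import Fermat.Agent.S49.LinAlg
import Fermat.Agent.S23.RationalSpan
import Fermat.Agent.S54.Frobenius
import Fermat.Agent.WC.Final
import Fermat.Agent.JT3.Unram.Main

set_option autoImplicit false
set_option linter.unusedSectionVars false
set_option linter.style.haveILetI false

noncomputable section

namespace Fermat.Agent.S35

open Polynomial CuspForm CongruenceSubgroup ModularFormClass

/-! ### Linear algebra: traces of powers in rank two -/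

section linalg

variable {k V : Type*} [Field k] [AddCommGroup V] [Module k V] [Module.Finite k V]

theorem smo_charpoly_rank_two (h2 : Module.finrank k V = 2) (f : Module.End k V) :
    f.charpoly = X ^ 2 - C (LinearMap.trace k V f) * X + C (LinearMap.det f) := by
  classical
  let b := Module.finBasisOfFinrankEq k V h2
  rw [← LinearMap.charpoly_toMatrix f b, Matrix.charpoly_fin_two,
    ← LinearMap.trace_eq_matrix_trace k b f, LinearMap.det_toMatrix b f]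

/-- the Lucas sequence `t₀ = 2, t₁ = a, t_{n+2} = a t_{n+1} - b t_n` -/
def smo_luc (a b : k) : ℕ → k
  | 0 => 2
  | 1 => a
  | (n + 2) => a * smo_luc a b (n + 1) - b * smo_luc a b n

theorem smo_trace_of_charpoly (h2 : Module.finrank k V = 2) (f : Module.End k V) {a b : k}
    (hf : f.charpoly = X ^ 2 - C a * X + C b) : LinearMap.trace k V f = a := by
  have h1 := smo_charpoly_rank_two h2 f
  rw [hf] at h1
  have h3 := congrArg (fun q : k[X] => q.coeff 1) h1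
  simp only [coeff_add, coeff_sub, coeff_X_pow, coeff_C_mul, coeff_X_one, coeff_C] at h3
  norm_num at h3
  exact h3.symm

/-- the traces of the powers of an endomorphism of a plane are determined by its characteristic
polynomial -/
theorem smo_trace_pow (h2 : Module.finrank k V = 2) (f : Module.End k V) {a b : k}
    (hf : f.charpoly = X ^ 2 - C a * X + C b) (n : ℕ) :
    LinearMap.trace k V (f ^ n) = smo_luc a b n := by
  have hCH : f ^ 2 = a • f - b • (1 : Module.End k V) := by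
    have h1 := LinearMap.aeval_self_charpoly f
    rw [hf] at h1
    simp only [map_add, map_sub, map_mul, map_pow, aeval_X, aeval_C] at h1
    rw [Algebra.algebraMap_eq_smul_one, Algebra.algebraMap_eq_smul_one, smul_mul_assoc,
      one_mul] at h1
    rw [sub_add_eq_add_sub, sub_eq_zero] at h1
    rw [← h1]
    abel
  induction n using Nat.strong_induction_on with
  | _ n ih =>
    match n with
    | 0 =>
      rw [pow_zero, smo_luc, LinearMap.trace_one, h2]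
      norm_num
    | 1 =>
      rw [pow_one, smo_luc]
      exact smo_trace_of_charpoly h2 f hf
    | (m + 2) =>
      have h3 : f ^ (m + 2) = a • f ^ (m + 1) - b • f ^ m := by
        rw [pow_add, hCH, mul_sub, mul_smul_comm, mul_smul_comm, mul_one, ← pow_succ]
      rw [h3, map_sub, map_smul, map_smul, ih (m + 1) (by omega), ih m (by omega), smo_luc,
        smul_eq_mul, smul_eq_mul]

end linalg

/-! ### A residue field of `ℤ̄` avoiding a nonzero algebraic integer and finitely many primes -/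

section residue

local notation "Zbar" => integralClosure ℤ ℂ

theorem smo_exists_residue (α : Zbar) (hα : α ≠ 0) (T : Finset ℕ) :
    ∃ (p : ℕ) (𝔪 : Ideal Zbar), p.Prime ∧ p ∉ T ∧ 𝔪.IsMaximal ∧ ((p : ℕ) : Zbar) ∈ 𝔪 ∧ α ∉ 𝔪 := by
  have hint : IsIntegral ℤ α := by
    have hα' : IsIntegral ℤ (α : ℂ) := α.2
    exact (isIntegral_algebraMap_iff (B := ℂ) Subtype.val_injective).1 hα'
  set c₀ : ℤ := (minpoly ℤ α).coeff 0 with hc₀
  have hc₀0 : c₀ ≠ 0 := by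
    intro h0
    have hαC : IsIntegral ℤ (α : ℂ) := α.2
    have h1 : minpoly ℚ (α : ℂ) = (minpoly ℤ (α : ℂ)).map (algebraMap ℤ ℚ) :=
      minpoly.isIntegrallyClosed_eq_field_fractions' ℚ hαC
    have h2 : minpoly ℤ (α : ℂ) = minpoly ℤ α :=
      minpoly.algebraMap_eq (B := Zbar) (B' := ℂ) Subtype.val_injective α
    have hα0 : (α : ℂ) ≠ 0 := fun h => hα (Subtype.ext h)
    have h3 : (minpoly ℚ (α : ℂ)).coeff 0 ≠ 0 :=
      minpoly.coeff_zero_ne_zero hαC.tower_top hα0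
    apply h3
    rw [h1, h2, coeff_map, ← hc₀, h0, map_zero]
  -- `c₀ ∈ (α)`
  have hdvd : ∃ β : Zbar, ((c₀ : ℤ) : Zbar) = β * α := by
    have h1 := minpoly.aeval ℤ α
    rw [← Polynomial.divX_mul_X_add (minpoly ℤ α), map_add, map_mul, aeval_X, aeval_C] at h1
    refine ⟨-(aeval α (minpoly ℤ α).divX), ?_⟩
    rw [neg_mul, eq_neg_iff_add_eq_zero, add_comm]
    have h2 : algebraMap ℤ Zbar c₀ = ((c₀ : ℤ) : Zbar) := by simp
    rw [← h2]
    exact h1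
  -- a prime `p ∉ T` not dividing `c₀`
  obtain ⟨p, hpge, hp⟩ := Nat.exists_infinite_primes (max (T.sup id) c₀.natAbs + 1)
  have hpT : p ∉ T := by
    intro hmem
    have h1 : p ≤ T.sup id := Finset.le_sup (f := id) hmem
    have h2 := le_max_left (T.sup id) c₀.natAbs
    omega
  have hpc : ¬ (p : ℤ) ∣ c₀ := by
    intro hdiv
    have h1 : p ∣ c₀.natAbs := Int.natCast_dvd.mp hdiv
    have h2 : 0 < c₀.natAbs := Int.natAbs_pos.mpr hc₀0
    have h3 := Nat.le_of_dvd h2 h1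
    have h4 := le_max_right (T.sup id) c₀.natAbs
    omega
  -- a maximal ideal over `p`
  haveI hPmax : (Ideal.span {(p : ℤ)}).IsMaximal :=
    PrincipalIdealRing.isMaximal_of_irreducible (Nat.prime_iff_prime_int.mp hp).irreducible
  haveI : Algebra.IsIntegral ℤ Zbar := by
    refine ⟨fun b => ?_⟩
    have hb : IsIntegral ℤ (b : ℂ) := b.2
    exact (isIntegral_algebraMap_iff (B := ℂ) Subtype.val_injective).1 hb
  have hker : RingHom.ker (algebraMap ℤ Zbar) ≤ Ideal.span {(p : ℤ)} := by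
    intro z hz
    rw [RingHom.mem_ker] at hz
    have hz0 : z = 0 := by
      have h1 : ((z : ℤ) : Zbar) = 0 := by simpa using hz
      exact_mod_cast h1
    rw [hz0]
    exact zero_mem _
  obtain ⟨𝔪, h𝔪max, h𝔪⟩ :=
    Ideal.exists_ideal_over_maximal_of_isIntegral (S := Zbar) (Ideal.span {(p : ℤ)}) hker
  have hmem : ∀ z : ℤ, ((z : ℤ) : Zbar) ∈ 𝔪 ↔ (p : ℤ) ∣ z := by
    intro z
    have h1 : ((z : ℤ) : Zbar) ∈ 𝔪 ↔ z ∈ 𝔪.comap (algebraMap ℤ Zbar) := by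
      rw [Ideal.mem_comap]
      simp
    rw [h1, h𝔪, Ideal.mem_span_singleton]
  refine ⟨p, 𝔪, hp, hpT, h𝔪max, ?_, ?_⟩
  · have := (hmem (p : ℤ)).mpr dvd_rfl
    simpa using this
  · intro hαm
    obtain ⟨β, hβ⟩ := hdvd
    apply hpc
    rw [← hmem, hβ]
    exact 𝔪.mul_mem_left β hαm

end residue

/-! ### Strong multiplicity one -/

section smo

local notation "Zbar" => integralClosure ℤ ℂ
local notation "Qbar" => AlgebraicClosure ℚ
local notation "GQ" => AlgebraicClosure ℚ ≃ₐ[ℚ] AlgebraicClosure ℚ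

/-- the conclusion of S29 -/
def smo_S29 : Prop :=
  ∀ {N : ℕ} {g : CuspForm (Gamma0 N) 2}, g.IsNormalizedEigenform → ∀ {p : ℕ}, p.Prime →
    ∀ {k : Type} [Field k] [CharP k p] (φ : Zbar →+* k),
      ∃ ρ : ResidualGaloisRep k, ρ.IsAttachedTo g φ ∧
        ∀ ℓ : ℕ, ℓ.Prime → ¬ ℓ ∣ N * p → ρ.IsUnramifiedAt ℓ

theorem smo_cast_ne_zero {k : Type*} [Field k] {p : ℕ} [CharP k p] (hp : p.Prime) {ℓ : ℕ}
    (hℓ : ℓ.Prime) (h : ℓ ≠ p) : (ℓ : k) ≠ 0 := by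
  intro h0
  have h1 : p ∣ ℓ := (CharP.cast_eq_zero_iff k p ℓ).mp h0
  exact h ((Nat.prime_dvd_prime_iff_eq hp hℓ).mp h1).symm

/-- the traces of the powers of a Frobenius element in a representation attached to `g` -/
theorem smo_trace_frob {N : ℕ} {g : CuspForm (Gamma0 N) 2} {k : Type} [Field k]
    {φ : Zbar →+* k} (ρ : ResidualGaloisRep k) (hρ : ρ.IsAttachedTo g φ) {ℓ : ℕ} (hℓ : ℓ.Prime)
    (hℓN : ¬ ℓ ∣ N) (hℓk : (ℓ : k) ≠ 0) (A : ValuationSubring Qbar) (hA : A.LiesOverPrime ℓ)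
    (σ : GQ) (hσ : A.IsFrobeniusAt σ ℓ) (n : ℕ) :
    ∃ a : Zbar, (a : ℂ) = qCoeff g ℓ ∧
      LinearMap.trace k ρ.V (ρ.ρ σ ^ n) = smo_luc (φ a) (ℓ : k) n := by
  obtain ⟨a, ha, hchar⟩ := hρ ℓ hℓ hℓN hℓk A hA σ hσ
  exact ⟨a, ha, smo_trace_pow ρ.finrank_eq (ρ.ρ σ) hchar n⟩

/-- a representation of finite level takes the same value at two elements agreeing on a field
containing the level field -/
theorem smo_rho_eq_of_agree {k : Type} [Field k] (ρ : ResidualGaloisRep k)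
    {L₀ : IntermediateField ℚ Qbar}
    (hL₀ : ∀ σ : GQ, (∀ x ∈ L₀, σ x = x) → ρ.ρ σ = 1) {L : IntermediateField ℚ Qbar}
    (hle : L₀ ≤ L) {τ τ' : GQ} (h : ∀ x ∈ L, τ x = τ' x) : ρ.ρ τ = ρ.ρ τ' := by
  have h1 : ρ.ρ (τ'⁻¹ * τ) = 1 := by
    apply hL₀
    intro x hx
    rw [AlgEquiv.mul_apply, h x (hle hx)]
    show (τ'⁻¹ * τ') x = x
    rw [inv_mul_cancel]
    rfl
  have h2 : τ = τ' * (τ'⁻¹ * τ) := (mul_inv_cancel_left τ' τ).symm
  rw [h2, map_mul, h1, mul_one]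

/-- the key step: after reduction along any `φ` in residue characteristic `p ≠ ℓ₀` the two
coefficients at `ℓ₀` agree -/
theorem smo_key (h29 : smo_S29) {N M' : ℕ} [NeZero N] (hM' : M' ∣ N)
    {f : CuspForm (Gamma0 N) 2} (hf : f.IsNormalizedEigenform)
    {g' : CuspForm (Gamma0 M') 2} (hg' : g'.IsNormalizedEigenform) (S : Finset ℕ)
    (hS : ∀ ℓ : ℕ, ℓ.Prime → ℓ ∉ S → ¬ ℓ ∣ N → qCoeff g' ℓ = qCoeff f ℓ)
    {ℓ₀ : ℕ} (hℓ₀ : ℓ₀.Prime) (hℓ₀N : ¬ ℓ₀ ∣ N) {p : ℕ} (hp : p.Prime) (hpℓ₀ : ℓ₀ ≠ p)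
    {k : Type} [Field k] [CharP k p] (φ : Zbar →+* k) :
    ∃ af ag : Zbar, (af : ℂ) = qCoeff f ℓ₀ ∧ (ag : ℂ) = qCoeff g' ℓ₀ ∧ φ ag = φ af := by
  classical
  have hℓ₀M : ¬ ℓ₀ ∣ M' := fun h => hℓ₀N (h.trans hM')
  obtain ⟨A₀, σ₀, hA₀, hσ₀⟩ := Fermat.Agent.S54.exists_isFrobeniusAt hℓ₀
  obtain ⟨ρf, hρf, -⟩ := h29 hf hp φ
  obtain ⟨ρg, hρg, -⟩ := h29 hg' hp φ
  obtain ⟨Lf, hLf, hLf'⟩ := ρf.factorsThroughFiniteLevel
  obtain ⟨Lg, hLg, hLg'⟩ := ρg.factorsThroughFiniteLevel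
  obtain ⟨L, hLfd, hLn, hfL, hgL, -⟩ := Fermat.Agent.JT3.ur_exists_normal Lf Lg Lg hLf hLg hLg
  haveI := hLfd
  haveI := hLn
  obtain ⟨ℓ₁, A₁, φ₁, n, hℓ₁, hℓ₁S, hA₁, hφ₁, hn⟩ :=
    Fermat.Agent.WC.wc_main L (S ∪ {p} ∪ N.primeFactors) σ₀
  have hℓ₁N : ¬ ℓ₁ ∣ N := fun h => hℓ₁S
    (Finset.mem_union_right _ (Nat.mem_primeFactors.mpr ⟨hℓ₁, h, NeZero.ne N⟩))
  have hℓ₁M : ¬ ℓ₁ ∣ M' := fun h => hℓ₁N (h.trans hM')
  have hℓ₁p : ℓ₁ ≠ p := fun h => hℓ₁S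
    (Finset.mem_union_left _ (Finset.mem_union_right _ (by rw [h]; exact Finset.mem_singleton_self p)))
  have hℓ₁S' : ℓ₁ ∉ S := fun h => hℓ₁S
    (Finset.mem_union_left _ (Finset.mem_union_left _ h))
  -- `ρ σ₀ = (ρ φ₁) ^ n`
  have ef : ρf.ρ σ₀ = ρf.ρ φ₁ ^ n := by
    rw [← map_pow]
    exact (smo_rho_eq_of_agree ρf hLf' hfL hn).symm
  have eg : ρg.ρ σ₀ = ρg.ρ φ₁ ^ n := by
    rw [← map_pow]
    exact (smo_rho_eq_of_agree ρg hLg' hgL hn).symm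
  obtain ⟨bf, hbf, htf⟩ := smo_trace_frob ρf hρf hℓ₁ hℓ₁N (smo_cast_ne_zero hp hℓ₁ hℓ₁p)
    A₁ hA₁ φ₁ hφ₁ n
  obtain ⟨bg, hbg, htg⟩ := smo_trace_frob ρg hρg hℓ₁ hℓ₁M (smo_cast_ne_zero hp hℓ₁ hℓ₁p)
    A₁ hA₁ φ₁ hφ₁ n
  have hb : bg = bf := Subtype.ext (hbg.trans ((hS ℓ₁ hℓ₁ hℓ₁S' hℓ₁N).trans hbf.symm))
  obtain ⟨af, haf, hta⟩ := smo_trace_frob ρf hρf hℓ₀ hℓ₀N (smo_cast_ne_zero hp hℓ₀ hpℓ₀)
    A₀ hA₀ σ₀ hσ₀ 1
  obtain ⟨ag, hag, htb⟩ := smo_trace_frob ρg hρg hℓ₀ hℓ₀M (smo_cast_ne_zero hp hℓ₀ hpℓ₀)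
    A₀ hA₀ σ₀ hσ₀ 1
  refine ⟨af, ag, haf, hag, ?_⟩
  rw [pow_one, ef, htf] at hta
  rw [pow_one, eg, htg, hb] at htb
  have h1 : smo_luc (φ af) ((ℓ₀ : ℕ) : k) 1 = φ af := rfl
  have h2 : smo_luc (φ ag) ((ℓ₀ : ℕ) : k) 1 = φ ag := rfl
  rw [← h1, ← h2, ← hta, ← htb]

/-- **strong multiplicity one**: agreement of the coefficients outside a finite set implies
agreement at every prime not dividing the level -/
theorem smo_coeff_eq_of (h29 : smo_S29) {N M' : ℕ} [NeZero N] (hM' : M' ∣ N)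
    {f : CuspForm (Gamma0 N) 2} (hf : f.IsNormalizedEigenform)
    {g' : CuspForm (Gamma0 M') 2} (hg' : g'.IsNormalizedEigenform) (S : Finset ℕ)
    (hS : ∀ ℓ : ℕ, ℓ.Prime → ℓ ∉ S → ¬ ℓ ∣ N → qCoeff g' ℓ = qCoeff f ℓ)
    {ℓ₀ : ℕ} (hℓ₀ : ℓ₀.Prime) (hℓ₀N : ¬ ℓ₀ ∣ N) : qCoeff g' ℓ₀ = qCoeff f ℓ₀ := by
  classical
  -- integrality of the two coefficients
  obtain ⟨af, ag, haf, hag⟩ : ∃ af ag : Zbar, (af : ℂ) = qCoeff f ℓ₀ ∧ (ag : ℂ) = qCoeff g' ℓ₀ := by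
    obtain ⟨p, 𝔪, hp, hpT, h𝔪, hp𝔪, -⟩ := smo_exists_residue 1 one_ne_zero {ℓ₀}
    letI : Field (Zbar ⧸ 𝔪) := Ideal.Quotient.field 𝔪
    haveI : CharP (Zbar ⧸ 𝔪) p := (CharP.charP_iff_prime_eq_zero hp).mpr (by
      have h1 := Ideal.Quotient.eq_zero_iff_mem.mpr hp𝔪
      simpa using h1)
    have hpℓ₀ : ℓ₀ ≠ p := fun h => hpT (by rw [← h]; exact Finset.mem_singleton_self ℓ₀)
    obtain ⟨af, ag, haf, hag, -⟩ := smo_key h29 hM' hf hg' S hS hℓ₀ hℓ₀N hp hpℓ₀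
      (Ideal.Quotient.mk 𝔪)
    exact ⟨af, ag, haf, hag⟩
  by_contra hne
  have hα : ag - af ≠ 0 := by
    intro h0
    apply hne
    rw [← haf, ← hag, sub_eq_zero.mp h0]
  obtain ⟨p, 𝔪, hp, hpT, h𝔪, hp𝔪, hα𝔪⟩ := smo_exists_residue (ag - af) hα {ℓ₀}
  letI : Field (Zbar ⧸ 𝔪) := Ideal.Quotient.field 𝔪
  haveI : CharP (Zbar ⧸ 𝔪) p := (CharP.charP_iff_prime_eq_zero hp).mpr (by
    have h1 := Ideal.Quotient.eq_zero_iff_mem.mpr hp𝔪
    simpa using h1)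
  have hpℓ₀ : ℓ₀ ≠ p := fun h => hpT (by rw [← h]; exact Finset.mem_singleton_self ℓ₀)
  obtain ⟨af', ag', haf', hag', heq⟩ := smo_key h29 hM' hf hg' S hS hℓ₀ hℓ₀N hp hpℓ₀
    (Ideal.Quotient.mk 𝔪)
  have h1 : af' = af := Subtype.ext (haf'.trans haf.symm)
  have h2 : ag' = ag := Subtype.ext (hag'.trans hag.symm)
  rw [h1, h2] at heq
  apply hα𝔪
  rw [← Ideal.Quotient.eq_zero_iff_mem, map_sub, heq, sub_self]

end smo

/-! ### From an eigenvector away from `S` to a normalised eigenform -/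

section eigen

open Fermat.Agent.S49

variable {M' : ℕ} [NeZero M']

/-- the family of all Hecke operators of level `M'` -/
def smo_ops (M' : ℕ) [NeZero M'] : Set (Module.End ℂ (CuspForm (Gamma0 M') 2)) :=
  {s | (∃ (ℓ : ℕ) (hℓ : ℓ.Prime) (hℓM : ¬ ℓ ∣ M'), s = heckeTLin 2 hℓ hℓM) ∨
    (∃ (q : ℕ) (hqM : q ∣ M'), s = heckeULin 2 hqM)}

theorem smo_ops_commute : ∀ s ∈ smo_ops M', ∀ t ∈ smo_ops M', Commute s t := by
  rintro s (⟨ℓ, hℓ, hℓM, rfl⟩ | ⟨q, hqM, rfl⟩) t (⟨ℓ', hℓ', hℓM', rfl⟩ | ⟨q', hqM', rfl⟩)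
  · exact CuspForm.heckeTLin_comm 2 hℓ hℓM hℓ' hℓM'
  · exact CuspForm.heckeTLin_heckeULin_comm 2 hℓ hℓM hqM'
  · exact (CuspForm.heckeTLin_heckeULin_comm 2 hℓ' hℓM' hqM).symm
  · exact CuspForm.heckeULin_comm 2 hqM hqM'

/-- the simultaneous eigenspace of `{T_ℓ : ℓ ∉ S, ℓ ∤ M'}` with eigenvalues `c ℓ` -/
def smo_E (M' : ℕ) (S : Finset ℕ) (c : ℕ → ℂ) : Submodule ℂ (CuspForm (Gamma0 M') 2) where
  carrier := {h | ∀ (ℓ : ℕ) (hℓ : ℓ.Prime) (hℓM : ¬ ℓ ∣ M'), ℓ ∉ S →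
    heckeTLin 2 hℓ hℓM h = c ℓ • h}
  add_mem' := by
    intro a b ha hb ℓ hℓ hℓM hℓS
    rw [map_add, ha ℓ hℓ hℓM hℓS, hb ℓ hℓ hℓM hℓS, smul_add]
  zero_mem' := by
    intro ℓ hℓ hℓM hℓS
    rw [map_zero, smul_zero]
  smul_mem' := by
    intro r a ha ℓ hℓ hℓM hℓS
    rw [map_smul, ha ℓ hℓ hℓM hℓS, smul_comm]

theorem smo_E_stable (S : Finset ℕ) (c : ℕ → ℂ) :
    ∀ s ∈ smo_ops M', ∀ w ∈ smo_E M' S c, s w ∈ smo_E M' S c := by
  intro s hs w hw ℓ hℓ hℓM hℓS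
  have hc : Commute (heckeTLin 2 hℓ hℓM) s :=
    smo_ops_commute _ (Or.inl ⟨ℓ, hℓ, hℓM, rfl⟩) s hs
  have h1 := congrArg (fun F : Module.End ℂ (CuspForm (Gamma0 M') 2) => F w) hc.eq
  simp only [Module.End.mul_apply] at h1
  rw [h1, hw ℓ hℓ hℓM hℓS, map_smul]

/-- a nonzero simultaneous eigenvector of the `T_ℓ`, `ℓ ∉ S`, gives a normalised eigenform with the
same eigenvalues -/
theorem smo_exists_eigenform (S : Finset ℕ) (c : ℕ → ℂ) (h : CuspForm (Gamma0 M') 2)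
    (hh : h ≠ 0)
    (heig : ∀ (ℓ : ℕ) (hℓ : ℓ.Prime) (hℓM : ¬ ℓ ∣ M'), ℓ ∉ S →
      heckeTLin 2 hℓ hℓM h = c ℓ • h) :
    ∃ g' : CuspForm (Gamma0 M') 2, g'.IsNormalizedEigenform ∧
      ∀ ℓ : ℕ, ℓ.Prime → ¬ ℓ ∣ M' → ℓ ∉ S → qCoeff g' ℓ = c ℓ := by
  classical
  haveI : FiniteDimensional ℂ (CuspForm (Gamma0 M') 2) :=
    Fermat.Agent.S23.finiteDimensional_cuspForm M' 2
  have hE : smo_E M' S c ≠ ⊥ := (Submodule.ne_bot_iff _).mpr ⟨h, heig, hh⟩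
  obtain ⟨g, hgE, hg0, hgs⟩ := exists_common_eigenvector (smo_ops M') smo_ops_commute
    (smo_E M' S c) hE (smo_E_stable S c)
  have hexT : ∀ (ℓ : ℕ) (hℓ : ℓ.Prime) (hℓM : ¬ ℓ ∣ M'), ∃ a : ℂ,
      heckeTLin 2 hℓ hℓM g = a • g := fun ℓ hℓ hℓM => hgs _ (Or.inl ⟨ℓ, hℓ, hℓM, rfl⟩)
  have hexU : ∀ (q : ℕ) (hqM : q ∣ M'), ∃ a : ℂ, heckeULin 2 hqM g = a • g :=
    fun q hqM => hgs _ (Or.inr ⟨q, hqM, rfl⟩)
  set lam : ℕ → ℂ := fun n =>
    if hn : n.Prime then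
      (if hM : n ∣ M' then (hexU n hM).choose else (hexT n hn hM).choose)
    else 0 with hlam
  have hT : ∀ (ℓ : ℕ) (hℓ : ℓ.Prime) (hℓM : ¬ ℓ ∣ M'),
      heckeTLin 2 hℓ hℓM g = lam ℓ • g := by
    intro ℓ hℓ hℓM
    have h1 : lam ℓ = (hexT ℓ hℓ hℓM).choose := by
      simp only [hlam, dif_pos hℓ, dif_neg hℓM]
    rw [h1]
    exact (hexT ℓ hℓ hℓM).choose_spec
  have hU : ∀ (q : ℕ) (_ : q.Prime) (hqM : q ∣ M'), heckeULin 2 hqM g = lam q • g := by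
    intro q hq hqM
    have h1 : lam q = (hexU q hqM).choose := by
      simp only [hlam, dif_pos hq, dif_pos hqM]
    rw [h1]
    exact (hexU q hqM).choose_spec
  obtain ⟨g', hg', hcoef⟩ := exists_normalizedEigenform_of_eigenvector hg0 lam hT hU
  refine ⟨g', hg', fun ℓ hℓ hℓM hℓS => ?_⟩
  rw [hcoef ℓ hℓ]
  have h1 := hT ℓ hℓ hℓM
  rw [hgE ℓ hℓ hℓM hℓS] at h1
  have h2 : (c ℓ - lam ℓ) • g = 0 := by rw [sub_smul, h1, sub_self]
  rcases smul_eq_zero.mp h2 with h3 | h3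
  · exact (sub_eq_zero.mp h3).symm
  · exact absurd h3 hg0

end eigen

/-! ### The eigensystem of `f` occurs at level `M'` -/

section final

theorem smo_occurs_of (h29 : smo_S29) {N M' : ℕ} [NeZero N] (hM' : M' ∣ N)
    {f : CuspForm (Gamma0 N) 2} (hf : f.IsNormalizedEigenform) (S : Finset ℕ)
    (h : CuspForm (Gamma0 M') 2) (hh : h ≠ 0)
    (heig : ∀ (ℓ : ℕ) (hℓ : ℓ.Prime) (hℓM : ¬ ℓ ∣ M'), ℓ ∉ S →
      heckeTLin 2 hℓ hℓM h = qCoeff f ℓ • h) :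
    CuspForm.GoodEigensystemOccursAt f M' := by
  haveI : NeZero M' := ⟨fun h0 => NeZero.ne N (by rw [h0] at hM'; exact zero_dvd_iff.mp hM')⟩
  obtain ⟨g', hg', hc⟩ := smo_exists_eigenform S (fun ℓ => qCoeff f ℓ) h hh heig
  refine ⟨g', hg', fun ℓ hℓ hℓN => ?_⟩
  exact smo_coeff_eq_of h29 hM' hf hg' S
    (fun ℓ' hℓ' hℓ'S hℓ'N => hc ℓ' hℓ' (fun hd => hℓ'N (hd.trans hM')) hℓ'S) hℓ hℓN

/-- the eigensystem of a newform does not occur (away from any finite set of primes) at a proper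
divisor of its level -/
theorem smo_newform_not_occurs_of (h29 : smo_S29) {M : ℕ} [NeZero M]
    {g : CuspForm (Gamma0 M) 2} (hg : g.IsNewform) {M' : ℕ} (hM' : M' ∣ M) (hne : M' ≠ M)
    (S : Finset ℕ) (h : CuspForm (Gamma0 M') 2)
    (heig : ∀ (ℓ : ℕ) (hℓ : ℓ.Prime) (hℓM : ¬ ℓ ∣ M'), ℓ ∉ S →
      heckeTLin 2 hℓ hℓM h = qCoeff g ℓ • h) : h = 0 := by
  by_contra hh
  exact hg.2 M' hM' hne (smo_occurs_of h29 hM' hg.1 S h hh heig)

end final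

end Fermat.Agent.S35
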