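/-
S35, cell **[SMO]** (helper3): strong multiplicity one, CLOSED forms (S29 plugged in).
Prefix `smo_`.  See `S35/SMO.lean`.
-/
import Fermat.Agent.S35.SMO
import Fermat.Agent.S29

set_option autoImplicit false

namespace Fermat.Agent.S35

open CuspForm CongruenceSubgroup ModularFormClass

/-- S29 in the shape used by `S35/SMO.lean` -/
theorem smo_s29 : smo_S29 := fun hg _ hp _ _ _ φ => Fermat.Agent.S29.result hg hp φ

/-- **strong multiplicity one**: two normalised eigenforms of levels `M' ∣ N` whose coefficients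
agree at the primes `ℓ ∉ S`, `ℓ ∤ N` (`S` finite) agree at every prime `ℓ ∤ N` -/
theorem smo_coeff_eq {N M' : ℕ} [NeZero N] (hM' : M' ∣ N)
    {f : CuspForm (Gamma0 N) 2} (hf : f.IsNormalizedEigenform)
    {g' : CuspForm (Gamma0 M') 2} (hg' : g'.IsNormalizedEigenform) (S : Finset ℕ)
    (hS : ∀ ℓ : ℕ, ℓ.Prime → ℓ ∉ S → ¬ ℓ ∣ N → qCoeff g' ℓ = qCoeff f ℓ)
    {ℓ₀ : ℕ} (hℓ₀ : ℓ₀.Prime) (hℓ₀N : ¬ ℓ₀ ∣ N) : qCoeff g' ℓ₀ = qCoeff f ℓ₀ :=
  smo_coeff_eq_of smo_s29 hM' hf hg' S hS hℓ₀ hℓ₀N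

/-- a nonzero simultaneous eigenvector at level `M' ∣ N` of the `T_ℓ`, `ℓ ∉ S`, with the
eigenvalues of `f`: the eigensystem of `f` occurs at level `M'` -/
theorem smo_occurs {N M' : ℕ} [NeZero N] (hM' : M' ∣ N)
    {f : CuspForm (Gamma0 N) 2} (hf : f.IsNormalizedEigenform) (S : Finset ℕ)
    (h : CuspForm (Gamma0 M') 2) (hh : h ≠ 0)
    (heig : ∀ (ℓ : ℕ) (hℓ : ℓ.Prime) (hℓM : ¬ ℓ ∣ M'), ℓ ∉ S →
      heckeTLin 2 hℓ hℓM h = qCoeff f ℓ • h) :
    CuspForm.GoodEigensystemOccursAt f M' :=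
  smo_occurs_of smo_s29 hM' hf S h hh heig

/-- the eigensystem of a newform does not occur, even away from a finite set of primes, at a proper
divisor of its level -/
theorem smo_newform_not_occurs {M : ℕ} [NeZero M]
    {g : CuspForm (Gamma0 M) 2} (hg : g.IsNewform) {M' : ℕ} (hM' : M' ∣ M) (hne : M' ≠ M)
    (S : Finset ℕ) (h : CuspForm (Gamma0 M') 2)
    (heig : ∀ (ℓ : ℕ) (hℓ : ℓ.Prime) (hℓM : ¬ ℓ ∣ M'), ℓ ∉ S →
      heckeTLin 2 hℓ hℓM h = qCoeff g ℓ • h) : h = 0 :=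
  smo_newform_not_occurs_of smo_s29 hg hM' hne S h heig

end Fermat.Agent.S35
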