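/-
Project S35: the frozen statement of S35 from node E, S18, the geometric seam of S34 (`ss_Geom`)
and the ONE remaining geometric statement [TOR-T] (`s35t_TorT`, S35/TorNewOf.lean); strong
multiplicity one is helper3's `smo_occurs`.

* `s35t_seamSMO`        : `s35n_SeamSMO` (closed);
* `s35t_frobSq_of`      : `s35t_TorT → s35t_FrobSq`;
* `s35t_result_of_torT` : S35 verbatim from `tjp_NodeE`, `tjp_S18`, `ss_Geom` at every `q ‖ N`
                          and `s35t_TorT`.
Prefix `s35t_`.  Owner: helper28.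
-/
import Mathlib
import Fermat.Agent.S35.TorNewOf
import Fermat.Agent.S35.SMOFinal

set_option autoImplicit false
set_option linter.unusedSectionVars false
set_option linter.overlappingInstances false

noncomputable section

namespace Fermat.Agent.S35

open IsLocalRing TensorProduct Polynomial Fermat.Agent.JT3 Fermat.Agent.SS ModularCurve
open CuspForm CuspForm.IsNewform

/-- strong multiplicity one, in the shape consumed by [NEW-0] -/
theorem s35t_seamSMO : s35n_SeamSMO := by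
  intro N M' _ _ hM' f hf S h hh heig
  exact smo_occurs hM' hf S h hh heig

/-- **[FROBSQ] from [TOR-T].** -/
theorem s35t_frobSq_of (hT : s35t_TorT) : s35t_FrobSq :=
  s35t_frobSq_of_torT hT s35t_seamSMO

/-- **S35 from node E, S18, the geometric seam of S34 and [TOR-T]** (the frozen statement
verbatim). -/
theorem s35t_result_of_torT (hE : tjp_NodeE) (hS18 : tjp_S18)
    (hG : ∀ (N : ℕ) [NeZero N] (q : ℕ), q.Prime → q ∣ N → ¬ q ^ 2 ∣ N → ss_Geom N q)
    (hT : s35t_TorT)
    {M : ℕ} [NeZero M] {g : CuspForm (CongruenceSubgroup.Gamma0 M) 2} (hg : g.IsNewform)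
    (lam : ℕ) [Fact lam.Prime]
    (S : Finset ℕ)
    (O' : Type) [CommRing O'] [IsDomain O'] [IsDiscreteValuationRing O']
    [IsAdicComplete (IsLocalRing.maximalIdeal O') O'] [Finite (IsLocalRing.ResidueField O')]
    [CharZero O'] (hlamO' : (lam : O') ∈ IsLocalRing.maximalIdeal O')
    (chig : CuspForm.heckeAlgebra M 2 (↑S : Set ℕ) →+* ℂ)
    (hchig : ∀ (ℓ : ℕ) (hℓ : ℓ.Prime) (hℓM : ¬ ℓ ∣ M) (hℓS : ℓ ∉ (↑S : Set ℕ)),
      chig (CuspForm.heckeAlgebra.T hℓ hℓM hℓS) = ModularFormClass.qCoeff g ℓ)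
    (iota : chig.range →+* O')
    (hlamS : lam ∈ S) (hMS : ∀ q : ℕ, q.Prime → q ∣ M → q ∈ S)
    :
    ∃ (O'' : Type) (_ : CommRing O'') (_ : IsDomain O'') (_ : IsDiscreteValuationRing O'')
      (_ : IsAdicComplete (IsLocalRing.maximalIdeal O'') O'') (_ : Finite (IsLocalRing.ResidueField O''))
      (_ : CharZero O'') (_ : Algebra O' O'') (_ : Module.Finite O' O'') (_ : IsLocalHom (algebraMap O' O'')),
      Function.Injective (algebraMap O' O'') ∧
      ∃ ρ : GaloisRepAdic O'',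
        (∀ (ℓ : ℕ) (hℓ : ℓ.Prime) (hℓM : ¬ ℓ ∣ M) (hℓS : ℓ ∉ (↑S : Set ℕ)),
          ∀ A : ValuationSubring (AlgebraicClosure ℚ), A.LiesOverPrime ℓ →
            ∀ σ : AlgebraicClosure ℚ ≃ₐ[ℚ] AlgebraicClosure ℚ, A.IsFrobeniusAt σ ℓ →
              LinearMap.charpoly (ρ.ρ σ) =
                X ^ 2 - C (algebraMap O' O'' ((iota.comp chig.rangeRestrict) (CuspForm.heckeAlgebra.T hℓ hℓM hℓS))) * X
                  + C ((ℓ : O''))) ∧
        (∀ q : ℕ, q.Prime → q ≠ lam → q ∣ M → ¬ q ^ 2 ∣ M →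
          ∀ A : ValuationSubring (AlgebraicClosure ℚ), A.LiesOverPrime q →
            ∀ σ : AlgebraicClosure ℚ ≃ₐ[ℚ] AlgebraicClosure ℚ, A.IsFrobeniusAt σ q →
              LinearMap.charpoly (ρ.ρ σ) = X ^ 2 - C ((q : O'') + 1) * X + C ((q : O'')) ∨
              LinearMap.charpoly (ρ.ρ σ) = X ^ 2 + C ((q : O'') + 1) * X + C ((q : O''))) :=
  s35t_result_of hE hS18 hG (s35t_frobSq_of hT) hg lam S O' hlamO' chig hchig iota hlamS hMS

end Fermat.Agent.S35
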