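/-
Project S35: THE OFFICIAL PRIMED CORE SEAMS ON THE COVER (rulings (R6) = helper4's `(φ - 1)`-fix and
helper22's #2271: the finite set `T` must be fixed by the inertia group).  Interim architect: helper6.

Everything is stated for `G := Φ g / g` (`Φ` = the coefficient action of `φ` on the cover field),
which is a unit at both Gauss valuations, so no component-group integer is needed.

Legendre cover (`q` odd; context of `S35/Seams.lean`):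
* `s35_AbelAt1 O hπ N' q hq2 hqN' φ m d` : for `g` new (`s35_NewAt`): `(Φg/g)^d = c · R^m · g'` with
      `m ∣` all orders of `g'` and `g'` of constant reductions at `V₁`, `V₂`;
* `s35_CoreAt1 N' q hq2 hqN' φ m d`      : `(Φ²(Φg/g))^d = c · r^m · (Φg/g)^(q² d)`;
* `s35_coreAt1_of_abel_toric`            : `s35_AbelAt1 → s35_ToricAt → s35_CoreAt1`;
* `s35_AbelNF1`, `s35_ToricNF1`, `s35_CoreNF1`, `s35_coreNF1_of` : over the unramified number fields,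
      with the clause `∀ t ∈ T, ∀ s ∈ I_A, s t = t` on `T` and the hypothesis
      `∀ x ∈ L1, ∀ s ∈ I_A, s x = x` on the level `L1` (helper4's request #2307 (b): the levels are
      the finite `I_A`-fixed fields in which `q` is a uniformiser).
Hesse cover (`q ≠ 3`; context of helper8's `S35/SeamsHes.lean`): the same with prefix `s35h_`.
-/
import Mathlib
import Fermat.Agent.S35.Seams
import Fermat.Agent.S35.SeamsHes
import Fermat.Agent.SS.CoreNFLeg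

set_option autoImplicit false
set_option linter.unusedSectionVars false
set_option linter.unusedVariables false
set_option linter.style.haveILetI false

noncomputable section

namespace Fermat.Agent.S35

open ModularCurve AlgebraicCurve IsLocalRing Fermat.Agent.JT3 Fermat.Agent.S24 Fermat.Agent.SS

local notation "GQ" => (AlgebraicClosure ℚ ≃ₐ[ℚ] AlgebraicClosure ℚ)
local notation "Qb" => AlgebraicClosure ℚ

/-- the algebra step of `s35_coreAt1_of_abel_toric` / `s35h_coreAt1_of_abel_toric`. -/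
theorem s35_alg_aux1 {F : Type*} [Field F] (Φ : F ≃+* F) (G C R g' C' r : F) (m d Q : ℕ)
    (hC : C ≠ 0) (hR : R ≠ 0) (hG : G ^ d = C * R ^ m * g')
    (hT : Φ g' = C' * r ^ m * g' ^ Q) :
    Φ G ^ d = (Φ C * C' / C ^ Q) * (Φ R * r / R ^ Q) ^ m * G ^ (Q * d) := by
  rw [← map_pow, hG, map_mul, map_mul, map_pow, hT, pow_mul', hG]
  exact s35_alg_aux C (Φ C) C' (Φ R) r R g' m Q hC hR

/-! ### Legendre cover -/

section Legendre

variable {L : Type*} [Field L] [CharZero L] [Algebra L (AlgebraicClosure ℚ)]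
  (O : ValuationSubring L) [IsDiscreteValuationRing O] {π : O} (hπ : Irreducible π)
  (N' q : ℕ) [NeZero N'] [NeZero q] [hq : Fact q.Prime] [CharP (ResidueField O) q]
  (hq2 : ¬ 2 ∣ q) (hqN' : ¬ q ∣ N')

/-- **[ABEL], primed** at `(L, O, φ, m)` with exponent `d`, Legendre cover. -/
def s35_AbelAt1 (φ : L ≃+* L) (m d : ℕ) : Prop :=
  ∀ g : ↥(lg_E L (N' * q)), s35_NewAt N' q hq2 hqN' m g →
    ∃ (c : L) (R g' : ↥(lg_E L (N' * q))), c ≠ 0 ∧ R ≠ 0 ∧ g' ≠ 0 ∧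
      (ssm_sg_aut (N' * q) φ g / g) ^ d = algebraMap L ↥(lg_E L (N' * q)) c * R ^ m * g' ∧
      (∀ v : Place L ↥(lg_E L (N' * q)), (m : ℤ) ∣ v.ord g') ∧
      s35_ConstRed O hπ N' q hq2 hqN' g'

/-- **THE CORE, primed** over `(L, φ)`, Legendre cover. -/
def s35_CoreAt1 (φ : L ≃+* L) (m d : ℕ) : Prop :=
  ∀ g : ↥(lg_E L (N' * q)), s35_NewAt N' q hq2 hqN' m g →
    ∃ (c : L) (r : ↥(lg_E L (N' * q))), r ≠ 0 ∧
      ssm_sg_aut (N' * q) φ (ssm_sg_aut (N' * q) φ (ssm_sg_aut (N' * q) φ g / g)) ^ d =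
        algebraMap L ↥(lg_E L (N' * q)) c * r ^ m *
          (ssm_sg_aut (N' * q) φ g / g) ^ (q ^ 2 * d)

/-- **The primed core from the primed [ABEL] and [TORIC]**, Legendre cover. -/
theorem s35_coreAt1_of_abel_toric (φ : L ≃+* L) (m d : ℕ)
    (hA : s35_AbelAt1 O hπ N' q hq2 hqN' φ m d) (hT : s35_ToricAt O hπ N' q hq2 hqN' φ m) :
    s35_CoreAt1 N' q hq2 hqN' φ m d := by
  intro g hg
  obtain ⟨c, R, g', hc0, hR0, hg'0, hgd, hord', hred⟩ := hA g hg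
  have hcE : algebraMap L ↥(lg_E L (N' * q)) c ≠ 0 := by
    rw [Ne, map_eq_zero]
    exact hc0
  obtain ⟨c', r, hr0, hφ⟩ := hT g' hg'0 hord' hred
  set Φ := (ssm_sg_aut (N' * q) φ).trans (ssm_sg_aut (N' * q) φ) with hΦ
  have hΦg : ∀ z, Φ z = ssm_sg_aut (N' * q) φ (ssm_sg_aut (N' * q) φ z) := fun z => rfl
  have hΦc : Φ (algebraMap L ↥(lg_E L (N' * q)) c) =
      algebraMap L ↥(lg_E L (N' * q)) (φ (φ c)) := by
    rw [hΦg, ssm_sg_aut_algebraMap, ssm_sg_aut_algebraMap]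
  refine ⟨φ (φ c) * c' / c ^ (q ^ 2), Φ R * r / R ^ (q ^ 2), ?_, ?_⟩
  · exact div_ne_zero (mul_ne_zero ((map_ne_zero Φ).2 hR0) hr0) (pow_ne_zero _ hR0)
  · have e : algebraMap L ↥(lg_E L (N' * q)) (φ (φ c) * c' / c ^ (q ^ 2)) =
        Φ (algebraMap L ↥(lg_E L (N' * q)) c) * algebraMap L ↥(lg_E L (N' * q)) c' /
          algebraMap L ↥(lg_E L (N' * q)) c ^ (q ^ 2) := by
      rw [map_div₀, map_mul, map_pow, hΦc]
    rw [← hΦg, e]
    exact s35_alg_aux1 Φ _ _ R g' _ r m d (q ^ 2) hcE hR0 hgd (by rw [hΦg]; exact hφ)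

end Legendre

section NF

variable (N' q : ℕ) [NeZero N'] [NeZero q] [hq : Fact q.Prime] (hq2 : ¬ 2 ∣ q) (hqN' : ¬ q ∣ N')

/-- **[ABEL], primed, over the unramified number fields** (Legendre cover). -/
def s35_AbelNF1 : Prop :=
  ∀ A : ValuationSubring Qb, A.LiesOverPrime q → ∀ φ : GQ, A.IsFrobeniusAt φ q →
    ∃ d : ℕ, d ≠ 0 ∧ ∃ T : Finset Qb, (∀ t ∈ T, ∀ s ∈ A.inertiaSubgroupIn ℚ, s t = t) ∧
      ∀ L1 : IntermediateField ℚ Qb, FiniteDimensional ℚ L1 → (↑T : Set Qb) ⊆ L1 →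
        (∀ x ∈ L1, ∀ s ∈ A.inertiaSubgroupIn ℚ, s x = x) →
        ∀ [IsDiscreteValuationRing ↥(A.comap (algebraMap ↥L1 Qb))]
          [CharP (ResidueField ↥(A.comap (algebraMap ↥L1 Qb))) q]
          (hπ : Irreducible ((q : ℕ) : ↥(A.comap (algebraMap ↥L1 Qb)))),
          ∀ φ1 : ↥L1 ≃+* ↥L1, (∀ x : ↥L1, ((φ1 x : ↥L1) : Qb) = φ (x : Qb)) →
            ∀ m : ℕ, ¬ q ∣ m → (∃ ζ : ↥L1, IsPrimitiveRoot ζ m) →
              s35_AbelAt1 (A.comap (algebraMap ↥L1 Qb)) hπ N' q hq2 hqN' φ1 m d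

/-- **[TORIC] over the unramified number fields** (Legendre cover), with `T` inertia-fixed. -/
def s35_ToricNF1 : Prop :=
  ∀ A : ValuationSubring Qb, A.LiesOverPrime q → ∀ φ : GQ, A.IsFrobeniusAt φ q →
    ∃ T : Finset Qb, (∀ t ∈ T, ∀ s ∈ A.inertiaSubgroupIn ℚ, s t = t) ∧
      ∀ L1 : IntermediateField ℚ Qb, FiniteDimensional ℚ L1 → (↑T : Set Qb) ⊆ L1 →
        (∀ x ∈ L1, ∀ s ∈ A.inertiaSubgroupIn ℚ, s x = x) →
        ∀ [IsDiscreteValuationRing ↥(A.comap (algebraMap ↥L1 Qb))]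
          [CharP (ResidueField ↥(A.comap (algebraMap ↥L1 Qb))) q]
          (hπ : Irreducible ((q : ℕ) : ↥(A.comap (algebraMap ↥L1 Qb)))),
          ∀ φ1 : ↥L1 ≃+* ↥L1, (∀ x : ↥L1, ((φ1 x : ↥L1) : Qb) = φ (x : Qb)) →
            ∀ m : ℕ, ¬ q ∣ m → (∃ ζ : ↥L1, IsPrimitiveRoot ζ m) →
              s35_ToricAt (A.comap (algebraMap ↥L1 Qb)) hπ N' q hq2 hqN' φ1 m

/-- **The primed core over the unramified number fields** (Legendre cover): the input of the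
descent cell [DESC-φ]. -/
def s35_CoreNF1 : Prop :=
  ∀ A : ValuationSubring Qb, A.LiesOverPrime q → ∀ φ : GQ, A.IsFrobeniusAt φ q →
    ∃ d : ℕ, d ≠ 0 ∧ ∃ T : Finset Qb, (∀ t ∈ T, ∀ s ∈ A.inertiaSubgroupIn ℚ, s t = t) ∧
      ∀ L1 : IntermediateField ℚ Qb, FiniteDimensional ℚ L1 → (↑T : Set Qb) ⊆ L1 →
        (∀ x ∈ L1, ∀ s ∈ A.inertiaSubgroupIn ℚ, s x = x) →
        Irreducible ((q : ℕ) : ↥(A.comap (algebraMap ↥L1 Qb))) →
        ∀ φ1 : ↥L1 ≃+* ↥L1, (∀ x : ↥L1, ((φ1 x : ↥L1) : Qb) = φ (x : Qb)) →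
          ∀ m : ℕ, ¬ q ∣ m → (∃ ζ : ↥L1, IsPrimitiveRoot ζ m) →
            s35_CoreAt1 (L := ↥L1) N' q hq2 hqN' φ1 m d

/-- **The primed core over the unramified number fields from [ABEL] and [TORIC].** -/
theorem s35_coreNF1_of (hA : s35_AbelNF1 N' q hq2 hqN') (hT : s35_ToricNF1 N' q hq2 hqN') :
    s35_CoreNF1 N' q hq2 hqN' := by
  classical
  intro A hAq φ hφ
  obtain ⟨d, hd, TA, hfA, hTA⟩ := hA A hAq φ hφ
  obtain ⟨TT, hfT, hTT⟩ := hT A hAq φ hφ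
  refine ⟨d, hd, TA ∪ TT, ?_, fun L1 hfd hsub hfix hirr φ1 hφ1 m hqm hζ => ?_⟩
  · intro t ht s hs
    rcases Finset.mem_union.1 ht with h | h
    · exact hfA t h s hs
    · exact hfT t h s hs
  have hsubA : (↑TA : Set Qb) ⊆ L1 := fun x hx => hsub (by
    rw [Finset.coe_union]; exact Or.inl hx)
  have hsubT : (↑TT : Set Qb) ⊆ L1 := fun x hx => hsub (by
    rw [Finset.coe_union]; exact Or.inr hx)
  haveI : NumberField ↥L1 := { to_charZero := inferInstance, to_finiteDimensional := hfd }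
  haveI hdvr : IsDiscreteValuationRing ↥(A.comap (algebraMap ↥L1 Qb)) :=
    dsc_isDVR_comap_numberField A q hAq hq.out.ne_zero ↥L1
  have hmem := lg_natCast_mem_maximalIdeal A hAq ↥L1
  haveI : CharP (IsLocalRing.ResidueField ↥(A.comap (algebraMap ↥L1 Qb))) q :=
    ss_nfl_charP_residue hmem
  exact s35_coreAt1_of_abel_toric (A.comap (algebraMap ↥L1 Qb)) hirr N' q hq2 hqN' φ1 m d
    (hTA L1 hfd hsubA hfix hirr φ1 hφ1 m hqm hζ) (hTT L1 hfd hsubT hfix hirr φ1 hφ1 m hqm hζ)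

end NF

/-! ### Hesse cover -/

section Hesse

variable {L : Type*} [Field L] [CharZero L] [Algebra L (AlgebraicClosure ℚ)] (h3 : (3 : L) ≠ 0)
  (O : ValuationSubring L) [IsDiscreteValuationRing O] (h3O : IsUnit (3 : O)) {π : O}
  (hπ : Irreducible π)
  (N' q : ℕ) [NeZero N'] [NeZero q] [hq : Fact q.Prime] [CharP (ResidueField O) q]
  (hq3 : ¬ 3 ∣ q) (hqN' : ¬ q ∣ N')

/-- **[ABEL], primed**, Hesse cover. -/
def s35h_AbelAt1 (φ : L ≃+* L) (m d : ℕ) : Prop :=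
  ∀ g : ↥(hs_E L h3 (N' * q)), s35h_NewAt h3 N' q hq3 hqN' m g →
    ∃ (c : L) (R g' : ↥(hs_E L h3 (N' * q))), c ≠ 0 ∧ R ≠ 0 ∧ g' ≠ 0 ∧
      (ssm_sgh_aut h3 (N' * q) φ g / g) ^ d = algebraMap L ↥(hs_E L h3 (N' * q)) c * R ^ m * g' ∧
      (∀ v : Place L ↥(hs_E L h3 (N' * q)), (m : ℤ) ∣ v.ord g') ∧
      s35h_ConstRed h3 O h3O hπ N' q hq3 hqN' g'

/-- **THE CORE, primed**, Hesse cover. -/
def s35h_CoreAt1 (φ : L ≃+* L) (m d : ℕ) : Prop :=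
  ∀ g : ↥(hs_E L h3 (N' * q)), s35h_NewAt h3 N' q hq3 hqN' m g →
    ∃ (c : L) (r : ↥(hs_E L h3 (N' * q))), r ≠ 0 ∧
      ssm_sgh_aut h3 (N' * q) φ
          (ssm_sgh_aut h3 (N' * q) φ (ssm_sgh_aut h3 (N' * q) φ g / g)) ^ d =
        algebraMap L ↥(hs_E L h3 (N' * q)) c * r ^ m *
          (ssm_sgh_aut h3 (N' * q) φ g / g) ^ (q ^ 2 * d)

/-- **The primed core from the primed [ABEL] and [TORIC]**, Hesse cover. -/
theorem s35h_coreAt1_of_abel_toric (φ : L ≃+* L) (m d : ℕ)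
    (hA : s35h_AbelAt1 h3 O h3O hπ N' q hq3 hqN' φ m d)
    (hT : s35h_ToricAt h3 O h3O hπ N' q hq3 hqN' φ m) :
    s35h_CoreAt1 h3 N' q hq3 hqN' φ m d := by
  intro g hg
  obtain ⟨c, R, g', hc0, hR0, hg'0, hgd, hord', hred⟩ := hA g hg
  have hcE : algebraMap L ↥(hs_E L h3 (N' * q)) c ≠ 0 := by
    rw [Ne, map_eq_zero]
    exact hc0
  obtain ⟨c', r, hr0, hφ⟩ := hT g' hg'0 hord' hred
  set Φ := (ssm_sgh_aut h3 (N' * q) φ).trans (ssm_sgh_aut h3 (N' * q) φ) with hΦ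
  have hΦg : ∀ z, Φ z = ssm_sgh_aut h3 (N' * q) φ (ssm_sgh_aut h3 (N' * q) φ z) := fun z => rfl
  have hΦc : Φ (algebraMap L ↥(hs_E L h3 (N' * q)) c) =
      algebraMap L ↥(hs_E L h3 (N' * q)) (φ (φ c)) := by
    rw [hΦg, ssm_sgh_aut_algebraMap, ssm_sgh_aut_algebraMap]
  refine ⟨φ (φ c) * c' / c ^ (q ^ 2), Φ R * r / R ^ (q ^ 2), ?_, ?_⟩
  · exact div_ne_zero (mul_ne_zero ((map_ne_zero Φ).2 hR0) hr0) (pow_ne_zero _ hR0)
  · have e : algebraMap L ↥(hs_E L h3 (N' * q)) (φ (φ c) * c' / c ^ (q ^ 2)) =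
        Φ (algebraMap L ↥(hs_E L h3 (N' * q)) c) * algebraMap L ↥(hs_E L h3 (N' * q)) c' /
          algebraMap L ↥(hs_E L h3 (N' * q)) c ^ (q ^ 2) := by
      rw [map_div₀, map_mul, map_pow, hΦc]
    rw [← hΦg, e]
    exact s35_alg_aux1 Φ _ _ R g' _ r m d (q ^ 2) hcE hR0 hgd (by rw [hΦg]; exact hφ)

end Hesse

section NFH

variable (N' q : ℕ) [NeZero N'] [NeZero q] [hq : Fact q.Prime] (hq3 : ¬ 3 ∣ q) (hqN' : ¬ q ∣ N')

/-- **[ABEL], primed, over the unramified number fields**, Hesse cover. -/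
def s35h_AbelNF1 : Prop :=
  ∀ A : ValuationSubring Qb, A.LiesOverPrime q → ∀ φ : GQ, A.IsFrobeniusAt φ q →
    ∃ d : ℕ, d ≠ 0 ∧ ∃ T : Finset Qb, (∀ t ∈ T, ∀ s ∈ A.inertiaSubgroupIn ℚ, s t = t) ∧
      ∀ L1 : IntermediateField ℚ Qb, FiniteDimensional ℚ L1 → (↑T : Set Qb) ⊆ L1 →
        (∀ x ∈ L1, ∀ s ∈ A.inertiaSubgroupIn ℚ, s x = x) →
        ∀ [IsDiscreteValuationRing ↥(A.comap (algebraMap ↥L1 Qb))]
          [CharP (ResidueField ↥(A.comap (algebraMap ↥L1 Qb))) q]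
          (h3O : IsUnit (3 : ↥(A.comap (algebraMap ↥L1 Qb))))
          (hπ : Irreducible ((q : ℕ) : ↥(A.comap (algebraMap ↥L1 Qb)))),
          ∀ φ1 : ↥L1 ≃+* ↥L1, (∀ x : ↥L1, ((φ1 x : ↥L1) : Qb) = φ (x : Qb)) →
            ∀ m : ℕ, ¬ q ∣ m → (∃ ζ : ↥L1, IsPrimitiveRoot ζ m) →
              s35h_AbelAt1 (three_ne_zero : (3 : ↥L1) ≠ 0) (A.comap (algebraMap ↥L1 Qb)) h3O hπ
                N' q hq3 hqN' φ1 m d

/-- **[TORIC] over the unramified number fields**, Hesse cover, with `T` inertia-fixed. -/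
def s35h_ToricNF1 : Prop :=
  ∀ A : ValuationSubring Qb, A.LiesOverPrime q → ∀ φ : GQ, A.IsFrobeniusAt φ q →
    ∃ T : Finset Qb, (∀ t ∈ T, ∀ s ∈ A.inertiaSubgroupIn ℚ, s t = t) ∧
      ∀ L1 : IntermediateField ℚ Qb, FiniteDimensional ℚ L1 → (↑T : Set Qb) ⊆ L1 →
        (∀ x ∈ L1, ∀ s ∈ A.inertiaSubgroupIn ℚ, s x = x) →
        ∀ [IsDiscreteValuationRing ↥(A.comap (algebraMap ↥L1 Qb))]
          [CharP (ResidueField ↥(A.comap (algebraMap ↥L1 Qb))) q]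
          (h3O : IsUnit (3 : ↥(A.comap (algebraMap ↥L1 Qb))))
          (hπ : Irreducible ((q : ℕ) : ↥(A.comap (algebraMap ↥L1 Qb)))),
          ∀ φ1 : ↥L1 ≃+* ↥L1, (∀ x : ↥L1, ((φ1 x : ↥L1) : Qb) = φ (x : Qb)) →
            ∀ m : ℕ, ¬ q ∣ m → (∃ ζ : ↥L1, IsPrimitiveRoot ζ m) →
              s35h_ToricAt (three_ne_zero : (3 : ↥L1) ≠ 0) (A.comap (algebraMap ↥L1 Qb)) h3O hπ
                N' q hq3 hqN' φ1 m

/-- **The primed core over the unramified number fields**, Hesse cover. -/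
def s35h_CoreNF1 : Prop :=
  ∀ A : ValuationSubring Qb, A.LiesOverPrime q → ∀ φ : GQ, A.IsFrobeniusAt φ q →
    ∃ d : ℕ, d ≠ 0 ∧ ∃ T : Finset Qb, (∀ t ∈ T, ∀ s ∈ A.inertiaSubgroupIn ℚ, s t = t) ∧
      ∀ L1 : IntermediateField ℚ Qb, FiniteDimensional ℚ L1 → (↑T : Set Qb) ⊆ L1 →
        (∀ x ∈ L1, ∀ s ∈ A.inertiaSubgroupIn ℚ, s x = x) →
        Irreducible ((q : ℕ) : ↥(A.comap (algebraMap ↥L1 Qb))) →
        ∀ φ1 : ↥L1 ≃+* ↥L1, (∀ x : ↥L1, ((φ1 x : ↥L1) : Qb) = φ (x : Qb)) →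
          ∀ m : ℕ, ¬ q ∣ m → (∃ ζ : ↥L1, IsPrimitiveRoot ζ m) →
            s35h_CoreAt1 (L := ↥L1) (three_ne_zero : (3 : ↥L1) ≠ 0) N' q hq3 hqN' φ1 m d

/-- **The primed core over the unramified number fields from [ABEL] and [TORIC]**, Hesse. -/
theorem s35h_coreNF1_of (hA : s35h_AbelNF1 N' q hq3 hqN') (hT : s35h_ToricNF1 N' q hq3 hqN') :
    s35h_CoreNF1 N' q hq3 hqN' := by
  classical
  intro A hAq φ hφ
  obtain ⟨d, hd, TA, hfA, hTA⟩ := hA A hAq φ hφ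
  obtain ⟨TT, hfT, hTT⟩ := hT A hAq φ hφ
  refine ⟨d, hd, TA ∪ TT, ?_, fun L1 hfd hsub hfix hirr φ1 hφ1 m hqm hζ => ?_⟩
  · intro t ht s hs
    rcases Finset.mem_union.1 ht with h | h
    · exact hfA t h s hs
    · exact hfT t h s hs
  have hsubA : (↑TA : Set Qb) ⊆ L1 := fun x hx => hsub (by
    rw [Finset.coe_union]; exact Or.inl hx)
  have hsubT : (↑TT : Set Qb) ⊆ L1 := fun x hx => hsub (by
    rw [Finset.coe_union]; exact Or.inr hx)
  haveI : NumberField ↥L1 := { to_charZero := inferInstance, to_finiteDimensional := hfd }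
  haveI hdvr : IsDiscreteValuationRing ↥(A.comap (algebraMap ↥L1 Qb)) :=
    dsc_isDVR_comap_numberField A q hAq hq.out.ne_zero ↥L1
  have hmem := lg_natCast_mem_maximalIdeal A hAq ↥L1
  haveI : CharP (IsLocalRing.ResidueField ↥(A.comap (algebraMap ↥L1 Qb))) q :=
    ss_nfl_charP_residue hmem
  have h3O : IsUnit (3 : ↥(A.comap (algebraMap ↥L1 Qb))) := by
    have hcop : Nat.Coprime 3 q := by
      rw [Nat.coprime_comm, Nat.Prime.coprime_iff_not_dvd hq.out]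
      intro h
      exact hq3 ((Nat.prime_dvd_prime_iff_eq hq.out Nat.prime_three).1 h ▸ dvd_refl _)
    have := lg_isUnit_natCast hmem hcop
    simpa using this
  exact s35h_coreAt1_of_abel_toric (three_ne_zero : (3 : ↥L1) ≠ 0)
    (A.comap (algebraMap ↥L1 Qb)) h3O hirr N' q hq3 hqN' φ1 m d
    (hTA L1 hfd hsubA hfix h3O hirr φ1 hφ1 m hqm hζ) (hTT L1 hfd hsubT hfix h3O hirr φ1 hφ1 m hqm hζ)

end NFH

end Fermat.Agent.S35
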