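/-
Project S35, cell [S35-END], VARIANT OF THE END-GAME with the factor `(φ - 1)` (helper4; twin of
helper6's `S35/PackQ.lean`, whose lemmas `pkq_kolchin`, `pkq_conj_mem_inertia`, `pkq_rel_of_eigen`,
`pkq_trace_eq` are reused).  Prefix `pkq1_`.

WHY: the geometric argument ([RED-N] + [ABEL] + [TORIC]) applies to Kummer generators which are
units at BOTH vertical valuations; for a general class `x ∈ J[m]^I` this fails by the image of `x`
in the component group, but it always holds for `(φ - 1) x` (the vertical orders are `φ`-invariant).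
So the geometric cell delivers `(φ² - q²)(φ - 1) = 0` on the `I_A`-fixed vectors of the new part,
and the end-game must accept the eigenvalue `1` besides `± q`:

* (H-toric') `ρV φ (ρV φ v) = q² • v` for `v := ρV φ u - u`, for every `u ∈ W` fixed by `I_A`.

Then `φ` has an eigenvector in `U^{I_A}` with eigenvalue `α ∈ {1, q, -q}` (`pkq1_exists_eigen`) and
`α² - t α + q = 0` gives `t = ± (q + 1)` in all three cases: SAME conclusion as `pkq_core_abs`,
`pkq_core`, `pkq_S35_of_tate`.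
-/
import Mathlib
import Fermat.Agent.S35.PackQ

set_option autoImplicit false
set_option linter.unusedSectionVars false

namespace Fermat.Agent.S35

open IsLocalRing TensorProduct Polynomial Fermat.Agent.JT3

local notation "GQ" => (AlgebraicClosure ℚ ≃ₐ[ℚ] AlgebraicClosure ℚ)
local notation "Qbar" => AlgebraicClosure ℚ

/-- an operator with `f² = c²` on `(f - 1) X`, `X` a nonzero stable subspace, has an eigenvector in
`X` with eigenvalue `1` or `± c` -/
theorem pkq1_exists_eigen {K V : Type*} [Field K] [AddCommGroup V] [Module K V]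
    (f : Module.End K V) (X : Submodule K V) (hX0 : X ≠ ⊥) (hXst : X ≤ X.comap f) (c : K)
    (hf : ∀ x ∈ X, f (f (f x - x)) = (c ^ 2) • (f x - x)) :
    ∃ x ∈ X, x ≠ 0 ∧ (f x = x ∨ f x = c • x ∨ f x = (-c) • x) := by
  obtain ⟨x0, hx0, hx00⟩ := Submodule.exists_mem_ne_zero_of_ne_bot hX0
  by_cases h1 : f x0 - x0 = 0
  · exact ⟨x0, hx0, hx00, Or.inl (sub_eq_zero.1 h1)⟩
  · set y := f x0 - x0 with hy
    have hyX : y ∈ X := X.sub_mem (hXst hx0) hx0
    have hfy : f (f y) = (c ^ 2) • y := hf x0 hx0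
    by_cases h : f y + c • y = 0
    · exact ⟨y, hyX, h1, Or.inr (Or.inr (by rw [neg_smul]; exact eq_neg_of_add_eq_zero_left h))⟩
    · refine ⟨f y + c • y, X.add_mem (hXst hyX) (X.smul_mem c hyX), h, Or.inr (Or.inl ?_)⟩
      rw [map_add, map_smul, hfy, smul_add, pow_two, mul_smul]
      abel

/-! ### The packaging theorem with the clause at `q` -/

section abs

variable (p : ℕ) [Fact p.Prime] (N : ℕ) (S : Finset ℕ)
  {O : Type} [CommRing O] [IsDomain O] [IsDiscreteValuationRing O]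
  [IsAdicComplete (maximalIdeal O) O] [CharZero O]
  {K : Type} [Field K] [Algebra O K] [IsFractionRing O K]
  {M : Type} [AddCommGroup M] [Module O M] [Module.Free O M] [Module.Finite O M]
  {V : Type} [AddCommGroup V] [Module K V] [Module O V] [IsScalarTower O K V]
  [FiniteDimensional K V]

/-- **The trace of a Frobenius element at `q`**: in the situation of the packaging theorem, if
`(s - 1)² = 0` for all `s` in the inertia group `I_A`, `A` over `q ≠ p`, and `φ² = q²` on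
`(φ - 1) u` for the `I_A`-fixed vectors `u` of `W ⊇ U`, then every `t` with `ρ_Λ(φ)² - t ρ_Λ(φ) + q = 0` on the lattice
`Λ` of `U` is `± (q + 1)`. -/
theorem pkq1_trace_frob
    (ι : M →ₗ[O] V) (hι : IsBaseChange K ι) (hιinj : Function.Injective ι)
    (ρM : GQ →* Module.End O M) (ρV : GQ →* Module.End K V)
    (hc : ∀ σ m, ι (ρM σ m) = ρV σ (ι m))
    (W U : Submodule K V) (hUW : U ≤ W) (hU0 : U ≠ ⊥) (hUst : ∀ σ, U ≤ U.comap (ρV σ))
    {q : ℕ} (hq : q.Prime) (A : ValuationSubring Qbar)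
    (hunip : ∀ s ∈ A.inertiaSubgroupIn ℚ, (ρV s - 1) * (ρV s - 1) = 0)
    (φ : GQ) (hφ : A.IsFrobeniusAt φ q)
    (htoric : ∀ u ∈ W, (∀ s ∈ A.inertiaSubgroupIn ℚ, ρV s u = u) →
      ρV φ (ρV φ (ρV φ u - u)) = ((q : K) ^ 2) • (ρV φ u - u))
    (t : O)
    (ht : pkb_rho ι U ρM ρV hc hUst φ * pkb_rho ι U ρM ρV hc hUst φ
      - t • pkb_rho ι U ρM ρV hc hUst φ + (q : O) • 1 = 0) :
    t = (q : O) + 1 ∨ t = -((q : O) + 1) := by
  classical
  have hinjK : Function.Injective (algebraMap O K) := IsFractionRing.injective O K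
  have : NoZeroSMulDivisors O K := pk_noZeroSMulDivisors hinjK
  have : CharZero K := charZero_of_injective_algebraMap hinjK
  -- a nonzero vector of `U` fixed by the inertia group
  obtain ⟨w, hwU, hw0, hwfix⟩ := pkq_kolchin
    (ρV.comp (A.inertiaSubgroupIn ℚ).subtype) two_ne_zero
    (fun g => hunip g.1 g.2) U hU0 (fun g => hUst g.1)
  -- the subspace of fixed vectors
  let X : Submodule K V :=
    { carrier := {u | u ∈ U ∧ ∀ s ∈ A.inertiaSubgroupIn ℚ, ρV s u = u}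
      add_mem' := fun {x y} hx hy => ⟨U.add_mem hx.1 hy.1, fun s hs => by
        rw [map_add, hx.2 s hs, hy.2 s hs]⟩
      zero_mem' := ⟨U.zero_mem, fun s _ => map_zero _⟩
      smul_mem' := fun c x hx => ⟨U.smul_mem c hx.1, fun s hs => by
        rw [map_smul, hx.2 s hs]⟩ }
  have hX0 : X ≠ ⊥ := by
    intro h
    have h1 : w ∈ X := ⟨hwU, fun s hs => hwfix ⟨s, hs⟩⟩
    rw [h, Submodule.mem_bot] at h1
    exact hw0 h1
  have hXst : X ≤ X.comap (ρV φ) := by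
    intro u hu
    refine ⟨hUst φ hu.1, fun s hs => ?_⟩
    have h1 := hu.2 _ (pkq_conj_mem_inertia A hφ.mem_decompositionSubgroup hs)
    have h2 : s * φ = φ * (φ⁻¹ * s * φ) := by group
    rw [← Module.End.mul_apply, ← map_mul, h2, map_mul, Module.End.mul_apply, h1]
  obtain ⟨x, hxX, hx0, hx⟩ := pkq1_exists_eigen (ρV φ) X hX0 hXst (q : K)
    (fun x hx => htoric x (hUW hx.1) hx.2)
  -- scale the eigenvector into the lattice
  have : IsLocalizedModule (nonZeroDivisors O) ι :=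
    (isLocalizedModule_iff_isBaseChange (nonZeroDivisors O) K ι).2 hι
  obtain ⟨⟨m, c⟩, hmc⟩ := IsLocalizedModule.surj (nonZeroDivisors O) ι x
  have hmc' : ι m = algebraMap O K (c : O) • x := by
    rw [algebraMap_smul]
    exact hmc.symm
  have hcK : algebraMap O K (c : O) ≠ 0 := by
    intro h0
    exact nonZeroDivisors.ne_zero c.2 (hinjK (h0.trans (map_zero _).symm))
  have hmU : m ∈ pkb_lat ι U := by
    rw [pkb_mem_lat, hmc']
    exact U.smul_mem _ hxX.1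
  have hm0 : (⟨m, hmU⟩ : pkb_lat ι U) ≠ 0 := by
    intro h
    have h1 : m = 0 := congrArg Subtype.val h
    rw [h1, map_zero] at hmc'
    rcases smul_eq_zero.1 hmc'.symm with h2 | h2
    · exact hcK h2
    · exact hx0 h2
  have hq0 : (q : O) ≠ 0 := Nat.cast_ne_zero.2 hq.ne_zero
  -- the eigenvalue on the lattice
  have heig : ∀ α : O, ρV φ x = algebraMap O K α • x →
      pkb_rho ι U ρM ρV hc hUst φ ⟨m, hmU⟩ = α • (⟨m, hmU⟩ : pkb_lat ι U) := by
    intro α hα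
    apply Subtype.ext
    apply hιinj
    rw [pkb_rho_coe, hc, Submodule.coe_smul, map_smul, hmc', map_smul, hα, smul_comm,
      algebraMap_smul]
  rcases hx with hx | hx | hx
  · left
    have h1 := heig (1 : O) (by rw [map_one, one_smul]; exact hx)
    have h2 := pkq_rel_of_eigen _ t (q : O) (1 : O) ht _ hm0 h1
    have h3 : (q : O) + 1 - t = 0 := by rw [← h2]; ring
    exact (sub_eq_zero.1 h3).symm
  · left
    have h1 := heig (q : O) (by rw [map_natCast]; exact hx)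
    exact (pkq_trace_eq hq0).1 (pkq_rel_of_eigen _ t (q : O) (q : O) ht _ hm0 h1)
  · right
    have h1 := heig (-(q : O)) (by rw [map_neg, map_natCast]; exact hx)
    exact (pkq_trace_eq hq0).2 (pkq_rel_of_eigen _ t (q : O) (-(q : O)) ht _ hm0 h1)


/-- **The packaging theorem with the clause at `q`, abstract form.** -/
theorem pkq1_core_abs (hpS : p ∈ S) (hNS : ∀ q : ℕ, q.Prime → q ∣ N → q ∈ S)
    (hp : (p : O) ∈ maximalIdeal O)
    (ι : M →ₗ[O] V) (hι : IsBaseChange K ι) (hιinj : Function.Injective ι)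
    (hrat : ∀ U : Submodule K V, U ≤ Submodule.span K (ι '' (pkb_lat ι U : Set M)))
    (ρM : GQ →* Module.End O M) (ρV : GQ →* Module.End K V)
    (hc : ∀ σ m, ι (ρM σ m) = ρV σ (ι m))
    (contM : GaloisActionIsAdicContinuous O ρM)
    (unramM : ∀ q : ℕ, q.Prime → ¬ q ∣ N → q ≠ p → ∀ P : ValuationSubring Qbar,
      P.LiesOverPrime q → ∀ σ ∈ P.inertiaSubgroupIn ℚ, ρM σ = 1)
    (a : ℕ → O) (W : Submodule K V) (hW0 : W ≠ ⊥) (hWst : ∀ σ, W ≤ W.comap (ρV σ))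
    (hfrobW : ∀ ℓ : ℕ, pk_Good N S ℓ → ∀ A : ValuationSubring Qbar, A.LiesOverPrime ℓ →
      ∀ φ : GQ, A.IsFrobeniusAt φ ℓ → ∀ u ∈ W,
        ρV φ (ρV φ u) - algebraMap O K (a ℓ) • ρV φ u + (ℓ : K) • u = 0)
    (Qs : Set ℕ) (hQs : ∀ q ∈ Qs, q.Prime ∧ q ≠ p)
    (hunip : ∀ q ∈ Qs, ∀ A : ValuationSubring Qbar, A.LiesOverPrime q →
      ∀ s ∈ A.inertiaSubgroupIn ℚ, (ρV s - 1) * (ρV s - 1) = 0)
    (htoric : ∀ q ∈ Qs, ∀ A : ValuationSubring Qbar, A.LiesOverPrime q →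
      ∀ φ : GQ, A.IsFrobeniusAt φ q → ∀ u ∈ W, (∀ s ∈ A.inertiaSubgroupIn ℚ, ρV s u = u) →
        ρV φ (ρV φ (ρV φ u - u)) = ((q : K) ^ 2) • (ρV φ u - u)) :
    ∃ ρ' : GaloisRepAdic O,
      (∀ ℓ : ℕ, pk_Good N S ℓ → ∀ A : ValuationSubring Qbar, A.LiesOverPrime ℓ →
        ∀ φ : GQ, A.IsFrobeniusAt φ ℓ →
          LinearMap.charpoly (ρ'.ρ φ) = X ^ 2 - C (a ℓ) * X + C ((ℓ : O))) ∧
      (∀ q : ℕ, q.Prime → ¬ q ∣ N → q ≠ p → ρ'.IsUnramifiedAt q) ∧
      (∀ q ∈ Qs, ∀ A : ValuationSubring Qbar, A.LiesOverPrime q →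
        ∀ φ : GQ, A.IsFrobeniusAt φ q →
          LinearMap.charpoly (ρ'.ρ φ) = X ^ 2 - C ((q : O) + 1) * X + C ((q : O)) ∨
          LinearMap.charpoly (ρ'.ρ φ) = X ^ 2 + C ((q : O) + 1) * X + C ((q : O))) := by
  classical
  have hinjK : Function.Injective (algebraMap O K) := IsFractionRing.injective O K
  have : NoZeroSMulDivisors O K := pk_noZeroSMulDivisors hinjK
  have : CharZero K := charZero_of_injective_algebraMap hinjK
  obtain ⟨U, hUW, hU0, hUst, hmin⟩ := pk_exists_minimal_le ρV W hW0 hWst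
  have hUrat := hrat U
  -- the lattice
  have contΛ : GaloisActionIsAdicContinuous O (pkb_rho ι U ρM ρV hc hUst) :=
    pkb_adicContinuous ι U ρM ρV hc hUst contM
  have hrank : Module.finrank O (pkb_lat ι U) = Module.finrank K U := pkb_finrank ι U hι hUrat
  have hUpos : 0 < Module.finrank K U := by
    rw [Module.finrank_pos_iff, Submodule.nontrivial_iff_ne_bot]
    exact hU0
  have hΛnt : Nontrivial (pkb_lat ι U) := by
    apply Module.nontrivial_of_finrank_pos (R := O)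
    rw [hrank]
    exact hUpos
  -- the Frobenius relation on the lattice
  have hfrobΛ : ∀ ℓ : ℕ, pk_Good N S ℓ → ∀ A : ValuationSubring Qbar, A.LiesOverPrime ℓ →
      ∀ φ : GQ, A.IsFrobeniusAt φ ℓ →
        pkb_rho ι U ρM ρV hc hUst φ * pkb_rho ι U ρM ρV hc hUst φ
          - a ℓ • pkb_rho ι U ρM ρV hc hUst φ + (ℓ : O) • 1 = 0 := by
    intro ℓ hℓ A hA φ hφ
    ext x
    apply hιinj
    have hx : ι (x : M) ∈ W := hUW x.2
    have h1 := hfrobW ℓ hℓ A hA φ hφ _ hx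
    simp only [LinearMap.add_apply, LinearMap.sub_apply, Module.End.mul_apply,
      LinearMap.smul_apply, Module.End.one_apply, LinearMap.zero_apply, Submodule.coe_add,
      Submodule.coe_sub, Submodule.coe_smul, pkb_rho_coe, Submodule.coe_zero, map_add, map_sub,
      map_smul, hc, map_zero]
    rw [← h1, algebraMap_smul, Nat.cast_smul_eq_nsmul, Nat.cast_smul_eq_nsmul]
  -- the relation for all σ
  have hgood : ∀ ℓ : ℕ, ℓ.Prime → ℓ ∉ S → pk_Good N S ℓ := fun ℓ hℓ hℓS =>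
    ⟨hℓ, fun hdvd => hℓS (hNS ℓ hℓ hdvd), fun h => hℓS (Finset.mem_coe.1 h)⟩
  have hrel := gcl_good_cyclo p hp (pkb_rho ι U ρM ρV hc hUst) contΛ S hpS
    (fun ℓ hℓ hℓS A hA φ hφ => ⟨a ℓ, hfrobΛ ℓ (hgood ℓ hℓ hℓS) A hA φ hφ⟩)
  choose t ht using hrel
  -- oddness: rank 1 or rank 2 with the right characteristic polynomials
  have hfr : Module.finrank K (K ⊗[O] (pkb_lat ι U)) = Module.finrank O (pkb_lat ι U) :=
    Module.finrank_baseChange
  have : Nontrivial (K ⊗[O] (pkb_lat ι U)) := by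
    apply Module.nontrivial_of_finrank_pos (R := K)
    rw [hfr, hrank]
    exact hUpos
  set ε' : GQ →* Kˣ :=
    (Units.map (algebraMap O K : O →* K)).comp (cya_eps p O hp).toHomUnits with hε'
  have hε'coe : ∀ g, ((ε' g : Kˣ) : K) = algebraMap O K (cya_eps p O hp g) := fun g => rfl
  have hodd := pko_main (K := K) (U := K ⊗[O] (pkb_lat ι U))
    (ρ := pk_bc K (pkb_rho ι U ρM ρV hc hUst)) (ε := ε') (t := fun g => algebraMap O K (t g))
    two_ne_zero
    (fun W hW => pkb_irreducible ι U ρM ρV hc hUst hι hUrat hmin W hW)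
    (fun g => by
      rw [hε'coe]
      exact pk_bc_relation K (pkb_rho ι U ρM ρV hc hUst) g (ht g))
    (c := complexConjugation) complexConjugation_mul_self
    (by rw [hε'coe, cya_eps_complexConjugation, map_neg, map_one])
  have hℓp : ∀ ℓ : ℕ, pk_Good N S ℓ → ℓ ≠ p := by
    rintro ℓ hℓ rfl
    exact hℓ.2.2 (Finset.mem_coe.2 hpS)
  -- the relation at Frobenius elements, with `ε φ` in place of `ℓ`
  have hfrobΛ' : ∀ ℓ : ℕ, pk_Good N S ℓ → ∀ A : ValuationSubring Qbar, A.LiesOverPrime ℓ →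
      ∀ φ : GQ, A.IsFrobeniusAt φ ℓ →
        pkb_rho ι U ρM ρV hc hUst φ * pkb_rho ι U ρM ρV hc hUst φ
          - a ℓ • pkb_rho ι U ρM ρV hc hUst φ + cya_eps p O hp φ • 1 = 0 := by
    intro ℓ hℓ A hA φ hφ
    rw [cya_eps_frob p O hp hℓ.1 (hℓp ℓ hℓ) A hA φ hφ]
    exact hfrobΛ ℓ hℓ A hA φ hφ
  -- the traces at the good primes
  have htgood : ∀ ℓ : ℕ, pk_Good N S ℓ → ∀ A : ValuationSubring Qbar, A.LiesOverPrime ℓ →
      ∀ φ : GQ, A.IsFrobeniusAt φ ℓ → t φ = a ℓ := by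
    intro ℓ hℓ A hA φ hφ
    exact sub_eq_zero.1 (pk_eq_of_smul_one (Λ := pkb_lat ι U)
      (pkc_sub_smul_one_eq_zero (pkb_rho ι U ρM ρV hc hUst) φ (ht φ) (hfrobΛ' ℓ hℓ A hA φ hφ)))
  -- the traces at the primes of `Qs`
  have htq : ∀ q ∈ Qs, ∀ A : ValuationSubring Qbar, A.LiesOverPrime q →
      ∀ φ : GQ, A.IsFrobeniusAt φ q → t φ = (q : O) + 1 ∨ t φ = -((q : O) + 1) := by
    intro q hq A hA φ hφ
    obtain ⟨hqprime, hqp⟩ := hQs q hq
    refine pkq1_trace_frob ι hι hιinj ρM ρV hc W U hUW hU0 hUst hqprime A (hunip q hq A hA) φ hφ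
      (htoric q hq A hA φ hφ) (t φ) ?_
    rw [← cya_eps_frob p O hp hqprime hqp A hA φ hφ]
    exact ht φ
  -- the conclusion from a representation with `charpoly ρ'(σ) = X² - t(σ) X + ε(σ)`
  suffices H : ∃ ρ' : GaloisRepAdic O,
      (∀ σ : GQ, LinearMap.charpoly (ρ'.ρ σ) = X ^ 2 - C (t σ) * X + C (cya_eps p O hp σ)) ∧
      (∀ q : ℕ, q.Prime → ¬ q ∣ N → q ≠ p → ρ'.IsUnramifiedAt q) by
    obtain ⟨ρ', hchar, hunr⟩ := H
    refine ⟨ρ', fun ℓ hℓ A hA φ hφ => ?_, hunr, fun q hq A hA φ hφ => ?_⟩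
    · rw [hchar φ, htgood ℓ hℓ A hA φ hφ, cya_eps_frob p O hp hℓ.1 (hℓp ℓ hℓ) A hA φ hφ]
    · obtain ⟨hqprime, hqp⟩ := hQs q hq
      rcases htq q hq A hA φ hφ with h | h
      · left
        rw [hchar φ, h, cya_eps_frob p O hp hqprime hqp A hA φ hφ]
      · right
        rw [hchar φ, h, cya_eps_frob p O hp hqprime hqp A hA φ hφ, map_neg, neg_mul,
          sub_neg_eq_add]
  rcases hodd with h1 | ⟨h2, hchar⟩
  · -- rank one
    rw [hfr] at h1
    obtain ⟨ρ', hρ'char, hρ'unr⟩ := pkr_rankOne_main h1 (pkb_rho ι U ρM ρV hc hUst) contΛ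
      (cya_eps p O hp) (fun n => cya_eps_continuous p O hp n)
    refine ⟨ρ', fun σ => hρ'char σ (t σ) (ht σ), fun q hq hqN hqp => ?_⟩
    exact hρ'unr q fun P hP σ hσ =>
      ⟨pkb_rho_eq_one ι U ρM ρV hc hUst (unramM q hq hqN hqp P hP σ hσ),
        cya_eps_inertia p O hp hq hqp P hP hσ⟩
  · -- rank two
    rw [hfr] at h2
    have hcharΛ : ∀ g : GQ, LinearMap.charpoly (pkb_rho ι U ρM ρV hc hUst g) =
        X ^ 2 - C (t g) * X + C (cya_eps p O hp g) := by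
      intro g
      apply Polynomial.map_injective (algebraMap O K) hinjK
      rw [← LinearMap.charpoly_baseChange (A := K), ← pk_bc_apply, hchar g, hε'coe]
      simp only [Polynomial.map_add, Polynomial.map_sub, Polynomial.map_mul, Polynomial.map_pow,
        Polynomial.map_X, Polynomial.map_C]
    refine ⟨{ V := pkb_lat ι U
              finrank_eq := h2
              ρ := pkb_rho ι U ρM ρV hc hUst
              isAdicContinuous := contΛ }, fun σ => hcharΛ σ, fun q hq hqN hqp => ?_⟩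
    intro P hP σ hσ
    exact pkb_rho_eq_one ι U ρM ρV hc hUst (unramM q hq hqN hqp P hP σ hσ)

end abs


/-! ### The tensor form -/

section core

variable (p : ℕ) [Fact p.Prime] (N : ℕ) (S : Finset ℕ)
  {Tp : Type} [AddCommGroup Tp] [Module ℤ_[p] Tp] [Module.Free ℤ_[p] Tp] [Module.Finite ℤ_[p] Tp]
  (ρ : GQ →* Module.End ℤ_[p] Tp) (Tl : ℕ → Module.End ℤ_[p] Tp)
  (O : Type) [CommRing O] [IsDomain O] [IsDiscreteValuationRing O]
  [IsAdicComplete (maximalIdeal O) O] [CharZero O] [Algebra ℤ_[p] O]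
  (K : Type) [Field K] [Algebra O K] [IsFractionRing O K] [Algebra ℤ_[p] K]
  [IsScalarTower ℤ_[p] O K]

/-- **The packaging theorem with the clause at `q`, eigenvector form.** -/
theorem pkq1_core (hpS : p ∈ S) (hNS : ∀ q : ℕ, q.Prime → q ∣ N → q ∈ S)
    (cont : GaloisActionIsAdicContinuous ℤ_[p] ρ)
    (unram : ∀ q : ℕ, q.Prime → ¬ q ∣ N → q ≠ p → ∀ P : ValuationSubring Qbar,
      P.LiesOverPrime q → ∀ σ ∈ P.inertiaSubgroupIn ℚ, ρ σ = 1)
    (Tl_ρ : ∀ (ℓ : ℕ) (σ : GQ), Commute (Tl ℓ) (ρ σ))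
    (frob : ∀ ℓ : ℕ, pk_Good N S ℓ → ∀ A : ValuationSubring Qbar, A.LiesOverPrime ℓ →
      ∀ φ : GQ, A.IsFrobeniusAt φ ℓ → ρ φ * ρ φ - Tl ℓ * ρ φ + (ℓ : ℤ_[p]) • 1 = 0)
    (hp : (p : O) ∈ maximalIdeal O) (a : ℕ → O)
    (hev : ∃ v : K ⊗[ℤ_[p]] Tp, v ≠ 0 ∧
      ∀ ℓ, pk_Good N S ℓ → (Tl ℓ).baseChange K v = algebraMap O K (a ℓ) • v)
    (Qs : Set ℕ) (hQs : ∀ q ∈ Qs, q.Prime ∧ q ≠ p)
    (hunip : ∀ q ∈ Qs, ∀ A : ValuationSubring Qbar, A.LiesOverPrime q →
      ∀ s ∈ A.inertiaSubgroupIn ℚ, (ρ s - 1) * (ρ s - 1) = 0)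
    (htoric : ∀ q ∈ Qs, ∀ A : ValuationSubring Qbar, A.LiesOverPrime q →
      ∀ φ : GQ, A.IsFrobeniusAt φ q → ∀ u ∈ pk_eigenspace p N S Tl O K a,
        (∀ s ∈ A.inertiaSubgroupIn ℚ, (ρ s).baseChange K u = u) →
          (ρ φ).baseChange K ((ρ φ).baseChange K ((ρ φ).baseChange K u - u)) =
            ((q : K) ^ 2) • ((ρ φ).baseChange K u - u)) :
    ∃ ρ' : GaloisRepAdic O,
      (∀ ℓ : ℕ, pk_Good N S ℓ → ∀ A : ValuationSubring Qbar, A.LiesOverPrime ℓ →
        ∀ φ : GQ, A.IsFrobeniusAt φ ℓ →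
          LinearMap.charpoly (ρ'.ρ φ) = X ^ 2 - C (a ℓ) * X + C ((ℓ : O))) ∧
      (∀ q : ℕ, q.Prime → ¬ q ∣ N → q ≠ p → ρ'.IsUnramifiedAt q) ∧
      (∀ q ∈ Qs, ∀ A : ValuationSubring Qbar, A.LiesOverPrime q →
        ∀ φ : GQ, A.IsFrobeniusAt φ q →
          LinearMap.charpoly (ρ'.ρ φ) = X ^ 2 - C ((q : O) + 1) * X + C ((q : O)) ∨
          LinearMap.charpoly (ρ'.ρ φ) = X ^ 2 + C ((q : O) + 1) * X + C ((q : O))) := by
  have hinjK : Function.Injective (algebraMap O K) := IsFractionRing.injective O K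
  have : IsLocalHom (algebraMap ℤ_[p] O) := pk_isLocalHom_padic p hp _
  have hW0 : pk_eigenspace p N S Tl O K a ≠ ⊥ := by
    obtain ⟨v, hv0, hv⟩ := hev
    intro h
    apply hv0
    have : v ∈ pk_eigenspace p N S Tl O K a := hv
    rw [h, Submodule.mem_bot] at this
    exact this
  refine pkq1_core_abs p N S hpS hNS hp (pkb_iota ℤ_[p] O K Tp)
    (pkb_iota_isBaseChange ℤ_[p] O K Tp) (pk_iota_injective ℤ_[p] O K Tp hinjK)
    (pk_le_span_lat ℤ_[p] O K Tp) (pk_bc O ρ) (pk_bc K ρ)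
    (fun σ m => pkb_iota_baseChange ℤ_[p] O K Tp (ρ σ) m)
    (pk_adicContinuous_bc ρ cont) ?_ a (pk_eigenspace p N S Tl O K a) hW0
    (pk_eigenspace_stable p N S ρ Tl O K Tl_ρ a) ?_ Qs hQs ?_ ?_
  · intro q hq hqN hqp P hP σ hσ
    rw [pk_bc_apply, unram q hq hqN hqp P hP σ hσ, LinearMap.baseChange_one]
  · intro ℓ hℓ A hA φ hφ u hu
    exact pk_frob_eigenspace p N S ρ Tl O K a hℓ φ Tl_ρ (frob ℓ hℓ A hA φ hφ) u hu
  · intro q hq A hA s hs
    have h1 := congrArg (LinearMap.baseChange K) (hunip q hq A hA s hs)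
    rw [LinearMap.baseChange_mul, LinearMap.baseChange_sub, LinearMap.baseChange_one,
      LinearMap.baseChange_zero] at h1
    exact h1
  · intro q hq A hA φ hφ u hu hfix
    exact htoric q hq A hA φ hφ u hu hfix

end core


/-! ### The shape of S35 -/

section final

variable {p : ℕ} [Fact p.Prime] {N : ℕ} [NeZero N] {S : Finset ℕ}

/-- **S35 for a character `χ` of the Hecke algebra, from the Tate package**, the unipotency of the
inertia groups at the primes `q ‖ N`, `q ≠ p` (S34), and the toric clause: on the vectors of the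
`χ`-eigenspace of `K ⊗ Tp` which are fixed by the inertia group `I_A`, `A` over `q`, the square of
a Frobenius element at `A` is `q²`.  (`𝒪'' := 𝒪'`.) -/
theorem pkq1_S35_of_tate (D : pk_Tate p N S) (hpS : p ∈ S)
    (hNS : ∀ q : ℕ, q.Prime → q ∣ N → q ∈ S)
    (O : Type) [CommRing O] [IsDomain O] [IsDiscreteValuationRing O]
    [IsAdicComplete (maximalIdeal O) O] [Finite (ResidueField O)] [CharZero O]
    [Algebra ℤ_[p] O] (hp : (p : O) ∈ maximalIdeal O)
    (χ : CuspForm.heckeAlgebra N 2 (↑S : Set ℕ) →+* O)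
    (χ₀ : ↥(Algebra.adjoin ℤ_[p] (pk_heckeSet N S D.Tl)) →ₐ[ℤ_[p]] O)
    (hχ₀ : ∀ (ℓ : ℕ) (hℓ : ℓ.Prime) (hℓN : ¬ ℓ ∣ N) (hℓS : ℓ ∉ (↑S : Set ℕ)),
      χ₀ ⟨D.Tl ℓ, pk_mem_heckeSet D.Tl hℓ hℓN hℓS⟩ = χ (CuspForm.heckeAlgebra.T hℓ hℓN hℓS))
    (hunip : ∀ q : ℕ, q.Prime → q ≠ p → q ∣ N → ¬ q ^ 2 ∣ N →
      ∀ A : ValuationSubring Qbar, A.LiesOverPrime q →
        ∀ s ∈ A.inertiaSubgroupIn ℚ, (D.ρ s - 1) * (D.ρ s - 1) = 0)
    (htoric : ∀ q : ℕ, q.Prime → q ≠ p → q ∣ N → ¬ q ^ 2 ∣ N →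
      ∀ A : ValuationSubring Qbar, A.LiesOverPrime q → ∀ φ : GQ, A.IsFrobeniusAt φ q →
        ∀ u : FractionRing O ⊗[ℤ_[p]] D.Tp,
          (∀ (ℓ : ℕ) (hℓ : ℓ.Prime) (hℓN : ¬ ℓ ∣ N) (hℓS : ℓ ∉ (↑S : Set ℕ)),
            (D.Tl ℓ).baseChange (FractionRing O) u =
              algebraMap O (FractionRing O) (χ (CuspForm.heckeAlgebra.T hℓ hℓN hℓS)) • u) →
          (∀ s ∈ A.inertiaSubgroupIn ℚ, (D.ρ s).baseChange (FractionRing O) u = u) →
            (D.ρ φ).baseChange (FractionRing O) ((D.ρ φ).baseChange (FractionRing O)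
                ((D.ρ φ).baseChange (FractionRing O) u - u)) =
              ((q : FractionRing O) ^ 2) • ((D.ρ φ).baseChange (FractionRing O) u - u)) :
    ∃ (O'' : Type) (_ : CommRing O'') (_ : IsDomain O'') (_ : IsDiscreteValuationRing O'')
      (_ : IsAdicComplete (maximalIdeal O'') O'') (_ : Finite (ResidueField O''))
      (_ : CharZero O'') (_ : Algebra O O'') (_ : Module.Finite O O'')
      (_ : IsLocalHom (algebraMap O O'')),
      Function.Injective (algebraMap O O'') ∧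
      ∃ ρ : GaloisRepAdic O'',
        (∀ (ℓ : ℕ) (hℓ : ℓ.Prime) (hℓN : ¬ ℓ ∣ N) (hℓS : ℓ ∉ (↑S : Set ℕ)),
          ∀ A : ValuationSubring Qbar, A.LiesOverPrime ℓ →
            ∀ σ : GQ, A.IsFrobeniusAt σ ℓ →
              LinearMap.charpoly (ρ.ρ σ) =
                X ^ 2 - C (algebraMap O O'' (χ (CuspForm.heckeAlgebra.T hℓ hℓN hℓS))) * X
                  + C ((ℓ : O''))) ∧
        (∀ q : ℕ, q.Prime → q ≠ p → q ∣ N → ¬ q ^ 2 ∣ N →
          ∀ A : ValuationSubring Qbar, A.LiesOverPrime q →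
            ∀ σ : GQ, A.IsFrobeniusAt σ q →
              LinearMap.charpoly (ρ.ρ σ) = X ^ 2 - C ((q : O'') + 1) * X + C ((q : O'')) ∨
              LinearMap.charpoly (ρ.ρ σ) = X ^ 2 + C ((q : O'') + 1) * X + C ((q : O''))) := by
  classical
  have hinjO : Function.Injective (algebraMap ℤ_[p] O) := pk_padic_injective p (algebraMap ℤ_[p] O)
  have hinj : Function.Injective (algebraMap ℤ_[p] (FractionRing O)) := by
    rw [IsScalarTower.algebraMap_eq ℤ_[p] O (FractionRing O)]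
    exact (IsFractionRing.injective O (FractionRing O)).comp hinjO
  have : FaithfulSMul ℤ_[p] (FractionRing O) :=
    (faithfulSMul_iff_algebraMap_injective _ _).2 hinj
  obtain ⟨v, hv0, hv⟩ := pk_eigen_tensor (Algebra.adjoin ℤ_[p] (pk_heckeSet N S D.Tl))
    (pk_hecke_comm D) ((IsScalarTower.toAlgHom ℤ_[p] O (FractionRing O)).comp χ₀)
  let a : ℕ → O := fun ℓ =>
    if h : pk_Good N S ℓ then χ (CuspForm.heckeAlgebra.T h.1 h.2.1 h.2.2) else 0
  have ha : ∀ (ℓ : ℕ) (h : pk_Good N S ℓ), a ℓ = χ (CuspForm.heckeAlgebra.T h.1 h.2.1 h.2.2) :=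
    fun ℓ h => by simp only [a, dif_pos h]
  obtain ⟨ρ', h1, -, h3⟩ := pkq1_core p N S D.ρ D.Tl O (FractionRing O) hpS hNS D.cont D.unram
    D.Tl_ρ D.frob hp a ⟨v, hv0, fun ℓ hℓ => by
      have := hv ⟨D.Tl ℓ, pk_mem_heckeSet D.Tl hℓ.1 hℓ.2.1 hℓ.2.2⟩
      rw [this, ha ℓ hℓ]
      congr 1
      change algebraMap O (FractionRing O) (χ₀ _) = _
      rw [hχ₀ ℓ hℓ.1 hℓ.2.1 hℓ.2.2]⟩
    {q | q.Prime ∧ q ≠ p ∧ q ∣ N ∧ ¬ q ^ 2 ∣ N} (fun q hq => ⟨hq.1, hq.2.1⟩)
    (fun q hq A hA s hs => hunip q hq.1 hq.2.1 hq.2.2.1 hq.2.2.2 A hA s hs)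
    (fun q hq A hA φ hφ u hu hfix =>
      htoric q hq.1 hq.2.1 hq.2.2.1 hq.2.2.2 A hA φ hφ u
        (fun ℓ hℓ hℓN hℓS => by
          have h4 := hu ℓ ⟨hℓ, hℓN, hℓS⟩
          rw [ha ℓ ⟨hℓ, hℓN, hℓS⟩] at h4
          exact h4) hfix)
  refine ⟨O, inferInstance, inferInstance, inferInstance, inferInstance, inferInstance,
    inferInstance, Algebra.id O, inferInstance, inferInstance, Function.injective_id, ρ', ?_, ?_⟩
  · intro ℓ hℓ hℓN hℓS A hA σ hσ
    have hgood : pk_Good N S ℓ := ⟨hℓ, hℓN, hℓS⟩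
    rw [h1 ℓ hgood A hA σ hσ, ha ℓ hgood]
    simp only [Algebra.algebraMap_self, RingHom.id_apply]
  · intro q hq hqp hqN hq2 A hA σ hσ
    exact h3 q ⟨hq, hqp, hqN, hq2⟩ A hA σ hσ

end final

end Fermat.Agent.S35
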