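/-
Project S35, the PRIMED top chain (variant with the factor `(φ - 1)`, helper4's #2242): the frozen
statement of S35 from node E, S18, the geometric seam of S34 (`ss_Geom`) and the PRIMED form of
[TOR-T], on top of helper4's primed end-game `pkq1_S35_of_tate` (S35/PackQ1.lean).

* `s35v_FrobSq'`        : the primed seam [FROBSQ'] for `J₀(M)`: every `χ_g`-eigenvector `u` of
                          `Frac(O') ⊗ T_λ J₀(M)` fixed by an inertia group `I_A`, `A | q`, `q ‖ M`,
                          `q ≠ λ`, satisfies `φ² v = q² v` for `v := φ u - u` and every Frobenius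
                          element `φ` at `A`;
* `s35v_result_of`      : S35 verbatim from `tjp_NodeE`, `tjp_S18`, `ss_Geom` and `s35v_FrobSq'`;
* `s35v_plumb`          : [PLUMB'] (Mathlib only in content): if `Φ (Φ (Φ x - x)) = c • (Φ x - x)`
                          for every `x : T` fixed by `Fix` and killed by `P1`, `P2`, then the same
                          holds for every `u : K ⊗[R] T` fixed by the base changes of `Fix` and
                          killed by the base changes of `P1`, `P2`;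
* `s35v_TorT'`          : the primed [TOR-T'] at every level `N q` (`q ∤ N`): for
                          `x : T_λ J₀(N q)` fixed by `I_A` and killed by `s35p_P1`, `s35p_P2`,
                          `y := φ x - x` satisfies `φ² y = q² y`;
* `s35v_frobSq'_of_torT'` : `s35v_TorT' → s35v_FrobSq'`;
* `s35v_result_of_torT'`  : S35 verbatim from `tjp_NodeE`, `tjp_S18`, `ss_Geom` and `s35v_TorT'`;
* `s35v_torT'_of_torT`    : `s35t_TorT → s35v_TorT'` (the unprimed statement implies the primed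
                          one: `φ x - x` is again fixed by `I_A` and killed by `P1`, `P2`).
Prefix `s35v_`.  Owner: helper28.
-/
import Mathlib
import Fermat.Agent.S35.PackQ1
import Fermat.Agent.S35.ResultOfTorT

set_option autoImplicit false
set_option linter.unusedSectionVars false
set_option linter.style.haveILetI false
set_option linter.overlappingInstances false

noncomputable section

namespace Fermat.Agent.S35

open IsLocalRing TensorProduct Polynomial Fermat.Agent.JT3 Fermat.Agent.SS ModularCurve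
open CuspForm CuspForm.IsNewform

local notation "GQ" => (AlgebraicClosure ℚ ≃ₐ[ℚ] AlgebraicClosure ℚ)
local notation "Qbar" => AlgebraicClosure ℚ

/-- **The primed seam [FROBSQ'] for `J₀(M)`.** -/
def s35v_FrobSq' : Prop :=
  ∀ {M : ℕ} [NeZero M] {g : CuspForm (CongruenceSubgroup.Gamma0 M) 2} (_ : g.IsNewform)
    (lam : ℕ) [Fact lam.Prime] (S : Finset ℕ)
    (O' : Type) [CommRing O'] [IsDomain O'] [IsDiscreteValuationRing O']
    [IsAdicComplete (IsLocalRing.maximalIdeal O') O'] [Finite (IsLocalRing.ResidueField O')]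
    [CharZero O'] (hlamO' : (lam : O') ∈ IsLocalRing.maximalIdeal O')
    (chig : CuspForm.heckeAlgebra M 2 (↑S : Set ℕ) →+* ℂ)
    (_ : ∀ (ℓ : ℕ) (hℓ : ℓ.Prime) (hℓM : ¬ ℓ ∣ M) (hℓS : ℓ ∉ (↑S : Set ℕ)),
      chig (CuspForm.heckeAlgebra.T hℓ hℓM hℓS) = ModularFormClass.qCoeff g ℓ)
    (iota : chig.range →+* O')
    (_ : lam ∈ S) (_ : ∀ q : ℕ, q.Prime → q ∣ M → q ∈ S),
    letI : Algebra ℤ_[lam] O' := (cya_padicHom lam O' hlamO').toAlgebra
    ∀ q : ℕ, q.Prime → q ≠ lam → q ∣ M → ¬ q ^ 2 ∣ M →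
      ∀ A : ValuationSubring Qbar, A.LiesOverPrime q → ∀ φ : GQ, A.IsFrobeniusAt φ q →
        ∀ u : FractionRing O' ⊗[ℤ_[lam]] tj_T M lam,
          (∀ (ℓ : ℕ) (hℓ : ℓ.Prime) (hℓM : ¬ ℓ ∣ M) (hℓS : ℓ ∉ (↑S : Set ℕ)),
            (tjp_Tl M lam S ℓ).baseChange (FractionRing O') u =
              algebraMap O' (FractionRing O')
                ((iota.comp chig.rangeRestrict) (CuspForm.heckeAlgebra.T hℓ hℓM hℓS)) • u) →
          (∀ s ∈ A.inertiaSubgroupIn ℚ, (tj_rho M lam s).baseChange (FractionRing O') u = u) →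
            (tj_rho M lam φ).baseChange (FractionRing O')
                ((tj_rho M lam φ).baseChange (FractionRing O')
                  ((tj_rho M lam φ).baseChange (FractionRing O') u - u)) =
              ((q : FractionRing O') ^ 2) • ((tj_rho M lam φ).baseChange (FractionRing O') u - u)

/-- **S35 from node E, S18, the geometric seam of S34 and the primed seam [FROBSQ']** (the frozen
statement verbatim). -/
theorem s35v_result_of (hE : tjp_NodeE) (hS18 : tjp_S18)
    (hG : ∀ (N : ℕ) [NeZero N] (q : ℕ), q.Prime → q ∣ N → ¬ q ^ 2 ∣ N → ss_Geom N q)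
    (hF : s35v_FrobSq')
    {M : ℕ} [NeZero M] {g : CuspForm (CongruenceSubgroup.Gamma0 M) 2} (hg : g.IsNewform)
    (lam : ℕ) [Fact lam.Prime]
    (S : Finset ℕ)
    (O' : Type) [CommRing O'] [IsDomain O'] [IsDiscreteValuationRing O']
    [IsAdicComplete (IsLocalRing.maximalIdeal O') O'] [Finite (IsLocalRing.ResidueField O')]
    [CharZero O'] (hlamO' : (lam : O') ∈ IsLocalRing.maximalIdeal O')
    (chig : CuspForm.heckeAlgebra M 2 (↑S : Set ℕ) →+* ℂ)
    (hchig : ∀ (ℓ : ℕ) (hℓ : ℓ.Prime) (hℓM : ¬ ℓ ∣ M) (hℓS : ℓ ∉ (↑S : Set ℕ)),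
      chig (CuspForm.heckeAlgebra.T hℓ hℓM hℓS) = ModularFormClass.qCoeff g ℓ)
    (iota : chig.range →+* O')
    (hlamS : lam ∈ S) (hMS : ∀ q : ℕ, q.Prime → q ∣ M → q ∈ S)
    :
    ∃ (O'' : Type) (_ : CommRing O'') (_ : IsDomain O'') (_ : IsDiscreteValuationRing O'')
      (_ : IsAdicComplete (IsLocalRing.maximalIdeal O'') O'') (_ : Finite (IsLocalRing.ResidueField O''))
      (_ : CharZero O'') (_ : Algebra O' O'') (_ : Module.Finite O' O'') (_ : IsLocalHom (algebraMap O' O'')),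
      Function.Injective (algebraMap O' O'') ∧
      ∃ ρ : GaloisRepAdic O'',
        (∀ (ℓ : ℕ) (hℓ : ℓ.Prime) (hℓM : ¬ ℓ ∣ M) (hℓS : ℓ ∉ (↑S : Set ℕ)),
          ∀ A : ValuationSubring (AlgebraicClosure ℚ), A.LiesOverPrime ℓ →
            ∀ σ : AlgebraicClosure ℚ ≃ₐ[ℚ] AlgebraicClosure ℚ, A.IsFrobeniusAt σ ℓ →
              LinearMap.charpoly (ρ.ρ σ) =
                X ^ 2 - C (algebraMap O' O'' ((iota.comp chig.rangeRestrict) (CuspForm.heckeAlgebra.T hℓ hℓM hℓS))) * X
                  + C ((ℓ : O''))) ∧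
        (∀ q : ℕ, q.Prime → q ≠ lam → q ∣ M → ¬ q ^ 2 ∣ M →
          ∀ A : ValuationSubring (AlgebraicClosure ℚ), A.LiesOverPrime q →
            ∀ σ : AlgebraicClosure ℚ ≃ₐ[ℚ] AlgebraicClosure ℚ, A.IsFrobeniusAt σ q →
              LinearMap.charpoly (ρ.ρ σ) = X ^ 2 - C ((q : O'') + 1) * X + C ((q : O'')) ∨
              LinearMap.charpoly (ρ.ρ σ) = X ^ 2 + C ((q : O'') + 1) * X + C ((q : O''))) := by
  letI : Algebra ℤ_[lam] O' := (cya_padicHom lam O' hlamO').toAlgebra
  obtain ⟨χ₀, hχ₀⟩ := tjp_eigen_gen M lam S (iota.comp chig.rangeRestrict)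
  exact pkq1_S35_of_tate (tjp_tate M lam S hlamS (hE M) (hS18 M)) hlamS hMS O' hlamO'
    (iota.comp chig.rangeRestrict) χ₀ hχ₀
    (fun q hq hqp hqM hq2 A hA s hs =>
      sst_tate_unip M lam q hq hqp (hG M q hq hqM hq2) A hA s hs)
    (hF hg lam S O' hlamO' chig hchig iota hlamS hMS)

/-! ### [PLUMB'] -/

section plumb

variable {R : Type*} [CommRing R] [IsDomain R] [IsPrincipalIdealRing R]
  {K : Type*} [Field K] [Algebra R K]
  {T : Type*} [AddCommGroup T] [Module R T]
  {T' : Type*} [AddCommGroup T'] [Module R T']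

/-- **[PLUMB'].** -/
theorem s35v_plumb [Module.IsTorsionFree R K] [Module.Free R T] [Module.Flat R T']
    (P1 P2 : T →ₗ[R] T') (Fix : Set (Module.End R T)) (Φ : Module.End R T) (c : R)
    (hTOR : ∀ x : T, (∀ f ∈ Fix, f x = x) → P1 x = 0 → P2 x = 0 →
      Φ (Φ (Φ x - x)) = c • (Φ x - x))
    (u : K ⊗[R] T) (hfix : ∀ f ∈ Fix, f.baseChange K u = u)
    (h1 : P1.baseChange K u = 0) (h2 : P2.baseChange K u = 0) :
    Φ.baseChange K (Φ.baseChange K (Φ.baseChange K u - u)) =
      algebraMap R K c • (Φ.baseChange K u - u) := by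
  obtain ⟨n, k, x, hk, rfl⟩ := s35pl_exists_indep (R := R) (K := K) u
  have hx1 : ∀ j, P1 (x j) = 0 := by
    rw [s35pl_baseChange_sum] at h1
    exact s35pl_eq_zero hk _ h1
  have hx2 : ∀ j, P2 (x j) = 0 := by
    rw [s35pl_baseChange_sum] at h2
    exact s35pl_eq_zero hk _ h2
  have hxf : ∀ f ∈ Fix, ∀ j, f (x j) = x j := by
    intro f hf j
    have h3 := hfix f hf
    rw [s35pl_baseChange_sum] at h3
    have h4 : ∑ j, k j ⊗ₜ[R] (f (x j) - x j) = (0 : K ⊗[R] T) := by
      simp only [TensorProduct.tmul_sub, Finset.sum_sub_distrib]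
      rw [h3, sub_self]
    exact sub_eq_zero.1 (s35pl_eq_zero hk _ h4 j)
  have hsub : Φ.baseChange K (∑ j, k j ⊗ₜ[R] x j) - ∑ j, k j ⊗ₜ[R] x j =
      ∑ j, k j ⊗ₜ[R] (Φ (x j) - x j) := by
    rw [s35pl_baseChange_sum]
    simp only [TensorProduct.tmul_sub, Finset.sum_sub_distrib]
  rw [hsub, s35pl_baseChange_sum, s35pl_baseChange_sum, Finset.smul_sum]
  refine Finset.sum_congr rfl fun j _ => ?_
  rw [hTOR (x j) (fun f hf => hxf f hf j) (hx1 j) (hx2 j), TensorProduct.tmul_smul,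
    algebraMap_smul]

end plumb

/-! ### The primed [TOR-T'] and the wiring -/

/-- **[TOR-T']** (helper4's shape): on the vectors `x` of `T_λ J₀(N q)` fixed by an inertia group
at `q` (`q ∤ N`, `q ≠ λ`) and killed by the two degeneracy maps to level `N`, the vector
`y := φ x - x` satisfies `φ² y = q² y` for every Frobenius element `φ` at `q`. -/
def s35v_TorT' : Prop :=
  ∀ (N q : ℕ) [NeZero N] [NeZero q] (lam : ℕ) [Fact lam.Prime], q.Prime → q ≠ lam → ¬ q ∣ N →
    ∀ A : ValuationSubring Qbar, A.LiesOverPrime q → ∀ φ : GQ, A.IsFrobeniusAt φ q →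
      ∀ x : tj_T (N * q) lam, (∀ s ∈ A.inertiaSubgroupIn ℚ, tj_rho (N * q) lam s x = x) →
        s35p_P1 N q lam x = 0 → s35p_P2 N q lam x = 0 →
          tj_rho (N * q) lam φ (tj_rho (N * q) lam φ (tj_rho (N * q) lam φ x - x)) =
            ((q : ℤ_[lam]) ^ 2) • (tj_rho (N * q) lam φ x - x)

/-- the unprimed [TOR-T] implies the primed one -/
theorem s35v_torT'_of_torT (hT : s35t_TorT) : s35v_TorT' := by
  intro N q _ _ lam _ hq hqlam hqN A hA φ hφ x hfix h1 h2
  refine hT N q lam hq hqlam hqN A hA φ hφ (tj_rho (N * q) lam φ x - x) ?_ ?_ ?_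
  · intro s hs
    have hconj := hfix _ (pkq_conj_mem_inertia A hφ.mem_decompositionSubgroup hs)
    have hmul : tj_rho (N * q) lam s (tj_rho (N * q) lam φ x) = tj_rho (N * q) lam φ x := by
      have h3 : s * φ = φ * (φ⁻¹ * s * φ) := by group
      have h4 : tj_rho (N * q) lam (s * φ) x = tj_rho (N * q) lam (φ * (φ⁻¹ * s * φ)) x := by
        rw [← h3]
      rw [map_mul, map_mul (tj_rho (N * q) lam) φ] at h4
      simp only [Module.End.mul_apply] at h4
      rw [h4, hconj]
    rw [map_sub, hmul, hfix s hs]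
  · rw [map_sub, s35p_P1_rho, h1, map_zero, sub_zero]
  · rw [map_sub, s35p_P2_rho, h2, map_zero, sub_zero]

/-- **[FROBSQ'] from [TOR-T'] and strong multiplicity one.** -/
theorem s35v_frobSq'_of_torT' (hT : s35v_TorT') : s35v_FrobSq' := by
  intro M _ g hg lam _ S O' _ _ _ _ _ _ hlamO' chig hchig iota hlamS hMS
  letI : Algebra ℤ_[lam] O' := (cya_padicHom lam O' hlamO').toAlgebra
  intro q hq hqlam hqM hq2 A hA φ hφ u hu hfix
  obtain ⟨N', rfl⟩ : ∃ N', M = N' * q := ⟨M / q, (Nat.div_mul_cancel hqM).symm⟩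
  have hN'0 : N' ≠ 0 := fun h => (NeZero.ne (N' * q)) (by rw [h, zero_mul])
  haveI : NeZero N' := ⟨hN'0⟩
  haveI : NeZero q := ⟨hq.ne_zero⟩
  have hqN' : ¬ q ∣ N' := by
    rintro ⟨c, rfl⟩
    apply hq2
    exact ⟨c, by ring⟩
  have hdvd : N' ∣ N' * q := Dvd.intro q rfl
  have hne : N' ≠ N' * q := by
    intro h
    have h1 : N' * 1 = N' * q := by rw [mul_one]; exact h
    exact hq.one_lt.ne (Nat.eq_of_mul_eq_mul_left (Nat.pos_of_ne_zero hN'0) h1)
  have h1 := s35n_newK lam s35t_seamSMO hg S hMS N' hdvd hne O' (FractionRing O') chig hchig iota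
    (s35p_P1 N' q lam) (fun ℓ hℓ => s35t_P1_equiv N' q lam S hq hqN' ℓ hℓ) u hu
  have h2 := s35n_newK lam s35t_seamSMO hg S hMS N' hdvd hne O' (FractionRing O') chig hchig iota
    (s35p_P2 N' q lam) (fun ℓ hℓ => s35t_P2_equiv N' q lam S hq hqN' ℓ hℓ) u hu
  have hinjO : Function.Injective (algebraMap ℤ_[lam] O') :=
    pk_padic_injective lam (algebraMap ℤ_[lam] O')
  have hinj : Function.Injective (algebraMap ℤ_[lam] (FractionRing O')) := by
    rw [IsScalarTower.algebraMap_eq ℤ_[lam] O' (FractionRing O')]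
    exact (IsFractionRing.injective O' (FractionRing O')).comp hinjO
  have htf : Module.IsTorsionFree ℤ_[lam] (FractionRing O') := by
    rw [Module.isTorsionFree_iff_smul_eq_zero]
    intro r m hrm
    rw [Algebra.smul_def, mul_eq_zero] at hrm
    rcases hrm with h0 | h0
    · exact Or.inl (hinj (h0.trans (map_zero _).symm))
    · exact Or.inr h0
  have key := s35v_plumb (R := ℤ_[lam]) (K := FractionRing O') (s35p_P1 N' q lam)
    (s35p_P2 N' q lam)
    {f | ∃ s ∈ A.inertiaSubgroupIn ℚ, f = tj_rho (N' * q) lam s} (tj_rho (N' * q) lam φ)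
    ((q : ℤ_[lam]) ^ 2)
    (fun x hx hx1 hx2 => hT N' q lam hq hqlam hqN' A hA φ hφ x
      (fun s hs => hx _ ⟨s, hs, rfl⟩) hx1 hx2)
    u (fun f hf => by
      obtain ⟨s, hs, rfl⟩ := hf
      exact hfix s hs) h1 h2
  rw [key, map_pow, map_natCast]

/-- **S35 from node E, S18, the geometric seam of S34 and the primed [TOR-T']** (the frozen
statement verbatim). -/
theorem s35v_result_of_torT' (hE : tjp_NodeE) (hS18 : tjp_S18)
    (hG : ∀ (N : ℕ) [NeZero N] (q : ℕ), q.Prime → q ∣ N → ¬ q ^ 2 ∣ N → ss_Geom N q)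
    (hT : s35v_TorT')
    {M : ℕ} [NeZero M] {g : CuspForm (CongruenceSubgroup.Gamma0 M) 2} (hg : g.IsNewform)
    (lam : ℕ) [Fact lam.Prime]
    (S : Finset ℕ)
    (O' : Type) [CommRing O'] [IsDomain O'] [IsDiscreteValuationRing O']
    [IsAdicComplete (IsLocalRing.maximalIdeal O') O'] [Finite (IsLocalRing.ResidueField O')]
    [CharZero O'] (hlamO' : (lam : O') ∈ IsLocalRing.maximalIdeal O')
    (chig : CuspForm.heckeAlgebra M 2 (↑S : Set ℕ) →+* ℂ)
    (hchig : ∀ (ℓ : ℕ) (hℓ : ℓ.Prime) (hℓM : ¬ ℓ ∣ M) (hℓS : ℓ ∉ (↑S : Set ℕ)),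
      chig (CuspForm.heckeAlgebra.T hℓ hℓM hℓS) = ModularFormClass.qCoeff g ℓ)
    (iota : chig.range →+* O')
    (hlamS : lam ∈ S) (hMS : ∀ q : ℕ, q.Prime → q ∣ M → q ∈ S)
    :
    ∃ (O'' : Type) (_ : CommRing O'') (_ : IsDomain O'') (_ : IsDiscreteValuationRing O'')
      (_ : IsAdicComplete (IsLocalRing.maximalIdeal O'') O'') (_ : Finite (IsLocalRing.ResidueField O''))
      (_ : CharZero O'') (_ : Algebra O' O'') (_ : Module.Finite O' O'') (_ : IsLocalHom (algebraMap O' O'')),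
      Function.Injective (algebraMap O' O'') ∧
      ∃ ρ : GaloisRepAdic O'',
        (∀ (ℓ : ℕ) (hℓ : ℓ.Prime) (hℓM : ¬ ℓ ∣ M) (hℓS : ℓ ∉ (↑S : Set ℕ)),
          ∀ A : ValuationSubring (AlgebraicClosure ℚ), A.LiesOverPrime ℓ →
            ∀ σ : AlgebraicClosure ℚ ≃ₐ[ℚ] AlgebraicClosure ℚ, A.IsFrobeniusAt σ ℓ →
              LinearMap.charpoly (ρ.ρ σ) =
                X ^ 2 - C (algebraMap O' O'' ((iota.comp chig.rangeRestrict) (CuspForm.heckeAlgebra.T hℓ hℓM hℓS))) * X
                  + C ((ℓ : O''))) ∧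
        (∀ q : ℕ, q.Prime → q ≠ lam → q ∣ M → ¬ q ^ 2 ∣ M →
          ∀ A : ValuationSubring (AlgebraicClosure ℚ), A.LiesOverPrime q →
            ∀ σ : AlgebraicClosure ℚ ≃ₐ[ℚ] AlgebraicClosure ℚ, A.IsFrobeniusAt σ q →
              LinearMap.charpoly (ρ.ρ σ) = X ^ 2 - C ((q : O'') + 1) * X + C ((q : O'')) ∨
              LinearMap.charpoly (ρ.ρ σ) = X ^ 2 + C ((q : O'') + 1) * X + C ((q : O''))) :=
  s35v_result_of hE hS18 hG (s35v_frobSq'_of_torT' hT) hg lam S O' hlamO' chig hchig iota hlamS hMS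

end Fermat.Agent.S35
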