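/-
S35, the `(φ - 1)`-PRIMED Kummer chain (helper16; prefix `s35kv_`): the twin of `S35/SeamsKum.lean` for
the primed top chain `S35/TopV.lean` (`s35v_TorT'`, helper28) / `S35/PackQ1.lean` (helper4), in which
the whole toric argument is applied to `F := φ f / f` (class `y := φ z - z`) instead of `f`
(class `z`), so that no component-group integer is needed.

* `s35kv_KeyBar N q` : PRIMED Kummer seam: for every place `P | q` and Frobenius element `φ` at `P`
      there is `d ≠ 0` (uniform in `m`) such that for `q ∤ m` and `f ≠ 0` with all orders divisible by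
      `m`, `s f = c · r^m · f` for `s ∈ I_P`, `Norm_α f = c · h^m`, `Norm_β f = c · h^m`:
      with `F := φ f / f`:  `(φ² F)^d = c · r^m · F^(q² d)`;
* `s35kv_Geom N q`   : PRIMED geometric seam: `d • (φ² y - q² y) = 0` for `y := φ z - z`;
* `s35kv_geom_of_keyBar` : `s35kv_KeyBar N q → s35kv_Geom N q`;
* `s35kv_torT'_of_geom`  : `s35kv_Geom N q` ⟹ the clause of `s35v_TorT'` at level `N q`;
* `s35kv_torT'`      : `(∀ N q, q prime, q ∤ N → s35kv_KeyBar N q) → s35v_TorT'`.
-/
import Mathlib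
import Fermat.Agent.S35.KummerGeom
import Fermat.Agent.S35.TopV
import Fermat.Agent.S36.Kum.Calc

set_option autoImplicit false
set_option linter.unusedSectionVars false
set_option linter.unusedVariables false
set_option linter.style.haveILetI false
set_option synthInstance.maxHeartbeats 400000
set_option maxHeartbeats 1000000

noncomputable section

namespace Fermat.Agent.S35

open ModularCurve AlgebraicCurve Fermat.Agent.S24 Fermat.Agent.JT3 Fermat.Agent.SS Fermat.Agent.S36

local notation "GQ" => (AlgebraicClosure ℚ ≃ₐ[ℚ] AlgebraicClosure ℚ)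
local notation "Qbar" => AlgebraicClosure ℚ

section Seams

variable (N q : ℕ) [NeZero N] [NeZero q]

/-- **Primed geometric seam of S35.** -/
def s35kv_Geom : Prop :=
  ∀ P : ValuationSubring Qbar, P.LiesOverPrime q → ∀ φ : GQ, P.IsFrobeniusAt φ q →
    ∃ d : ℕ, d ≠ 0 ∧ ∀ m : ℕ, ¬ q ∣ m → ∀ z : JZero (N * q), m • z = 0 →
      (∀ s ∈ P.inertiaSubgroupIn ℚ, s • z = z) → s35p_P1J N q z = 0 → s35p_P2J N q z = 0 →
        d • (φ • (φ • (φ • z - z)) - (q ^ 2) • (φ • z - z)) = 0

/-- **Primed Kummer seam of S35.** -/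
def s35kv_KeyBar : Prop :=
  ∀ P : ValuationSubring Qbar, P.LiesOverPrime q → ∀ φ : GQ, P.IsFrobeniusAt φ q →
    ∃ d : ℕ, d ≠ 0 ∧ ∀ m : ℕ, ¬ q ∣ m →
      ∀ f : modularFunctionFieldBar (N * q), f ≠ 0 →
        (∀ v : Place Qbar (modularFunctionFieldBar (N * q)), (m : ℤ) ∣ v.ord f) →
        (∀ s ∈ P.inertiaSubgroupIn ℚ, ∃ (c : Qbar) (r : modularFunctionFieldBar (N * q)), r ≠ 0 ∧
          ss_act (N * q) s f =
            algebraMap Qbar (modularFunctionFieldBar (N * q)) c * r ^ m * f) →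
        (∃ (c : Qbar) (h : modularFunctionFieldBar N), h ≠ 0 ∧
          s35k_norm (heckeAlphaBar Qbar N q) f =
            algebraMap Qbar (modularFunctionFieldBar N) c * h ^ m) →
        (∃ (c : Qbar) (h : modularFunctionFieldBar N), h ≠ 0 ∧
          s35k_norm (heckeBetaBar Qbar N q) f =
            algebraMap Qbar (modularFunctionFieldBar N) c * h ^ m) →
        ∃ (c : Qbar) (r : modularFunctionFieldBar (N * q)), r ≠ 0 ∧
          (ss_act (N * q) φ (ss_act (N * q) φ (ss_act (N * q) φ f / f))) ^ d =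
            algebraMap Qbar (modularFunctionFieldBar (N * q)) c * r ^ m *
              (ss_act (N * q) φ f / f) ^ (q ^ 2 * d)

/-- the primed Kummer seam implies the primed geometric seam. -/
theorem s35kv_geom_of_keyBar (h : s35kv_KeyBar N q) : s35kv_Geom N q := by
  intro P hP φ hφ
  obtain ⟨d, hd, H⟩ := h P hP φ hφ
  refine ⟨d, hd, fun m hqm z hmz hfix hP1 hP2 => ?_⟩
  have hm : m ≠ 0 := by
    rintro rfl
    exact hqm (dvd_zero q)
  obtain ⟨D, rfl⟩ := Pic0.mk_surjective z
  obtain ⟨f, hK⟩ := s36k_kum_exists hmz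
  have hD : ∀ v : Place Qbar (modularFunctionFieldBar (N * q)),
      (m : ℤ) * (D : Divisor Qbar (modularFunctionFieldBar (N * q))) v = v.ord f := hK.2
  set gφ : SemilinearAut Qbar (modularFunctionFieldBar (N * q)) :=
    arithmeticGalois (modularFunctionFieldFull (N * q)) φ with hgφ
  obtain ⟨c, r, hr, hrel⟩ := H m hqm f hK.1 hK.dvd
    (fun s hs => s35k_fix_kummer (rt_isSepGen_jBar (N * q))
      (arithmeticGalois (modularFunctionFieldFull (N * q)) s) D hK.1 hD (hfix s hs))
    (s35k_push_kummer (rt_isSepGen_jBar N) _ _ _ _ D hK.1 hD hP1)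
    (s35k_push_kummer (rt_isSepGen_jBar N) _ _ _ _ D hK.1 hD hP2)
  -- the divisor of `F = φ f / f`
  set D' : Divisor.degZero (K := Qbar) (F := modularFunctionFieldBar (N * q)) :=
    SemilinearAut.degZeroSMulHom gφ D - D with hD'
  have hK' : s36k_Kum m (D' : Divisor Qbar (modularFunctionFieldBar (N * q))) (gφ • f / f) := by
    have h1 := s36k_kum_div (s36k_kum_smul gφ hK) hK
    have e : (D' : Divisor Qbar (modularFunctionFieldBar (N * q))) =
        gφ • (D : Divisor Qbar (modularFunctionFieldBar (N * q))) -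
          (D : Divisor Qbar (modularFunctionFieldBar (N * q))) := by
      rw [hD', AddSubgroup.coe_sub, SemilinearAut.coe_degZeroSMulHom]
    rw [e]
    exact h1
  have hz : gφ • Pic0.mk D - Pic0.mk D = Pic0.mk D' := by
    rw [SemilinearAut.pic0_smul_mk]
    rfl
  have key := s35k_class_of_kummer gφ D' hm hK'.1 hK'.2 d (q ^ 2) hr hrel
  rw [← hz] at key
  exact key

end Seams

section Tate

variable (N q : ℕ) [NeZero N] [NeZero q] (p : ℕ) [hp : Fact p.Prime]

/-- the clause of `s35v_TorT'` at level `N q` from the primed geometric seam. -/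
theorem s35kv_torT'_of_geom (hG : s35kv_Geom N q) (hq : q.Prime) (hqp : q ≠ p)
    (A : ValuationSubring Qbar) (hA : A.LiesOverPrime q) (φ : GQ) (hφ : A.IsFrobeniusAt φ q)
    (x : tj_T (N * q) p)
    (hfix : ∀ s ∈ A.inertiaSubgroupIn ℚ, tj_rho (N * q) p s x = x)
    (h1 : s35p_P1 N q p x = 0) (h2 : s35p_P2 N q p x = 0) :
    tj_rho (N * q) p φ (tj_rho (N * q) p φ (tj_rho (N * q) p φ x - x)) =
      ((q : ℤ_[p]) ^ 2) • (tj_rho (N * q) p φ x - x) := by
  obtain ⟨d, hd, hG⟩ := hG A hA φ hφ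
  have hpp : p.Prime := hp.out
  have key : d • (tj_rho (N * q) p φ (tj_rho (N * q) p φ (tj_rho (N * q) p φ x - x)) -
      ((q : ℤ_[p]) ^ 2) • (tj_rho (N * q) p φ x - x)) = 0 := by
    refine tm_ext fun n => ?_
    rw [tm_nsmul_apply, tm_zero_apply]
    have hqn : ¬ q ∣ p ^ n := fun h =>
      hqp ((Nat.prime_dvd_prime_iff_eq hq hpp).mp (hq.dvd_of_dvd_pow h))
    have hz := hG (p ^ n) hqn (x.1 n) (tm_tor x n)
      (fun s hs => by
        have := congrArg (fun y : tj_T (N * q) p => y.1 n) (hfix s hs)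
        simpa only [tj_rho_apply] using this)
      (by rw [← s35p_P1_apply, h1]; rfl)
      (by rw [← s35p_P2_apply, h2]; rfl)
    have h3 : (tj_rho (N * q) p φ (tj_rho (N * q) p φ (tj_rho (N * q) p φ x - x)) -
        ((q : ℤ_[p]) ^ 2) • (tj_rho (N * q) p φ x - x)).1 n =
        φ • (φ • (φ • x.1 n - x.1 n)) - (q ^ 2) • (φ • x.1 n - x.1 n) := by
      have e : ((q : ℤ_[p]) ^ 2) = ((q ^ 2 : ℕ) : ℤ_[p]) := by push_cast; ring
      rw [tm_sub_apply, tj_rho_apply, tj_rho_apply, e, tm_natCast_smul_apply, tm_sub_apply,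
        tj_rho_apply]
    rw [h3]
    exact hz
  exact sub_eq_zero.mp (s35k_tm_nsmul_eq_zero p hd _ key)

end Tate

/-- `s35v_TorT'` from the primed geometric seam at all `(N, q)`, `q` prime, `q ∤ N`. -/
theorem s35kv_torT'_of_geom_all
    (h : ∀ (N q : ℕ) [NeZero N] [NeZero q], q.Prime → ¬ q ∣ N → s35kv_Geom N q) : s35v_TorT' := by
  intro N q _ _ lam _ hq hql hqN A hA φ hφ x hfix h1 h2
  exact s35kv_torT'_of_geom N q lam (h N q hq hqN) hq hql A hA φ hφ x hfix h1 h2

/-- **`s35v_TorT'` from the primed Kummer seam** at all `(N, q)`, `q` prime, `q ∤ N`. -/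
theorem s35kv_torT'
    (h : ∀ (N q : ℕ) [NeZero N] [NeZero q], q.Prime → ¬ q ∣ N → s35kv_KeyBar N q) : s35v_TorT' :=
  s35kv_torT'_of_geom_all fun N q _ _ hq hqN => s35kv_geom_of_keyBar N q (h N q hq hqN)

end Fermat.Agent.S35
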