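/-
Project S35: THE PRIMED TOP SEAMS (ruling (R6): helper4's `(φ - 1)`-fix, #2242).

The component group of `J₀(N' q)` at `q` obstructs the unprimed conclusion
"`d (φ² - q²) z = 0`" (it would need the number of nodes of the special fibre).  Applying the whole
toric argument to `(φ - 1) z`, i.e. to the function `F = φ f / f` (a unit at BOTH Gauss valuations,
since `φ` preserves them), removes the obstruction:

  [FROBSQ'] (`pkq1_S35_of_tate`, S35/PackQ1.lean)
     ⟸ [TOR-T']  ⟸  `s35_Geom1 N' q`  ⟸  `s35_KeyBar1 N' q`  ⟸  the core.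

* `s35_Geom1 N' q`   : `d (φ² - q²)(φ - 1) z = 0` for `z ∈ J₀(N' q)[m]` fixed by `I_A` and killed by
                       both push-forwards (same hypotheses as `s35_Geom`);
* `s35_KeyBar1 N' q` : the Kummer form: `(φ²F)^d = c · r^m · F^(q² d)` for `F = φ f / f` (same
                       hypotheses on `f` as `s35_KeyBar`).
`d` depends on `(P, φ)` and is uniform in `m` only (ruling (R1)).  Prefix `s35_`.
-/
import Mathlib
import Fermat.Agent.S35.Seams

set_option autoImplicit false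
set_option linter.unusedSectionVars false
set_option linter.unusedVariables false
set_option linter.style.haveILetI false

noncomputable section

namespace Fermat.Agent.S35

open ModularCurve AlgebraicCurve IsLocalRing Fermat.Agent.JT3 Fermat.Agent.S24 Fermat.Agent.SS

local notation "GQ" => (AlgebraicClosure ℚ ≃ₐ[ℚ] AlgebraicClosure ℚ)

variable (N' q : ℕ) [NeZero N'] [NeZero q]

/-- **Geometric seam, primed.** -/
def s35_Geom1 : Prop :=
  ∀ P : ValuationSubring (AlgebraicClosure ℚ), P.LiesOverPrime q →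
    ∀ φ : GQ, P.IsFrobeniusAt φ q → ∃ d : ℕ, d ≠ 0 ∧ ∀ m : ℕ, ¬ q ∣ m →
      ∀ D : Divisor.degZero (K := Kbar) (F := Fbar (N' * q)),
        m • (Pic0.mk D : JZero (N' * q)) = 0 →
        (∀ s ∈ P.inertiaSubgroupIn ℚ, s • (Pic0.mk D : JZero (N' * q)) = Pic0.mk D) →
        (Divisor.pushforwardAlong (heckeAlphaBar Kbar N' q) (hib_alphaIntegral N' q)
          (D : Divisor Kbar (Fbar (N' * q)))).IsPrincipal →
        (Divisor.pushforwardAlong (heckeBetaBar Kbar N' q) (hib_betaIntegral N' q)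
          (D : Divisor Kbar (Fbar (N' * q)))).IsPrincipal →
        d • (φ • (φ • (φ • (Pic0.mk D : JZero (N' * q)) - Pic0.mk D)) -
          (q ^ 2) • (φ • (Pic0.mk D : JZero (N' * q)) - Pic0.mk D)) = 0

/-- **Kummer seam, primed.** -/
def s35_KeyBar1 : Prop :=
  ∀ P : ValuationSubring (AlgebraicClosure ℚ), P.LiesOverPrime q →
    ∀ φ : GQ, P.IsFrobeniusAt φ q → ∃ d : ℕ, d ≠ 0 ∧ ∀ m : ℕ, ¬ q ∣ m →
      ∀ f : Fbar (N' * q), f ≠ 0 →
        (∀ v : Place Kbar (Fbar (N' * q)), (m : ℤ) ∣ v.ord f) →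
        (∀ s ∈ P.inertiaSubgroupIn ℚ, ∃ (c : Kbar) (r : Fbar (N' * q)), r ≠ 0 ∧
          ss_act (N' * q) s f = algebraMap Kbar (Fbar (N' * q)) c * r ^ m * f) →
        (∃ (c : Kbar) (r : Fbar N'), r ≠ 0 ∧
          s35_normA N' q f = algebraMap Kbar (Fbar N') c * r ^ m) →
        (∃ (c : Kbar) (r : Fbar N'), r ≠ 0 ∧
          s35_normB N' q f = algebraMap Kbar (Fbar N') c * r ^ m) →
        ∃ (c : Kbar) (r : Fbar (N' * q)), r ≠ 0 ∧
          ss_act (N' * q) φ (ss_act (N' * q) φ (ss_act (N' * q) φ f / f)) ^ d =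
            algebraMap Kbar (Fbar (N' * q)) c * r ^ m * (ss_act (N' * q) φ f / f) ^ (q ^ 2 * d)

end Fermat.Agent.S35
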