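/-
S35, wiring cells [KUM] + [TATE-LIM] for the PRIMED official seams of `S35/Seams1.lean` (ruling (R6);
helper16; prefix `s35sk1_`).

* `s35sk1_keyBar`        : `s35_KeyBar1 N q → s35kv_KeyBar N q` (same statement, `s35_normA/B` unfolded);
* `s35sk1_geom1_iff`     : `s35_Geom1 N q ↔ s35kv_Geom N q`;
* `s35sk1_geom1_of_keyBar1` : [KUM]  `s35_KeyBar1 N q → s35_Geom1 N q`;
* `s35sk1_torT'_of_geom1`   : [TATE-LIM] `s35_Geom1 N q` ⟹ the clause of `s35v_TorT'` at level `N q`;
* `s35sk1_torT'_of_geom1_all`, `s35sk1_torT'` : `s35v_TorT'` (S35/TopV.lean) from `s35_Geom1` resp.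
      `s35_KeyBar1` at all `(N, q)` with `q` prime, `q ∤ N`.
-/
import Mathlib
import Fermat.Agent.S35.Seams1
import Fermat.Agent.S35.SeamsKum
import Fermat.Agent.S35.KummerV

set_option autoImplicit false
set_option linter.unusedSectionVars false
set_option linter.unusedVariables false
set_option linter.style.haveILetI false
set_option synthInstance.maxHeartbeats 400000
set_option maxHeartbeats 1000000

noncomputable section

namespace Fermat.Agent.S35

open ModularCurve AlgebraicCurve Fermat.Agent.S24 Fermat.Agent.JT3 Fermat.Agent.SS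

local notation "GQ" => (AlgebraicClosure ℚ ≃ₐ[ℚ] AlgebraicClosure ℚ)
local notation "Qbar" => AlgebraicClosure ℚ

section Seams

variable (N q : ℕ) [NeZero N] [NeZero q]

/-- the official primed Kummer seam is the primed Kummer seam of `S35/KummerV.lean`. -/
theorem s35sk1_keyBar (h : s35_KeyBar1 N q) : s35kv_KeyBar N q := h

/-- the primed geometric seam of `S35/KummerV.lean` gives the official one. -/
theorem s35sk1_geom1_of_geom (h : s35kv_Geom N q) : s35_Geom1 N q := by
  intro P hP φ hφ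
  obtain ⟨d, hd, H⟩ := h P hP φ hφ
  exact ⟨d, hd, fun m hqm D hmz hfix hP1 hP2 =>
    H m hqm (Pic0.mk D) hmz hfix ((s35sk_P1J_eq_zero_iff N q D).2 hP1)
      ((s35sk_P2J_eq_zero_iff N q D).2 hP2)⟩

/-- the official primed geometric seam gives the one of `S35/KummerV.lean`. -/
theorem s35sk1_geom_of_geom1 (h : s35_Geom1 N q) : s35kv_Geom N q := by
  intro P hP φ hφ
  obtain ⟨d, hd, H⟩ := h P hP φ hφ
  refine ⟨d, hd, fun m hqm z hmz hfix hP1 hP2 => ?_⟩
  obtain ⟨D, rfl⟩ := Pic0.mk_surjective z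
  exact H m hqm D hmz hfix ((s35sk_P1J_eq_zero_iff N q D).1 hP1)
    ((s35sk_P2J_eq_zero_iff N q D).1 hP2)

theorem s35sk1_geom1_iff : s35_Geom1 N q ↔ s35kv_Geom N q :=
  ⟨s35sk1_geom_of_geom1 N q, s35sk1_geom1_of_geom N q⟩

/-- **[KUM], primed** the official primed Kummer seam implies the official primed geometric
seam. -/
theorem s35sk1_geom1_of_keyBar1 (h : s35_KeyBar1 N q) : s35_Geom1 N q :=
  s35sk1_geom1_of_geom N q (s35kv_geom_of_keyBar N q (s35sk1_keyBar N q h))

end Seams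

section Tate

variable (N q : ℕ) [NeZero N] [NeZero q] (p : ℕ) [hp : Fact p.Prime]

/-- **[TATE-LIM], primed**: the clause of `s35v_TorT'` at level `N q` from the official primed
geometric seam. -/
theorem s35sk1_torT'_of_geom1 (hG : s35_Geom1 N q) (hq : q.Prime) (hqp : q ≠ p)
    (A : ValuationSubring Qbar) (hA : A.LiesOverPrime q) (φ : GQ) (hφ : A.IsFrobeniusAt φ q)
    (x : tj_T (N * q) p)
    (hfix : ∀ s ∈ A.inertiaSubgroupIn ℚ, tj_rho (N * q) p s x = x)
    (h1 : s35p_P1 N q p x = 0) (h2 : s35p_P2 N q p x = 0) :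
    tj_rho (N * q) p φ (tj_rho (N * q) p φ (tj_rho (N * q) p φ x - x)) =
      ((q : ℤ_[p]) ^ 2) • (tj_rho (N * q) p φ x - x) :=
  s35kv_torT'_of_geom N q p (s35sk1_geom_of_geom1 N q hG) hq hqp A hA φ hφ x hfix h1 h2

end Tate

/-- `s35v_TorT'` from the official primed geometric seam at all `(N, q)`, `q` prime, `q ∤ N`. -/
theorem s35sk1_torT'_of_geom1_all
    (h : ∀ (N q : ℕ) [NeZero N] [NeZero q], q.Prime → ¬ q ∣ N → s35_Geom1 N q) : s35v_TorT' :=
  s35kv_torT'_of_geom_all fun N q _ _ hq hqN => s35sk1_geom_of_geom1 N q (h N q hq hqN)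

/-- **`s35v_TorT'` from the official primed Kummer seam** at all `(N, q)`, `q` prime, `q ∤ N`. -/
theorem s35sk1_torT'
    (h : ∀ (N q : ℕ) [NeZero N] [NeZero q], q.Prime → ¬ q ∣ N → s35_KeyBar1 N q) : s35v_TorT' :=
  s35sk1_torT'_of_geom1_all fun N q _ _ hq hqN => s35sk1_geom1_of_keyBar1 N q (h N q hq hqN)

end Fermat.Agent.S35
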