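/-
Project S35, THE FINAL REDUCTION (interim architect: helper6): the frozen statement of S35 from the
primed core seams on the two covers.

* `s35_geom_all`        : the geometric seam `ss_Geom N q` of S34 for all `q ‖ N` (closed: project SS);
* `s35_result_of_keyBar1` : S35 verbatim from `∀ N q, q prime, q ∤ N → s35_KeyBar1 N q`
                          (`s35v_result_of_torT'` + `s35sk1_torT'`);
* `s35_keyBar1_of_cores`  : `s35_KeyBar1 N q` for all `(N, q)` from the two descent arrows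
                          `s35_CoreNF1 → s35_KeyBar1` (`q` odd) and `s35h_CoreNF1 → s35_KeyBar1` (`q = 2`)
                          and the two cores;
* `s35_result_of_cores`   : S35 verbatim from the four inputs [ABEL]/[TORIC] on the two covers and the two
                          descent arrows.
Prefix `s35_`.
-/
import Mathlib
import Fermat.Agent.S35.TopV
import Fermat.Agent.S35.SeamsKum1
import Fermat.Agent.S35.Seams2
import Fermat.Agent.SS.Final
import Fermat.Agent.SS.Model.NodeLegB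
import Fermat.Agent.SS.Model.NodeHesFinal

set_option autoImplicit false
set_option linter.unusedSectionVars false
set_option linter.unusedVariables false
set_option linter.style.haveILetI false

noncomputable section

namespace Fermat.Agent.S35

open IsLocalRing TensorProduct Polynomial Fermat.Agent.JT3 Fermat.Agent.SS ModularCurve
open CuspForm CuspForm.IsNewform

/-- the geometric seam of S34 at every `q ‖ N` (project SS, closed). -/
theorem s35_geom_all (N : ℕ) [NeZero N] (q : ℕ) (hq : q.Prime) (hqN : q ∣ N) (hq2 : ¬ q ^ 2 ∣ N) :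
    ss_Geom N q :=
  ss_geom_of_core
    (fun N _ q hq hq2 hqN hq2N => ssm_nlb_coreNF N q hq hq2 hqN hq2N)
    (fun N _ h2 h4 => ssm_nht_coreNFH N h2 h4) N q hq hqN hq2

/-- the primed Kummer seam at all `(N, q)` from the two cores and the two descent arrows. -/
theorem s35_keyBar1_of_cores
    (hDescLeg : ∀ (N q : ℕ) [NeZero N] [NeZero q] [Fact q.Prime] (hq2 : ¬ 2 ∣ q) (hqN : ¬ q ∣ N),
      s35_CoreNF1 N q hq2 hqN → s35_KeyBar1 N q)
    (hDescHes : ∀ (N q : ℕ) [NeZero N] [NeZero q] [Fact q.Prime] (hq3 : ¬ 3 ∣ q) (hqN : ¬ q ∣ N),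
      s35h_CoreNF1 N q hq3 hqN → s35_KeyBar1 N q)
    (hCoreLeg : ∀ (N q : ℕ) [NeZero N] [NeZero q] [Fact q.Prime] (hq2 : ¬ 2 ∣ q) (hqN : ¬ q ∣ N),
      s35_CoreNF1 N q hq2 hqN)
    (hCoreHes : ∀ (N q : ℕ) [NeZero N] [NeZero q] [Fact q.Prime] (hq3 : ¬ 3 ∣ q) (hqN : ¬ q ∣ N),
      s35h_CoreNF1 N q hq3 hqN)
    (N q : ℕ) [NeZero N] [NeZero q] (hq : q.Prime) (hqN : ¬ q ∣ N) : s35_KeyBar1 N q := by
  haveI : Fact q.Prime := ⟨hq⟩
  by_cases h2 : 2 ∣ q
  · -- `q = 2`: Hesse cover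
    have hq3 : ¬ 3 ∣ q := by
      intro h3
      have e2 : 2 = q := (Nat.prime_dvd_prime_iff_eq Nat.prime_two hq).1 h2
      have e3 : 3 = q := (Nat.prime_dvd_prime_iff_eq Nat.prime_three hq).1 h3
      omega
    exact hDescHes N q hq3 hqN (hCoreHes N q hq3 hqN)
  · exact hDescLeg N q h2 hqN (hCoreLeg N q h2 hqN)

variable {M : ℕ} [NeZero M] {g : CuspForm (CongruenceSubgroup.Gamma0 M) 2}

/-- **S35 from the primed Kummer seam** (the frozen statement verbatim). -/
theorem s35_result_of_keyBar1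
    (hKey : ∀ (N q : ℕ) [NeZero N] [NeZero q], q.Prime → ¬ q ∣ N → s35_KeyBar1 N q)
    (hg : g.IsNewform)
    (lam : ℕ) [Fact lam.Prime]
    (S : Finset ℕ)
    (O' : Type) [CommRing O'] [IsDomain O'] [IsDiscreteValuationRing O']
    [IsAdicComplete (IsLocalRing.maximalIdeal O') O'] [Finite (IsLocalRing.ResidueField O')]
    [CharZero O'] (hlamO' : (lam : O') ∈ IsLocalRing.maximalIdeal O')
    (chig : CuspForm.heckeAlgebra M 2 (↑S : Set ℕ) →+* ℂ)
    (hchig : ∀ (ℓ : ℕ) (hℓ : ℓ.Prime) (hℓM : ¬ ℓ ∣ M) (hℓS : ℓ ∉ (↑S : Set ℕ)),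
      chig (CuspForm.heckeAlgebra.T hℓ hℓM hℓS) = ModularFormClass.qCoeff g ℓ)
    (iota : chig.range →+* O')
    (hlamS : lam ∈ S) (hMS : ∀ q : ℕ, q.Prime → q ∣ M → q ∈ S) :
    ∃ (O'' : Type) (_ : CommRing O'') (_ : IsDomain O'') (_ : IsDiscreteValuationRing O'')
      (_ : IsAdicComplete (IsLocalRing.maximalIdeal O'') O'') (_ : Finite (IsLocalRing.ResidueField O''))
      (_ : CharZero O'') (_ : Algebra O' O'') (_ : Module.Finite O' O'') (_ : IsLocalHom (algebraMap O' O'')),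
      Function.Injective (algebraMap O' O'') ∧
      ∃ ρ : GaloisRepAdic O'',
        (∀ (ℓ : ℕ) (hℓ : ℓ.Prime) (hℓM : ¬ ℓ ∣ M) (hℓS : ℓ ∉ (↑S : Set ℕ)),
          ∀ A : ValuationSubring (AlgebraicClosure ℚ), A.LiesOverPrime ℓ →
            ∀ σ : AlgebraicClosure ℚ ≃ₐ[ℚ] AlgebraicClosure ℚ, A.IsFrobeniusAt σ ℓ →
              LinearMap.charpoly (ρ.ρ σ) =
                X ^ 2 - C (algebraMap O' O'' ((iota.comp chig.rangeRestrict) (CuspForm.heckeAlgebra.T hℓ hℓM hℓS))) * X
                  + C ((ℓ : O''))) ∧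
        (∀ q : ℕ, q.Prime → q ≠ lam → q ∣ M → ¬ q ^ 2 ∣ M →
          ∀ A : ValuationSubring (AlgebraicClosure ℚ), A.LiesOverPrime q →
            ∀ σ : AlgebraicClosure ℚ ≃ₐ[ℚ] AlgebraicClosure ℚ, A.IsFrobeniusAt σ q →
              LinearMap.charpoly (ρ.ρ σ) = X ^ 2 - C ((q : O'') + 1) * X + C ((q : O'')) ∨
              LinearMap.charpoly (ρ.ρ σ) = X ^ 2 + C ((q : O'') + 1) * X + C ((q : O''))) :=
  s35v_result_of_torT' tji_nodeE tji_S18
    (fun N _ q hq hqN hq2 => s35_geom_all N q hq hqN hq2)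
    (s35sk1_torT' hKey) hg lam S O' hlamO' chig hchig iota hlamS hMS

end Fermat.Agent.S35
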