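/-
Project S35: THE SEAMS OVER THE UNRAMIFIED NUMBER FIELDS, Hesse cover (`q ≠ 3`, in the application
`q = 2`) (interim architect: helper6).  Exact mirror of `S35/SeamsNF.lean`, on top of helper8's
`S35/SeamsHes.lean` (names `s35h_*`).

* `s35h_AbelNF N' q hq3 hqN'`, `s35h_ToricNF N' q hq3 hqN'`, `s35h_CoreNF N' q hq3 hqN'`;
* `s35h_coreNF_of` : `s35h_AbelNF → s35h_ToricNF → s35h_CoreNF`.
Prefix `s35h_`.
-/
import Mathlib
import Fermat.Agent.S35.SeamsHes
import Fermat.Agent.SS.CoreNFLeg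

set_option autoImplicit false
set_option linter.unusedSectionVars false
set_option linter.unusedVariables false
set_option linter.style.haveILetI false

noncomputable section

namespace Fermat.Agent.S35

open ModularCurve AlgebraicCurve IsLocalRing Fermat.Agent.JT3 Fermat.Agent.S24 Fermat.Agent.SS

local notation "GQ" => (AlgebraicClosure ℚ ≃ₐ[ℚ] AlgebraicClosure ℚ)
local notation "Qb" => AlgebraicClosure ℚ

section NFH

variable (N' q : ℕ) [NeZero N'] [NeZero q] [hq : Fact q.Prime] (hq3 : ¬ 3 ∣ q) (hqN' : ¬ q ∣ N')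

/-- **[ABEL] over the unramified number fields**, Hesse cover. -/
def s35h_AbelNF : Prop :=
  ∀ A : ValuationSubring Qb, A.LiesOverPrime q →
    ∃ d : ℕ, d ≠ 0 ∧ ∃ T : Finset Qb,
      ∀ L1 : IntermediateField ℚ Qb, FiniteDimensional ℚ L1 → (↑T : Set Qb) ⊆ L1 →
        ∀ [IsDiscreteValuationRing ↥(A.comap (algebraMap ↥L1 Qb))]
          [CharP (ResidueField ↥(A.comap (algebraMap ↥L1 Qb))) q]
          (h3O : IsUnit (3 : ↥(A.comap (algebraMap ↥L1 Qb))))
          (hπ : Irreducible ((q : ℕ) : ↥(A.comap (algebraMap ↥L1 Qb)))),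
          ∀ m : ℕ, ¬ q ∣ m → (∃ ζ : ↥L1, IsPrimitiveRoot ζ m) →
            s35h_AbelAt (three_ne_zero : (3 : ↥L1) ≠ 0) (A.comap (algebraMap ↥L1 Qb)) h3O hπ
              N' q hq3 hqN' m d

/-- **[TORIC] over the unramified number fields**, Hesse cover. -/
def s35h_ToricNF : Prop :=
  ∀ A : ValuationSubring Qb, A.LiesOverPrime q → ∀ φ : GQ, A.IsFrobeniusAt φ q →
    ∃ T : Finset Qb,
      ∀ L1 : IntermediateField ℚ Qb, FiniteDimensional ℚ L1 → (↑T : Set Qb) ⊆ L1 →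
        ∀ [IsDiscreteValuationRing ↥(A.comap (algebraMap ↥L1 Qb))]
          [CharP (ResidueField ↥(A.comap (algebraMap ↥L1 Qb))) q]
          (h3O : IsUnit (3 : ↥(A.comap (algebraMap ↥L1 Qb))))
          (hπ : Irreducible ((q : ℕ) : ↥(A.comap (algebraMap ↥L1 Qb)))),
          ∀ φ1 : ↥L1 ≃+* ↥L1, (∀ x : ↥L1, ((φ1 x : ↥L1) : Qb) = φ (x : Qb)) →
            ∀ m : ℕ, ¬ q ∣ m → (∃ ζ : ↥L1, IsPrimitiveRoot ζ m) →
              s35h_ToricAt (three_ne_zero : (3 : ↥L1) ≠ 0) (A.comap (algebraMap ↥L1 Qb)) h3O hπ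
                N' q hq3 hqN' φ1 m

/-- **The core over the unramified number fields**, Hesse cover. -/
def s35h_CoreNF : Prop :=
  ∀ A : ValuationSubring Qb, A.LiesOverPrime q → ∀ φ : GQ, A.IsFrobeniusAt φ q →
    ∃ d : ℕ, d ≠ 0 ∧ ∃ T : Finset Qb,
      ∀ L1 : IntermediateField ℚ Qb, FiniteDimensional ℚ L1 → (↑T : Set Qb) ⊆ L1 →
        Irreducible ((q : ℕ) : ↥(A.comap (algebraMap ↥L1 Qb))) →
        ∀ φ1 : ↥L1 ≃+* ↥L1, (∀ x : ↥L1, ((φ1 x : ↥L1) : Qb) = φ (x : Qb)) →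
          ∀ m : ℕ, ¬ q ∣ m → (∃ ζ : ↥L1, IsPrimitiveRoot ζ m) →
            s35h_CoreAt (L := ↥L1) (three_ne_zero : (3 : ↥L1) ≠ 0) N' q hq3 hqN' φ1 m d

/-- **The core over the unramified number fields from [ABEL] and [TORIC]**, Hesse cover. -/
theorem s35h_coreNF_of (hA : s35h_AbelNF N' q hq3 hqN') (hT : s35h_ToricNF N' q hq3 hqN') :
    s35h_CoreNF N' q hq3 hqN' := by
  classical
  intro A hAq φ hφ
  obtain ⟨d, hd, TA, hTA⟩ := hA A hAq
  obtain ⟨TT, hTT⟩ := hT A hAq φ hφ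
  refine ⟨d, hd, TA ∪ TT, fun L1 hfd hsub hirr φ1 hφ1 m hqm hζ => ?_⟩
  have hsubA : (↑TA : Set Qb) ⊆ L1 := fun x hx => hsub (by
    rw [Finset.coe_union]; exact Or.inl hx)
  have hsubT : (↑TT : Set Qb) ⊆ L1 := fun x hx => hsub (by
    rw [Finset.coe_union]; exact Or.inr hx)
  haveI : NumberField ↥L1 := { to_charZero := inferInstance, to_finiteDimensional := hfd }
  haveI hdvr : IsDiscreteValuationRing ↥(A.comap (algebraMap ↥L1 Qb)) :=
    dsc_isDVR_comap_numberField A q hAq hq.out.ne_zero ↥L1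
  have hmem := lg_natCast_mem_maximalIdeal A hAq ↥L1
  haveI : CharP (IsLocalRing.ResidueField ↥(A.comap (algebraMap ↥L1 Qb))) q :=
    ss_nfl_charP_residue hmem
  -- `3` is a unit of `O1` because `q ≠ 3`
  have h3O : IsUnit (3 : ↥(A.comap (algebraMap ↥L1 Qb))) := by
    have hcop : Nat.Coprime 3 q := by
      rw [Nat.coprime_comm, Nat.Prime.coprime_iff_not_dvd hq.out]
      intro h
      exact hq3 ((Nat.prime_dvd_prime_iff_eq hq.out Nat.prime_three).1 h ▸ dvd_refl _)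
    have := lg_isUnit_natCast hmem hcop
    simpa using this
  exact s35h_coreAt_of_abel_toric (three_ne_zero : (3 : ↥L1) ≠ 0)
    (A.comap (algebraMap ↥L1 Qb)) h3O hirr N' q hq3 hqN' φ1 m d
    (hTA L1 hfd hsubA h3O hirr m hqm hζ) (hTT L1 hfd hsubT h3O hirr φ1 hφ1 m hqm hζ)

end NFH

end Fermat.Agent.S35
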