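/-
Project S35: THE SEAMS OVER THE UNRAMIFIED NUMBER FIELDS, Legendre cover (`q` odd)
(interim architect: helper6).

`A` a valuation ring of `Q̄` over `q`, `φ` a Frobenius element at `A`; `L1 ⊆ Q̄` a number field
with `O1 = A ∩ L1` UNRAMIFIED (uniformiser `q`), stable under `φ` (`φ1 = φ|L1`), containing a finite
set `T` chosen by the provider and a primitive `m`-th root of unity.

* `s35_AbelNF N' q hq2 hqN'`  : [ABEL]  over all such `L1`, with ONE exponent `d` for fixed `A`;
* `s35_ToricNF N' q hq2 hqN'` : [TORIC] over all such `(L1, φ1)`;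
* `s35_CoreNF N' q hq2 hqN'`  : the core over all such `(L1, φ1)`, ONE exponent `d` for fixed `(A, φ)`
                                (input of the descent cell [DESC-φ], output `s35_KeyBar N' q`);
* `s35_coreNF_of`             : `s35_AbelNF → s35_ToricNF → s35_CoreNF`.
Prefix `s35_`.
-/
import Mathlib
import Fermat.Agent.S35.Seams
import Fermat.Agent.SS.CoreNFLeg

set_option autoImplicit false
set_option linter.unusedSectionVars false
set_option linter.unusedVariables false
set_option linter.style.haveILetI false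

noncomputable section

namespace Fermat.Agent.S35

open ModularCurve AlgebraicCurve IsLocalRing Fermat.Agent.JT3 Fermat.Agent.S24 Fermat.Agent.SS

local notation "GQ" => (AlgebraicClosure ℚ ≃ₐ[ℚ] AlgebraicClosure ℚ)
local notation "Qb" => AlgebraicClosure ℚ

section NF

variable (N' q : ℕ) [NeZero N'] [NeZero q] [hq : Fact q.Prime] (hq2 : ¬ 2 ∣ q) (hqN' : ¬ q ∣ N')

/-- **[ABEL] over the unramified number fields** (Legendre cover): for every `A` over `q` there are
ONE exponent `d ≠ 0` and a finite set `T ⊆ Q̄` such that `s35_AbelAt … m d` holds over every number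
field `L1 ⊇ T` in which `q` is a uniformiser of `A ∩ L1`, for every `m` prime to `q` with
`ζ_m ∈ L1`. -/
def s35_AbelNF : Prop :=
  ∀ A : ValuationSubring Qb, A.LiesOverPrime q →
    ∃ d : ℕ, d ≠ 0 ∧ ∃ T : Finset Qb,
      ∀ L1 : IntermediateField ℚ Qb, FiniteDimensional ℚ L1 → (↑T : Set Qb) ⊆ L1 →
        ∀ [IsDiscreteValuationRing ↥(A.comap (algebraMap ↥L1 Qb))]
          [CharP (ResidueField ↥(A.comap (algebraMap ↥L1 Qb))) q]
          (hπ : Irreducible ((q : ℕ) : ↥(A.comap (algebraMap ↥L1 Qb)))),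
          ∀ m : ℕ, ¬ q ∣ m → (∃ ζ : ↥L1, IsPrimitiveRoot ζ m) →
            s35_AbelAt (A.comap (algebraMap ↥L1 Qb)) hπ N' q hq2 hqN' m d

/-- **[TORIC] over the unramified number fields** (Legendre cover): for every `A` over `q` and
every Frobenius element `φ` at `A` there is a finite set `T ⊆ Q̄` such that `s35_ToricAt … φ1 m`
holds over every number field `L1 ⊇ T` in which `q` is a uniformiser of `A ∩ L1`, for every ring
automorphism `φ1` of `L1` induced by `φ` and every `m` prime to `q` with `ζ_m ∈ L1`. -/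
def s35_ToricNF : Prop :=
  ∀ A : ValuationSubring Qb, A.LiesOverPrime q → ∀ φ : GQ, A.IsFrobeniusAt φ q →
    ∃ T : Finset Qb,
      ∀ L1 : IntermediateField ℚ Qb, FiniteDimensional ℚ L1 → (↑T : Set Qb) ⊆ L1 →
        ∀ [IsDiscreteValuationRing ↥(A.comap (algebraMap ↥L1 Qb))]
          [CharP (ResidueField ↥(A.comap (algebraMap ↥L1 Qb))) q]
          (hπ : Irreducible ((q : ℕ) : ↥(A.comap (algebraMap ↥L1 Qb)))),
          ∀ φ1 : ↥L1 ≃+* ↥L1, (∀ x : ↥L1, ((φ1 x : ↥L1) : Qb) = φ (x : Qb)) →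
            ∀ m : ℕ, ¬ q ∣ m → (∃ ζ : ↥L1, IsPrimitiveRoot ζ m) →
              s35_ToricAt (A.comap (algebraMap ↥L1 Qb)) hπ N' q hq2 hqN' φ1 m

/-- **The core over the unramified number fields** (Legendre cover): for every `A` over `q` and
every Frobenius element `φ` at `A` there are ONE exponent `d ≠ 0` and a finite set `T ⊆ Q̄` such
that `s35_CoreAt … φ1 m d` holds over every number field `L1 ⊇ T` in which `q` is a uniformiser of
`A ∩ L1`, for every `φ1` induced by `φ` and every `m` prime to `q` with `ζ_m ∈ L1`. -/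
def s35_CoreNF : Prop :=
  ∀ A : ValuationSubring Qb, A.LiesOverPrime q → ∀ φ : GQ, A.IsFrobeniusAt φ q →
    ∃ d : ℕ, d ≠ 0 ∧ ∃ T : Finset Qb,
      ∀ L1 : IntermediateField ℚ Qb, FiniteDimensional ℚ L1 → (↑T : Set Qb) ⊆ L1 →
        Irreducible ((q : ℕ) : ↥(A.comap (algebraMap ↥L1 Qb))) →
        ∀ φ1 : ↥L1 ≃+* ↥L1, (∀ x : ↥L1, ((φ1 x : ↥L1) : Qb) = φ (x : Qb)) →
          ∀ m : ℕ, ¬ q ∣ m → (∃ ζ : ↥L1, IsPrimitiveRoot ζ m) →
            s35_CoreAt (L := ↥L1) N' q hq2 hqN' φ1 m d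

/-- **The core over the unramified number fields from [ABEL] and [TORIC].** -/
theorem s35_coreNF_of (hA : s35_AbelNF N' q hq2 hqN') (hT : s35_ToricNF N' q hq2 hqN') :
    s35_CoreNF N' q hq2 hqN' := by
  classical
  intro A hAq φ hφ
  obtain ⟨d, hd, TA, hTA⟩ := hA A hAq
  obtain ⟨TT, hTT⟩ := hT A hAq φ hφ
  refine ⟨d, hd, TA ∪ TT, fun L1 hfd hsub hirr φ1 hφ1 m hqm hζ => ?_⟩
  have hsubA : (↑TA : Set Qb) ⊆ L1 := fun x hx => hsub (by
    rw [Finset.coe_union]; exact Or.inl hx)
  have hsubT : (↑TT : Set Qb) ⊆ L1 := fun x hx => hsub (by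
    rw [Finset.coe_union]; exact Or.inr hx)
  haveI : NumberField ↥L1 := { to_charZero := inferInstance, to_finiteDimensional := hfd }
  haveI hdvr : IsDiscreteValuationRing ↥(A.comap (algebraMap ↥L1 Qb)) :=
    dsc_isDVR_comap_numberField A q hAq hq.out.ne_zero ↥L1
  have hmem := lg_natCast_mem_maximalIdeal A hAq ↥L1
  haveI : CharP (IsLocalRing.ResidueField ↥(A.comap (algebraMap ↥L1 Qb))) q :=
    ss_nfl_charP_residue hmem
  exact s35_coreAt_of_abel_toric (A.comap (algebraMap ↥L1 Qb)) hirr N' q hq2 hqN' φ1 m d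
    (hTA L1 hfd hsubA hirr m hqm hζ) (hTT L1 hfd hsubT hirr φ1 hφ1 m hqm hζ)

end NF

end Fermat.Agent.S35
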