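/-
S35, cell (A2) of lead design note #24 (helper6): FINITENESS OF THE DIVISOR CLASSES FIXED BY A
FROBENIUS-SEMILINEAR AUTOMORPHISM.

`F / K` a function field over an algebraically closed field `K` with a separating generator `x`,
`g : SemilinearAut K F` acting on `K` by `c ↦ c ^ Q` (`Q ≥ 2`), fixing `x` and a place `v0`.  Then

* `fcl_finite_places`   : `g` fixes only finitely many places;
* `fcl_finite_divisors` : only finitely many effective divisors of degree `≤ n` are `g`-stable;
* `fcl_exists_stable_rep` : every `g`-fixed class of `Pic⁰` is the class of `E - n v0` with `E`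
                          effective, `g`-stable, of degree `n ≤ γ` (`γ` the genus bound);
* `fcl_finite`          : the `g`-fixed classes of `Pic⁰ K F` form a finite set;
* `fcl_exists_exponent` : they are killed by one positive integer.

(Instance: `K = F̄_q` the residue field of a valuation ring of `Q̄` over `q`,
`F = modularFunctionFieldFullC K N'`, `g` the coefficientwise `q²`-Frobenius, `v0` the cusp `∞`.)
Prefix `fcl_`.
-/
import Mathlib
import Fermat.Agent.JT3.Riemann.Main
import Fermat.Prelude.Def_AlgebraicCurve_BaseChangeGalois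

set_option autoImplicit false
set_option linter.unusedSectionVars false
set_option linter.unusedVariables false

namespace Fermat.Agent.S35

open AlgebraicCurve IntermediateField Polynomial Fermat.Agent.S24 Fermat.Agent.JT3

universe u v
variable {K : Type u} {F : Type v} [Field K] [Field F] [Algebra K F]

section basics

variable (g : SemilinearAut K F)

theorem fcl_pow_baseAut (Q : ℕ) (hK : ∀ c : K, SemilinearAut.baseAut g c = c ^ Q) (m : ℕ) (c : K) :
    SemilinearAut.baseAut (g ^ m) c = c ^ (Q ^ m) := by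
  induction m generalizing c with
  | zero => simp
  | succ m ih =>
    rw [pow_succ, SemilinearAut.baseAut_mul, RingAut.mul_apply, hK, ih, ← pow_mul, pow_succ,
      mul_comm]

theorem fcl_pow_smul_x {x : F} (hgx : g • x = x) (m : ℕ) : (g ^ m) • x = x := by
  induction m with
  | zero => simp
  | succ m ih => rw [pow_succ, mul_smul, hgx, ih]

theorem fcl_pow_smul_place {v : Place K F} (hv : g • v = v) (m : ℕ) : (g ^ m) • v = v := by
  induction m with
  | zero => simp
  | succ m ih => rw [pow_succ, mul_smul, hv, ih]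

/-- the fixed points of `c ↦ c ^ Q` form a finite set. -/
theorem fcl_finite_fixed_const (Q : ℕ) (hQ : 2 ≤ Q) : {a : K | a ^ Q = a}.Finite := by
  classical
  have hp : (X ^ Q - X : K[X]) ≠ 0 := by
    intro h
    have h1 := congrArg (fun p : K[X] => p.coeff Q) h
    simp only [coeff_sub, coeff_X_pow, if_true, coeff_zero] at h1
    rw [coeff_X, if_neg (by omega)] at h1
    simp at h1
  refine ((X ^ Q - X : K[X]).roots.toFinset.finite_toSet).subset ?_
  intro a ha
  rw [Finset.mem_coe, Multiset.mem_toFinset, mem_roots hp, IsRoot.def, eval_sub, eval_pow, eval_X,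
    sub_eq_zero]
  exact ha

end basics

section main

variable [IsAlgClosed K] {x : F} (hx : rt_IsSepGen K x) (g : SemilinearAut K F) (Q : ℕ)
  (hQ : 2 ≤ Q) (hK : ∀ c : K, SemilinearAut.baseAut g c = c ^ Q) (hgx : g • x = x)

include hx hQ hK hgx

/-- **`g` fixes only finitely many places.** -/
theorem fcl_finite_places : {v : Place K F | g • v = v}.Finite := by
  classical
  have := hx.isAlgebraic
  have hx0 : x ≠ 0 := by
    rintro rfl
    exact hx.1 isAlgebraic_zero
  have hroots := fcl_finite_fixed_const (K := K) Q hQ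
  refine ((rt_finite_poles hx x).union
    (hroots.biUnion fun a _ => rt_finite_zeros hx (x - algebraMap K F a))).subset ?_
  intro v hv
  have hv' : g • v = v := hv
  by_cases hneg : v.ord x < 0
  · exact Or.inl hneg
  right
  have hmem : x ∈ v.toValuationSubring := (hw_mem_iff_ord_nonneg v hx0).mpr (by omega)
  obtain ⟨a, ha | ha⟩ := hw_exists_const x v hmem
  · exact absurd (ha ▸ isAlgebraic_algebraMap a) hx.1
  -- apply `g`
  have h1 := SemilinearAut.ord_smul g v (x - algebraMap K F a)
  rw [hv', smul_sub, hgx, SemilinearAut.smul_algebraMap, hK] at h1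
  rw [Set.mem_iUnion₂]
  refine ⟨a, ?_, ha⟩
  by_contra hne
  have hne' : a ^ Q ≠ a := hne
  have hf0 : x - algebraMap K F a ≠ 0 := by
    intro h0
    rw [h0, Place.ord_zero] at ha
    exact lt_irrefl _ ha
  have hg0 : -(x - algebraMap K F (a ^ Q)) ≠ 0 := by
    intro h0
    rw [neg_eq_zero] at h0
    rw [h0, Place.ord_zero] at h1
    omega
  have hsum : (x - algebraMap K F a) + -(x - algebraMap K F (a ^ Q)) =
      algebraMap K F (a ^ Q - a) := by
    rw [map_sub]; ring
  have hsum0 : (x - algebraMap K F a) + -(x - algebraMap K F (a ^ Q)) ≠ 0 := by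
    rw [hsum]
    exact (map_ne_zero (algebraMap K F)).mpr (sub_ne_zero.mpr hne')
  have h2 := hw_ord_add_ge v hf0 hg0 hsum0
  rw [hsum, hw_ord_algebraMap, hw_ord_neg, h1] at h2
  have := le_min_iff.mp (le_refl (min (v.ord (x - algebraMap K F a)) (v.ord (x - algebraMap K F a))))
  rcases min_le_iff.mp h2 with h | h <;> omega

omit hQ hK hgx in
/-- multiplicities of an effective divisor of degree `≤ n`. -/
theorem fcl_apply_le {E : Divisor K F} (hE : 0 ≤ E) {n : ℕ} (hn : Divisor.degree E ≤ n)
    (v : Place K F) : E v ≤ n := by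
  classical
  have hsum := rt_degree_eq_sum hx E E.support (Finset.Subset.refl _)
  by_cases hv : v ∈ E.support
  · have h1 : E v ≤ ∑ w ∈ E.support, E w :=
      Finset.single_le_sum (f := fun w => E w) (fun w _ => Finsupp.le_def.mp hE w) hv
    omega
  · rw [Finsupp.notMem_support_iff] at hv
    rw [hv]
    exact_mod_cast Nat.zero_le n

omit hQ hK hgx in
/-- the support of an effective divisor of degree `≤ n` has at most `n` elements. -/
theorem fcl_card_support_le {E : Divisor K F} (hE : 0 ≤ E) {n : ℕ}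
    (hn : Divisor.degree E ≤ n) : E.support.card ≤ n := by
  classical
  have hsum := rt_degree_eq_sum hx E E.support (Finset.Subset.refl _)
  have h1 : ∑ _w ∈ E.support, (1 : ℤ) ≤ ∑ w ∈ E.support, E w := by
    apply Finset.sum_le_sum
    intro w hw
    have h2 : E w ≠ 0 := Finsupp.mem_support_iff.mp hw
    have h3 : 0 ≤ E w := Finsupp.le_def.mp hE w
    omega
  rw [Finset.sum_const, nsmul_eq_mul, mul_one] at h1
  have : (E.support.card : ℤ) ≤ n := by omega
  exact_mod_cast this

omit hx hQ hK hgx in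
/-- a `g`-stable divisor has a `g`-stable support. -/
theorem fcl_smul_mem_support {E : Divisor K F} (hgE : g • E = E) {v : Place K F}
    (hv : v ∈ E.support) : g • v ∈ E.support := by
  rw [Finsupp.mem_support_iff] at hv ⊢
  have h := SemilinearAut.divisor_smul_apply_smul g E v
  rw [hgE] at h
  rwa [h]

omit hx hQ hK hgx in
theorem fcl_pow_smul_mem_support {E : Divisor K F} (hgE : g • E = E) {v : Place K F}
    (hv : v ∈ E.support) (k : ℕ) : (g ^ k) • v ∈ E.support := by
  induction k with
  | zero => simpa using hv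
  | succ k ih =>
    rw [pow_succ', mul_smul]
    exact fcl_smul_mem_support g hgE ih

omit hQ hK hgx in
/-- the places in the support of a `g`-stable effective divisor of degree `≤ n` are fixed by
`g ^ n!`. -/
theorem fcl_factorial_fixed {E : Divisor K F} (hE : 0 ≤ E) {n : ℕ}
    (hn : Divisor.degree E ≤ n) (hgE : g • E = E) {v : Place K F} (hv : v ∈ E.support) :
    (g ^ n.factorial) • v = v := by
  classical
  have hcard := fcl_card_support_le hx hE hn
  -- pigeonhole on `k ↦ g ^ k • v`, `k ≤ n`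
  have hmaps : ∀ k ∈ Finset.range (n + 1), (g ^ k) • v ∈ E.support :=
    fun k _ => fcl_pow_smul_mem_support g hgE hv k
  have hlt : E.support.card < (Finset.range (n + 1)).card := by
    rw [Finset.card_range]; omega
  obtain ⟨i, hi, j, hj, hij, heq⟩ := Finset.exists_ne_map_eq_of_card_lt_of_maps_to hlt hmaps
  rw [Finset.mem_range] at hi hj
  -- wlog `i < j`
  have key : ∀ i j : ℕ, i < j → j ≤ n → (g ^ i) • v = (g ^ j) • v → (g ^ n.factorial) • v = v := by
    intro i j hlt' hjn h
    have hd : (g ^ (j - i)) • v = v := by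
      have h1 : (g ^ j) • v = (g ^ i) • ((g ^ (j - i)) • v) := by
        rw [← mul_smul, ← pow_add]
        congr 2
        omega
      rw [h1] at h
      exact (MulAction.injective (g ^ i) h).symm
    have hdvd : (j - i) ∣ n.factorial := Nat.dvd_factorial (by omega) (by omega)
    obtain ⟨c, hc⟩ := hdvd
    rw [hc, pow_mul]
    exact fcl_pow_smul_place (g ^ (j - i)) hd c
  rcases lt_or_gt_of_ne hij with h | h
  · exact key i j h (by omega) heq
  · exact key j i h (by omega) heq.symm

/-- **only finitely many effective divisors of degree `≤ n` are `g`-stable.** -/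
theorem fcl_finite_divisors (n : ℕ) :
    {E : Divisor K F | 0 ≤ E ∧ Divisor.degree E ≤ n ∧ g • E = E}.Finite := by
  classical
  have hfac : 1 ≤ n.factorial := Nat.factorial_pos n
  have hQ' : 2 ≤ Q ^ n.factorial :=
    le_trans hQ (Nat.le_self_pow (by omega) Q)
  have hS : {v : Place K F | (g ^ n.factorial) • v = v}.Finite :=
    fcl_finite_places hx (g ^ n.factorial) (Q ^ n.factorial) hQ'
      (fcl_pow_baseAut g Q hK n.factorial) (fcl_pow_smul_x g hgx n.factorial)
  have : Finite ↥{v : Place K F | (g ^ n.factorial) • v = v} := hS.to_subtype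
  set Φ : Divisor K F → (↥{v : Place K F | (g ^ n.factorial) • v = v} → ℤ) :=
    fun E v => E v.1 with hΦ
  have hfin : (Set.pi Set.univ fun _ : ↥{v : Place K F | (g ^ n.factorial) • v = v} =>
      Set.Icc (0 : ℤ) n).Finite := Set.Finite.pi fun _ => Set.finite_Icc 0 (n : ℤ)
  refine Set.Finite.of_finite_image (f := Φ) (hfin.subset ?_) ?_
  · rintro _ ⟨E, ⟨hE, hn, hgE⟩, rfl⟩
    rw [Set.mem_univ_pi]
    intro v
    exact ⟨Finsupp.le_def.mp hE v.1, fcl_apply_le hx hE hn v.1⟩
  · rintro E ⟨hE, hn, hgE⟩ E' ⟨hE', hn', hgE'⟩ h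
    ext v
    by_cases hv : (g ^ n.factorial) • v = v
    · exact congrFun h ⟨v, hv⟩
    · have h1 : v ∉ E.support := fun hs => hv (fcl_factorial_fixed hx g hE hn hgE hs)
      have h2 : v ∉ E'.support := fun hs => hv (fcl_factorial_fixed hx g hE' hn' hgE' hs)
      rw [Finsupp.notMem_support_iff] at h1 h2
      rw [h1, h2]

end main

section rep

variable [IsAlgClosed K] {x : F} (hx : rt_IsSepGen K x) (g : SemilinearAut K F)

include hx

/-- the divisor of `g • f`. -/
theorem fcl_div_smul (f : F) : rt_div hx (g • f) = g • rt_div hx f := by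
  ext v
  rw [rt_div_apply, SemilinearAut.divisor_smul_apply, rt_div_apply]
  have h := SemilinearAut.ord_smul g (g⁻¹ • v) f
  rw [smul_inv_smul] at h
  exact h

theorem fcl_div_const_smul {a : K} (ha : a ≠ 0) (f : F) : rt_div hx (a • f) = rt_div hx f := by
  rcases eq_or_ne f 0 with rfl | hf
  · rw [smul_zero]
  ext v
  rw [rt_div_apply, rt_div_apply, Algebra.smul_def,
    v.ord_mul ((map_ne_zero (algebraMap K F)).mpr ha) hf, hw_ord_algebraMap, zero_add]

/-- **the canonical stable representative** of a `g`-fixed class. -/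
theorem fcl_exists_stable_rep (v0 : Place K F) (hv0 : g • v0 = v0) :
    ∃ γ : ℕ, ∀ c : Pic0 K F, g • c = c →
      ∃ (n : ℕ) (E : Divisor K F)
        (hdeg : E - n • Finsupp.single v0 (1 : ℤ) ∈ Divisor.degZero (K := K) (F := F)),
        n ≤ γ ∧ 0 ≤ E ∧ Divisor.degree E = n ∧ g • E = E ∧
          c = Pic0.mk ⟨E - n • Finsupp.single v0 (1 : ℤ), hdeg⟩ := by
  classical
  obtain ⟨γ, hγ⟩ := rt_riemann_ineq hx
  refine ⟨γ, fun c hc => ?_⟩
  obtain ⟨⟨D, hD⟩, rfl⟩ := Pic0.mk_surjective c
  have hD0 : Divisor.degree D = 0 := Divisor.mem_degZero.mp hD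
  have hdegA : ∀ m : ℕ, Divisor.degree (D + m • Finsupp.single v0 (1 : ℤ)) = m := by
    intro m
    rw [map_add, map_nsmul, rt_degree_single hx, hD0, zero_add, nsmul_eq_mul, mul_one]
  -- the minimal `n`
  have hPγ : 0 < Module.finrank K ↥(riemannRochSpace (D + γ • Finsupp.single v0 (1 : ℤ))) := by
    have h1 := hγ (D + γ • Finsupp.single v0 (1 : ℤ))
    rw [hdegA] at h1
    have : (0 : ℤ) < (Module.finrank K
        ↥(riemannRochSpace (D + γ • Finsupp.single v0 (1 : ℤ))) : ℤ) := by omega
    exact_mod_cast this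
  let P : ℕ → Prop := fun m =>
    0 < Module.finrank K ↥(riemannRochSpace (D + m • Finsupp.single v0 (1 : ℤ)))
  have hex : ∃ m, P m := ⟨γ, hPγ⟩
  obtain ⟨n, hPn, hmin⟩ : ∃ n, P n ∧ ∀ m < n, ¬ P m :=
    ⟨Nat.find hex, Nat.find_spec hex, fun m hm => Nat.find_min hex hm⟩
  have hnγ : n ≤ γ := by
    by_contra hlt
    exact hmin γ (by omega) hPγ
  obtain ⟨A, hA⟩ : ∃ A : Divisor K F, A = D + n • Finsupp.single v0 (1 : ℤ) := ⟨_, rfl⟩
  obtain ⟨A', hA'⟩ : ∃ A' : Divisor K F, A' = A - Finsupp.single v0 (1 : ℤ) := ⟨_, rfl⟩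
  have hAA' : A = A' + Finsupp.single v0 (1 : ℤ) := by rw [hA', sub_add_cancel]
  have hPn' : 0 < Module.finrank K ↥(riemannRochSpace A) := by rw [hA]; exact hPn
  -- `L(A') = 0`
  have hLA' : ∀ f' ∈ riemannRochSpace A', f' = 0 := by
    intro f' hf'
    rcases Nat.eq_zero_or_pos n with h0 | hpos
    · have hdeg : Divisor.degree A' < 0 := by
        rw [hA', map_sub, hA, hdegA, rt_degree_single hx, h0]
        norm_num
      have := rt_L_eq_bot_of_degree_neg hx hdeg
      rw [this, Submodule.mem_bot] at hf'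
      exact hf'
    · obtain ⟨m, hm⟩ : ∃ m, n = m + 1 := ⟨n - 1, by omega⟩
      have hA'm : A' = D + m • Finsupp.single v0 (1 : ℤ) := by
        rw [hA', hA, hm, succ_nsmul]
        abel
      have hnot : ¬ P m := hmin m (by omega)
      by_contra hf0
      apply hnot
      show 0 < Module.finrank K ↥(riemannRochSpace (D + m • Finsupp.single v0 (1 : ℤ)))
      rw [← hA'm]
      have := rt_L_finite hx A'
      exact Module.finrank_pos_iff_exists_ne_zero.mpr
        ⟨⟨f', hf'⟩, fun h => hf0 (congrArg Subtype.val h)⟩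
  -- `L(A)` is a line
  obtain ⟨h, hh⟩ := rt_L_step hx A' v0
  rw [← hAA'] at hh
  have hline : ∀ f' ∈ riemannRochSpace A, ∃ b : K, f' = b • h := by
    intro f' hf'
    obtain ⟨y, hy, z, hz, rfl⟩ := Submodule.mem_sup.mp (hh hf')
    obtain ⟨b, rfl⟩ := Submodule.mem_span_singleton.mp hz
    exact ⟨b, by rw [hLA' y hy, zero_add]⟩
  have := rt_L_finite hx A
  obtain ⟨⟨f, hfmem⟩, hf0'⟩ := Module.finrank_pos_iff_exists_ne_zero.mp hPn'
  have hf0 : f ≠ 0 := fun h0 => hf0' (Subtype.ext h0)
  obtain ⟨b, hb⟩ := hline f hfmem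
  have hb0 : b ≠ 0 := by
    rintro rfl
    rw [zero_smul] at hb
    exact hf0 hb
  have hline' : ∀ f' ∈ riemannRochSpace A, ∃ a : K, f' = a • f := by
    intro f' hf'
    obtain ⟨b', rfl⟩ := hline f' hf'
    refine ⟨b' * b⁻¹, ?_⟩
    rw [hb, smul_smul, mul_assoc, inv_mul_cancel₀ hb0, mul_one]
  -- the effective divisor
  obtain ⟨E, hE⟩ : ∃ E : Divisor K F, E = A + rt_div hx f := ⟨_, rfl⟩
  have hE0 : 0 ≤ E := by
    rw [Finsupp.le_def]
    intro v
    have := (rt_mem_L_iff hf0).mp hfmem v
    rw [Finsupp.zero_apply, hE, Finsupp.add_apply, rt_div_apply]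
    omega
  have hEdeg : Divisor.degree E = n := by
    rw [hE, map_add, rt_degree_div, add_zero, hA, hdegA]
  have hEn : E - n • Finsupp.single v0 (1 : ℤ) = D + rt_div hx f := by
    rw [hE, hA]; abel
  have hdegZ : E - n • Finsupp.single v0 (1 : ℤ) ∈ Divisor.degZero (K := K) (F := F) := by
    rw [Divisor.mem_degZero, hEn, map_add, hD0, rt_degree_div, add_zero]
  -- the relation from `g • c = c`
  have hrel : ∃ h0 : F, h0 ≠ 0 ∧ ∀ v : Place K F, (-(g • D) + D) v = v.ord h0 := by
    rw [SemilinearAut.pic0_smul_mk] at hc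
    have h1 := (QuotientAddGroup.eq).mp hc
    rw [AddSubgroup.mem_addSubgroupOf] at h1
    obtain ⟨h0, hh0, hh⟩ := h1
    refine ⟨h0, hh0, fun v => ?_⟩
    rw [← hh v]
    rfl
  obtain ⟨h0, hh0, hrel⟩ := hrel
  have hgf0 : g • f ≠ 0 := by
    intro h
    apply hf0
    have := congrArg (g⁻¹ • ·) h
    simpa using this
  -- `(g • f) / h0 ∈ L(A)`
  have hgA : g • A = g • D + n • Finsupp.single v0 (1 : ℤ) := by
    rw [hA, smul_add, smul_comm g n, SemilinearAut.smul_single, hv0]
  have hf1mem : (g • f) * h0⁻¹ ∈ riemannRochSpace A := by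
    rw [rt_mem_L_iff (mul_ne_zero hgf0 (inv_ne_zero hh0))]
    intro v
    rw [v.ord_mul hgf0 (inv_ne_zero hh0), v.ord_inv]
    have h1 := (rt_mem_L_iff hf0).mp hfmem (g⁻¹ • v)
    have h2 := SemilinearAut.ord_smul g (g⁻¹ • v) f
    rw [smul_inv_smul] at h2
    have h3 : (g • A) v = A (g⁻¹ • v) := SemilinearAut.divisor_smul_apply g A v
    have h4 := hrel v
    rw [Finsupp.add_apply, Finsupp.neg_apply] at h4
    have h5 : (g • A) v = (g • D) v + (n • Finsupp.single v0 (1 : ℤ)) v := by
      rw [hgA, Finsupp.add_apply]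
    have h6 : A v = D v + (n • Finsupp.single v0 (1 : ℤ)) v := by
      rw [hA, Finsupp.add_apply]
    omega
  obtain ⟨a, ha⟩ := hline' _ hf1mem
  have ha0 : a ≠ 0 := by
    rintro rfl
    rw [zero_smul] at ha
    exact mul_ne_zero hgf0 (inv_ne_zero hh0) ha
  have hgf : g • f = (a • f) * h0 := by
    rw [← ha, mul_assoc, inv_mul_cancel₀ hh0, mul_one]
  have hdivh0 : rt_div hx h0 = -(g • D) + D := by
    ext v
    rw [rt_div_apply, hrel v]
  have hgE : g • E = E := by
    rw [hE, smul_add, ← fcl_div_smul hx g f, hgf,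
      rt_div_mul hx (smul_ne_zero ha0 hf0) hh0, fcl_div_const_smul hx ha0, hdivh0, hgA, hA]
    abel
  refine ⟨n, E, hdegZ, hnγ, hE0, hEdeg, hgE, ?_⟩
  apply (QuotientAddGroup.eq).mpr
  rw [AddSubgroup.mem_addSubgroupOf]
  refine ⟨f, hf0, fun v => ?_⟩
  show (-D + (E - n • Finsupp.single v0 (1 : ℤ))) v = v.ord f
  rw [hEn, neg_add_cancel_left, rt_div_apply]

end rep

section final

variable [IsAlgClosed K] {x : F} (hx : rt_IsSepGen K x) (g : SemilinearAut K F) (Q : ℕ)
  (hQ : 2 ≤ Q) (hK : ∀ c : K, SemilinearAut.baseAut g c = c ^ Q) (hgx : g • x = x)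
  (v0 : Place K F) (hv0 : g • v0 = v0)

include hx hQ hK hgx hv0

/-- **the `g`-fixed classes of `Pic⁰` form a finite set.** -/
theorem fcl_finite : {c : Pic0 K F | g • c = c}.Finite := by
  classical
  obtain ⟨γ, hγ⟩ := fcl_exists_stable_rep hx g v0 hv0
  have hfinE := fcl_finite_divisors hx g Q hQ hK hgx γ
  let cls : ℕ × Divisor K F → Pic0 K F := fun p =>
    if h : p.2 - p.1 • Finsupp.single v0 (1 : ℤ) ∈ Divisor.degZero (K := K) (F := F) then
      Pic0.mk ⟨_, h⟩ else 0
  have hfin : ((Finset.range (γ + 1) : Set ℕ) ×ˢ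
      {E : Divisor K F | 0 ≤ E ∧ Divisor.degree E ≤ γ ∧ g • E = E}).Finite :=
    (Finset.finite_toSet _).prod hfinE
  refine (hfin.image cls).subset ?_
  intro c hc
  obtain ⟨n, E, hdeg, hn, hE0, hEdeg, hgE, rfl⟩ := hγ c hc
  refine ⟨(n, E), ⟨?_, hE0, ?_, hgE⟩, ?_⟩
  · simp only [Finset.coe_range, Set.mem_Iio]
    omega
  · rw [hEdeg]
    exact_mod_cast hn
  · simp only [cls]
    rw [dif_pos hdeg]

/-- **the `g`-fixed classes of `Pic⁰` are killed by one positive integer.** -/
theorem fcl_exists_exponent : ∃ h : ℕ, 1 ≤ h ∧ ∀ c : Pic0 K F, g • c = c → h • c = 0 := by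
  classical
  let H : AddSubgroup (Pic0 K F) :=
    { carrier := {c | g • c = c}
      zero_mem' := smul_zero g
      add_mem' := fun {a b} ha hb => by
        show g • (a + b) = a + b
        rw [smul_add, ha, hb]
      neg_mem' := fun {a} ha => by
        show g • (-a) = -a
        rw [smul_neg, ha] }
  have hfin : Finite H := (fcl_finite hx g Q hQ hK hgx v0 hv0).to_subtype
  refine ⟨Nat.card H, Nat.card_pos, fun c hc => ?_⟩
  have h1 : Nat.card H • (⟨c, hc⟩ : H) = 0 := card_nsmul_eq_zero'
  have h2 : ((Nat.card H • (⟨c, hc⟩ : H) : H) : Pic0 K F) = ((0 : H) : Pic0 K F) :=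
    congrArg Subtype.val h1
  rwa [AddSubgroup.coe_nsmul, AddSubgroup.coe_zero] at h2

end final

end Fermat.Agent.S35
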