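/-
Project S35, cell [DESC-U] (helper9; function-field half: helper22, `SS2/DescU.lean`):
THE UNRAMIFIED DESCENT, final form for `X₀(N)`.

`A` a valuation subring of `Q̄` over `q`, `I_A` its inertia group, `m ≥ 1`, `T ⊆ Q̄^{I_A}` finite.
For finitely many `f_i ∈ Q̄(X₀(N))ˣ` with all orders divisible by `m` whose Kummer classes are fixed
by `I_A` (`s f_i = c · r^m · f_i` for every `s ∈ I_A`) there is ONE level `L1 ⊆ Q̄`
(`s35d_IsLevel A q L1`: a number field fixed pointwise by `I_A`, stable under `D_A`, with `A ∩ L1`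
a discrete valuation ring with uniformiser `q`), `T ⊆ L1`, such that every `f_i` is
`c_i · r_i^m · bc(g_i)` with `g_i ∈ L1(X₀(N))ˣ`, all orders of `g_i` divisible by `m`.

* `s35d_fix_of_factor` : `τ = s` on a field of definition of `f` ⟹ `τ f = s f`;
* `s35d_descU_family`  : the statement for a finite family;
* `s35d_descU`         : the statement for one `f`.
Prefix `s35d_`.
-/
import Mathlib
import Fermat.Agent.S35.DescU.InertiaField
import Fermat.Agent.SS2.DescU
import Fermat.Agent.SS.Descent.Rational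

set_option autoImplicit false
set_option linter.unusedSectionVars false

noncomputable section

namespace Fermat.Agent.S35

open ModularCurve AlgebraicCurve Fermat.Agent.FF Fermat.Agent.JT3 Fermat.Agent.SS
  Fermat.Agent.SS2 IntermediateField

local notation "Qb" => AlgebraicClosure ℚ
local notation "GQ" => (AlgebraicClosure ℚ ≃ₐ[ℚ] AlgebraicClosure ℚ)

/-- if `τ` and `s` agree on a finite set of constants over which `y ∈ F_Q̄` is defined, then
`τ y = s y`. -/
theorem s35d_fix_of_factor (F₀ : IntermediateField ℚ (LaurentSeries ℚ))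
    (y : laurentBaseChange Qb F₀) (S : Finset Qb)
    (hS : ∀ τ : GQ, (∀ x ∈ S, τ x = x) → arithmeticGalois F₀ τ • y = y)
    (τ s : GQ) (h : ∀ x ∈ S, τ x = s x) :
    arithmeticGalois F₀ τ • y = arithmeticGalois F₀ s • y := by
  have h1 : arithmeticGalois F₀ (s⁻¹ * τ) • y = y := by
    apply hS
    intro x hx
    rw [AlgEquiv.mul_apply, h x hx, AlgEquiv.aut_inv, AlgEquiv.symm_apply_apply]
  have h2 : τ = s * (s⁻¹ * τ) := by group
  rw [h2, map_mul, mul_smul, h1]

/-- **[DESC-U] for a finite family.** -/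
theorem s35d_descU_family (N : ℕ) [NeZero N] (q : ℕ) [Fact q.Prime]
    (A : ValuationSubring Qb) (hA : A.LiesOverPrime q)
    (T : Finset Qb) (hT : ∀ t ∈ T, ∀ s ∈ A.inertiaSubgroupIn ℚ, s t = t)
    {m : ℕ} (hm : m ≠ 0) {ι : Type*} [Finite ι] (f : ι → modularFunctionFieldBar N)
    (hf : ∀ i, f i ≠ 0)
    (hord : ∀ i, ∀ v : Place Qb (modularFunctionFieldBar N), (m : ℤ) ∣ v.ord (f i))
    (hfix : ∀ i, ∀ s ∈ A.inertiaSubgroupIn ℚ,
      ∃ (c : Qb) (r : modularFunctionFieldBar N), c ≠ 0 ∧ r ≠ 0 ∧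
        arithmeticGalois (modularFunctionFieldFull N) s • f i =
          algebraMap Qb (modularFunctionFieldBar N) c * r ^ m * f i) :
    ∃ L1 : IntermediateField ℚ Qb, s35d_IsLevel A q L1 ∧ (↑T : Set Qb) ⊆ L1 ∧
      ∀ i, ∃ (g1 : laurentBaseChange L1 (modularFunctionFieldFull N)) (c : Qb)
        (r : modularFunctionFieldBar N), g1 ≠ 0 ∧ c ≠ 0 ∧ r ≠ 0 ∧
        f i = algebraMap Qb (modularFunctionFieldBar N) c * r ^ m *
          dsc_bcHom L1 Qb (modularFunctionFieldFull N) g1 ∧
        ∀ w : Place L1 (laurentBaseChange L1 (modularFunctionFieldFull N)),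
          (m : ℤ) ∣ w.ord g1 := by
  classical
  have _ : Fintype ι := Fintype.ofFinite ι
  -- fields of definition
  have hdef : ∀ i, ∃ S : Finset Qb, ∀ τ : GQ, (∀ x ∈ S, τ x = x) →
      arithmeticGalois (modularFunctionFieldFull N) τ • f i = f i :=
    fun i => ssd_exists_fix (modularFunctionFieldFull N) (f i)
  choose Sf hSf using hdef
  obtain ⟨L2, L1, -, -, hS2, -, hlev, hTL1, hfac⟩ := s35d_exists_level A q hA
    (Finset.univ.biUnion Sf) T (fun t ht => ffi_mem_L.2 (hT t ht))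
  refine ⟨L1, hlev, hTL1, fun i => ?_⟩
  refine ss2_du_descend_X0 N L1 hm (hf i) (hord i) ?_
  intro τ hτ
  obtain ⟨s, hs, hτs⟩ := hfac τ (fun a ha => hτ ⟨a, ha⟩)
  have h1 : arithmeticGalois (modularFunctionFieldFull N) τ • f i =
      arithmeticGalois (modularFunctionFieldFull N) s • f i := by
    refine s35d_fix_of_factor (modularFunctionFieldFull N) (f i) (Sf i) (hSf i) τ s ?_
    intro x hx
    refine hτs x (hS2 ?_)
    rw [Finset.mem_coe, Finset.mem_biUnion]
    exact ⟨i, Finset.mem_univ i, hx⟩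
  rw [h1]
  exact hfix i s hs

/-- **[DESC-U].**  `f ∈ Q̄(X₀(N))ˣ` with all orders divisible by `m` and Kummer class fixed by the
inertia group `I_A` descends, up to a constant and an `m`-th power, to an unramified level
`L1 ⊇ T`. -/
theorem s35d_descU (N : ℕ) [NeZero N] (q : ℕ) [Fact q.Prime]
    (A : ValuationSubring Qb) (hA : A.LiesOverPrime q)
    (T : Finset Qb) (hT : ∀ t ∈ T, ∀ s ∈ A.inertiaSubgroupIn ℚ, s t = t)
    {m : ℕ} (hm : m ≠ 0) {f : modularFunctionFieldBar N} (hf : f ≠ 0)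
    (hord : ∀ v : Place Qb (modularFunctionFieldBar N), (m : ℤ) ∣ v.ord f)
    (hfix : ∀ s ∈ A.inertiaSubgroupIn ℚ,
      ∃ (c : Qb) (r : modularFunctionFieldBar N), c ≠ 0 ∧ r ≠ 0 ∧
        arithmeticGalois (modularFunctionFieldFull N) s • f =
          algebraMap Qb (modularFunctionFieldBar N) c * r ^ m * f) :
    ∃ L1 : IntermediateField ℚ Qb, s35d_IsLevel A q L1 ∧ (↑T : Set Qb) ⊆ L1 ∧
      ∃ (g1 : laurentBaseChange L1 (modularFunctionFieldFull N)) (c : Qb)
        (r : modularFunctionFieldBar N), g1 ≠ 0 ∧ c ≠ 0 ∧ r ≠ 0 ∧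
        f = algebraMap Qb (modularFunctionFieldBar N) c * r ^ m *
          dsc_bcHom L1 Qb (modularFunctionFieldFull N) g1 ∧
        ∀ w : Place L1 (laurentBaseChange L1 (modularFunctionFieldFull N)),
          (m : ℤ) ∣ w.ord g1 := by
  obtain ⟨L1, h1, h2, h3⟩ := s35d_descU_family N q A hA T hT hm (fun _ : Unit => f)
    (fun _ => hf) (fun _ => hord) (fun _ => hfix)
  exact ⟨L1, h1, h2, h3 ()⟩

end Fermat.Agent.S35
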