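/-
S35, cell [ABEL] of [TOR-T] in ABSTRACT form (helper13; critique #1990, architecture note #2162).
Prefix `s35a_`.

Context of `S35/FixedClasses.lean` (`fcl_*`): `F / K` a function field over an algebraically closed
field with a separating generator `x`, `g : SemilinearAut K F` acting on `K` by `c ↦ c ^ Q`
(`Q ≥ 2`; the coefficientwise `q`-Frobenius), fixing `x` and a place `v0`.

`s35a_abel` : there is ONE integer `E ≥ 1` such that for every `m ≥ 1` and all `u₁ u₂ ∈ Fˣ` whose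
divisors are divisible by `m` and which satisfy the two NORM RELATIONS
  `u₁ · (g • u₂) = c · h ^ m`,  `(g • u₁) · u₂ = c' · h' ^ m`
(the outputs of [NEW] + [RED-N]: the reductions of `Norm_α`, `Norm_β` of a Kummer generator of a
class in the new part), both `u_i ^ E` are constants times `m`-th powers.
[The classes `c_i` of `(1/m) div u_i` satisfy `c₁ + g c₂ = 0 = g c₁ + c₂`, so `g² c_i = c_i`, and the
`g²`-fixed classes are killed by one integer (`fcl_exists_exponent`).]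
-/
import Mathlib
import Fermat.Agent.S35.FixedClasses

set_option autoImplicit false
set_option linter.unusedSectionVars false
set_option linter.unusedVariables false

namespace Fermat.Agent.S35

open AlgebraicCurve Fermat.Agent.S24 Fermat.Agent.JT3

universe u v
variable {K : Type u} {F : Type v} [Field K] [Field F] [Algebra K F]

/-! ### the Kummer dictionary -/

theorem s35a_mk_eq_zero_iff {D : Divisor.degZero (K := K) (F := F)} :
    Pic0.mk D = 0 ↔ (D : Divisor K F) ∈ Divisor.principal (K := K) (F := F) := by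
  rw [Pic0.mk, QuotientAddGroup.eq_zero_iff, AddSubgroup.mem_addSubgroupOf]

theorem s35a_nsmul_injective {m : ℕ} (hm : 1 ≤ m) {D D' : Divisor K F} (h : m • D = m • D') :
    D = D' := by
  ext v
  have h1 := DFunLike.congr_fun h v
  rw [Finsupp.smul_apply, Finsupp.smul_apply, nsmul_eq_mul, nsmul_eq_mul] at h1
  have hm' : (m : ℤ) ≠ 0 := by exact_mod_cast (by omega : m ≠ 0)
  exact mul_left_cancel₀ hm' h1

section kummer

variable [IsAlgClosed K] {x : F} (hx : rt_IsSepGen K x)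

include hx

theorem s35a_div_pow (f : F) (n : ℕ) : rt_div hx (f ^ n) = n • rt_div hx f := by
  ext v
  rw [rt_div_apply, Finsupp.smul_apply, rt_div_apply, rt_ord_pow, nsmul_eq_mul]

theorem s35a_div_const_smul {a : K} (ha : a ≠ 0) (f : F) : rt_div hx (a • f) = rt_div hx f := by
  rcases eq_or_ne f 0 with rfl | hf
  · rw [smul_zero]
  ext v
  rw [rt_div_apply, rt_div_apply, Algebra.smul_def,
    v.ord_mul ((map_ne_zero (algebraMap K F)).mpr ha) hf, hw_ord_algebraMap, zero_add]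

/-- two functions with the same divisor differ by a nonzero constant. -/
theorem s35a_eq_smul_of_div_eq {f f' : F} (hf : f ≠ 0) (hf' : f' ≠ 0)
    (h : rt_div hx f = rt_div hx f') : ∃ a : K, a ≠ 0 ∧ f = a • f' := by
  have hq : f / f' ≠ 0 := div_ne_zero hf hf'
  have hmem : ∀ v : Place K F, f / f' ∈ v.toValuationSubring := by
    intro v
    rw [hw_mem_iff_ord_nonneg v hq, div_eq_mul_inv, v.ord_mul hf (inv_ne_zero hf'), v.ord_inv]
    have h1 := DFunLike.congr_fun h v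
    rw [rt_div_apply, rt_div_apply] at h1
    omega
  obtain ⟨a, ha⟩ := rt_const_of_forall_mem hx (f / f') hmem
  have ha0 : a ≠ 0 := by
    rintro rfl
    rw [map_zero] at ha
    exact hq ha
  refine ⟨a, ha0, ?_⟩
  rw [Algebra.smul_def, ← ha, div_mul_cancel₀ f hf']

/-- `div u = m D`, `m ≥ 1` ⟹ `deg D = 0`. -/
theorem s35a_mem_degZero {m : ℕ} (hm : 1 ≤ m) {f : F} {D : Divisor K F}
    (h : rt_div hx f = m • D) : D ∈ Divisor.degZero (K := K) (F := F) := by
  rw [Divisor.mem_degZero]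
  have h1 := rt_degree_div hx f
  rw [h, map_nsmul, nsmul_eq_mul] at h1
  have hm' : (m : ℤ) ≠ 0 := by exact_mod_cast (by omega : m ≠ 0)
  exact (mul_eq_zero.mp h1).resolve_left hm'

/-- **Kummer**: if `E · [(1/m) div u] = 0` in `Pic⁰` then `u ^ E` is a constant times an `m`-th
power. -/
theorem s35a_pow_of_nsmul_eq_zero {m : ℕ} {f : F} (hf : f ≠ 0) {D : Divisor K F}
    (h : rt_div hx f = m • D) (hD : D ∈ Divisor.degZero (K := K) (F := F)) (E : ℕ)
    (hE : E • Pic0.mk ⟨D, hD⟩ = 0) :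
    ∃ (a : K) (w : F), a ≠ 0 ∧ w ≠ 0 ∧ f ^ E = a • w ^ m := by
  have h1 : E • Pic0.mk (⟨D, hD⟩ : Divisor.degZero (K := K) (F := F))
      = Pic0.mk (E • (⟨D, hD⟩ : Divisor.degZero (K := K) (F := F))) := rfl
  rw [h1, s35a_mk_eq_zero_iff] at hE
  obtain ⟨w, hw0, hw⟩ := hE
  have hdivw : rt_div hx w = E • D := by
    ext v
    rw [rt_div_apply]
    exact (hw v).symm
  have hdiv : rt_div hx (f ^ E) = rt_div hx (w ^ m) := by
    rw [s35a_div_pow, s35a_div_pow, h, hdivw, smul_smul, smul_smul, mul_comm]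
  obtain ⟨a, ha0, ha⟩ := s35a_eq_smul_of_div_eq hx (pow_ne_zero _ hf) (pow_ne_zero _ hw0) hdiv
  exact ⟨a, w, ha0, hw0, ha⟩

end kummer

/-! ### [ABEL] -/

section abel

variable [IsAlgClosed K] {x : F} (hx : rt_IsSepGen K x) (g : SemilinearAut K F) (Q : ℕ)
  (hQ : 2 ≤ Q) (hK : ∀ c : K, SemilinearAut.baseAut g c = c ^ Q) (hgx : g • x = x)
  (v0 : Place K F) (hv0 : g • v0 = v0)

include hx hQ hK hgx hv0

theorem s35a_abel :
    ∃ E : ℕ, 1 ≤ E ∧ ∀ m : ℕ, 1 ≤ m → ∀ (u₁ u₂ h h' : F) (c c' : K) (D₁ D₂ : Divisor K F),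
      u₁ ≠ 0 → u₂ ≠ 0 → rt_div hx u₁ = m • D₁ → rt_div hx u₂ = m • D₂ →
      u₁ * (g • u₂) = c • h ^ m → (g • u₁) * u₂ = c' • h' ^ m →
      (∃ (a : K) (w : F), a ≠ 0 ∧ w ≠ 0 ∧ u₁ ^ E = a • w ^ m) ∧
        ∃ (a : K) (w : F), a ≠ 0 ∧ w ≠ 0 ∧ u₂ ^ E = a • w ^ m := by
  have hQ2 : 2 ≤ Q ^ 2 := by nlinarith
  obtain ⟨E, hE1, hE⟩ := fcl_exists_exponent hx (g ^ 2) (Q ^ 2) hQ2
    (fun c => fcl_pow_baseAut g Q hK 2 c) (fcl_pow_smul_x g hgx 2) v0
    (fcl_pow_smul_place g hv0 2)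
  refine ⟨E, hE1, ?_⟩
  intro m hm u₁ u₂ h h' c c' D₁ D₂ hu₁ hu₂ hd₁ hd₂ hR1 hR2
  have hgu₁ : g • u₁ ≠ 0 := fun h0 => hu₁ ((smul_eq_zero_iff_eq g).mp h0)
  have hgu₂ : g • u₂ ≠ 0 := fun h0 => hu₂ ((smul_eq_zero_iff_eq g).mp h0)
  -- `c, c', h, h' ≠ 0`
  have hch : c • h ^ m ≠ 0 := by rw [← hR1]; exact mul_ne_zero hu₁ hgu₂
  have hch' : c' • h' ^ m ≠ 0 := by rw [← hR2]; exact mul_ne_zero hgu₁ hu₂
  have hc : c ≠ 0 := fun h0 => hch (by rw [h0, zero_smul])
  have hc' : c' ≠ 0 := fun h0 => hch' (by rw [h0, zero_smul])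
  have hh : h ≠ 0 := by
    rintro rfl
    exact hch (by rw [zero_pow (by omega), smul_zero])
  have hh' : h' ≠ 0 := by
    rintro rfl
    exact hch' (by rw [zero_pow (by omega), smul_zero])
  -- the divisor relations
  have hrel1 : D₁ + g • D₂ = rt_div hx h := by
    apply s35a_nsmul_injective hm
    have := congrArg (rt_div hx) hR1
    rw [rt_div_mul hx hu₁ hgu₂, fcl_div_smul hx g, s35a_div_const_smul hx hc, s35a_div_pow, hd₁,
      hd₂] at this
    rw [smul_add, ← this, smul_comm]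
  have hrel2 : g • D₁ + D₂ = rt_div hx h' := by
    apply s35a_nsmul_injective hm
    have := congrArg (rt_div hx) hR2
    rw [rt_div_mul hx hgu₁ hu₂, fcl_div_smul hx g, s35a_div_const_smul hx hc', s35a_div_pow, hd₁,
      hd₂] at this
    rw [smul_add, ← this, smul_comm]
  have hD₁ := s35a_mem_degZero hx hm hd₁
  have hD₂ := s35a_mem_degZero hx hm hd₂
  set c₁ : Pic0 K F := Pic0.mk ⟨D₁, hD₁⟩ with hc₁
  set c₂ : Pic0 K F := Pic0.mk ⟨D₂, hD₂⟩ with hc₂
  have hP1 : c₁ + g • c₂ = 0 := by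
    rw [hc₁, hc₂, SemilinearAut.pic0_smul_mk, ← Pic0.mk_add, s35a_mk_eq_zero_iff]
    show D₁ + g • D₂ ∈ Divisor.principal (K := K) (F := F)
    rw [hrel1]
    exact rt_div_isPrincipal hx hh
  have hP2 : g • c₁ + c₂ = 0 := by
    rw [hc₁, hc₂, SemilinearAut.pic0_smul_mk, ← Pic0.mk_add, s35a_mk_eq_zero_iff]
    show g • D₁ + D₂ ∈ Divisor.principal (K := K) (F := F)
    rw [hrel2]
    exact rt_div_isPrincipal hx hh'
  have hfix₁ : (g ^ 2) • c₁ = c₁ := by
    have e1 : g • c₁ = -c₂ := eq_neg_of_add_eq_zero_left hP2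
    have e2 : g • c₂ = -c₁ := eq_neg_of_add_eq_zero_right hP1
    rw [pow_two, mul_smul, e1, smul_neg, e2, neg_neg]
  have hfix₂ : (g ^ 2) • c₂ = c₂ := by
    have e1 : g • c₁ = -c₂ := eq_neg_of_add_eq_zero_left hP2
    have e2 : g • c₂ = -c₁ := eq_neg_of_add_eq_zero_right hP1
    rw [pow_two, mul_smul, e2, smul_neg, e1, neg_neg]
  exact ⟨s35a_pow_of_nsmul_eq_zero hx hu₁ hd₁ hD₁ E (hE c₁ hfix₁),
    s35a_pow_of_nsmul_eq_zero hx hu₂ hd₂ hD₂ E (hE c₂ hfix₂)⟩

end abel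

end Fermat.Agent.S35
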