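/-
S35, cell [ABEL] continued (helper13): THE FIXED-PLACE HYPOTHESIS IS NOT NEEDED.

Context of `S35/FixedClasses.lean` / `S35/Abel.lean`: `F / K` a function field over an algebraically
closed field with separating generator `x`, `g : SemilinearAut K F` acting on `K` by `c ↦ c ^ Q`
(`Q ≥ 2`) and fixing `x`.  The poles of `x` form a finite nonempty `g`-stable set of places, so
some power `g ^ n` (`n ≥ 1`) fixes a pole `v0` of `x`; a `g`-fixed class is `g ^ n`-fixed and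
`g ^ n` is `Q ^ n`-Frobenius-semilinear, so `fcl_exists_exponent` applies to `g ^ n`:

* `s35b_exists_pow_fixed_place` : `∃ n ≥ 1, ∃ v0, (g ^ n) • v0 = v0`;
* `s35b_exists_exponent`        : the `g`-fixed classes of `Pic⁰` are killed by one integer `h ≥ 1`
                                  (NO fixed place assumed);
* `s35b_exists_div`             : `(m : ℤ) ∣ v.ord u` for all `v` ⟹ `div u = m • D`;
* `s35b_abel`                   : `s35a_abel` without `(v0, hv0)`, in the divisibility form.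
Prefix `s35b_`.
-/
import Mathlib
import Fermat.Agent.S35.Abel
import Fermat.Agent.JT3.Places.CharFree

set_option autoImplicit false
set_option linter.unusedSectionVars false
set_option linter.unusedVariables false

namespace Fermat.Agent.S35

open AlgebraicCurve IntermediateField Polynomial Fermat.Agent.S24 Fermat.Agent.JT3

universe u v
variable {K : Type u} {F : Type v} [Field K] [Field F] [Algebra K F]

section main

variable [IsAlgClosed K] {x : F} (hx : rt_IsSepGen K x) (g : SemilinearAut K F)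
  (hgx : g • x = x)

include hx hgx

/-- some power of `g` fixes a pole of `x`. -/
theorem s35b_exists_pow_fixed_place :
    ∃ n : ℕ, 1 ≤ n ∧ ∃ v0 : Place K F, (g ^ n) • v0 = v0 := by
  obtain ⟨htr, hfd, hsep⟩ := hx
  have := hfd
  have := hsep
  obtain ⟨v, hv⟩ := pcf_exists_pole (K := K) (F := F) htr
  have hfin := rt_finite_poles (K := K) (F := F) ⟨htr, hfd, hsep⟩ x
  have hmem : ∀ k : ℕ, (g ^ k) • v ∈ {w : Place K F | w.ord x < 0} := by
    intro k
    show ((g ^ k) • v).ord x < 0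
    have h1 := SemilinearAut.ord_smul (g ^ k) v x
    rw [fcl_pow_smul_x g hgx k] at h1
    rw [h1]
    exact hv
  obtain ⟨a, b, hab, heq⟩ := hfin.exists_lt_map_eq_of_forall_mem hmem
  refine ⟨b - a, by omega, (g ^ a) • v, ?_⟩
  rw [← mul_smul, ← pow_add, Nat.sub_add_cancel hab.le]
  exact heq.symm

end main

section exponent

variable [IsAlgClosed K] {x : F} (hx : rt_IsSepGen K x) (g : SemilinearAut K F) (Q : ℕ)
  (hQ : 2 ≤ Q) (hK : ∀ c : K, SemilinearAut.baseAut g c = c ^ Q) (hgx : g • x = x)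

include hx hQ hK hgx

/-- **the `g`-fixed classes of `Pic⁰` are killed by one positive integer** (no fixed place
assumed). -/
theorem s35b_exists_exponent :
    ∃ h : ℕ, 1 ≤ h ∧ ∀ c : Pic0 K F, g • c = c → h • c = 0 := by
  obtain ⟨n, hn, v0, hv0⟩ := s35b_exists_pow_fixed_place hx g hgx
  have hQn : 2 ≤ Q ^ n := by
    calc 2 ≤ Q := hQ
      _ = Q ^ 1 := (pow_one Q).symm
      _ ≤ Q ^ n := Nat.pow_le_pow_right (by omega) hn
  obtain ⟨h, hh1, hh⟩ := fcl_exists_exponent hx (g ^ n) (Q ^ n) hQn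
    (fun c => fcl_pow_baseAut g Q hK n c) (fcl_pow_smul_x g hgx n) v0 hv0
  refine ⟨h, hh1, fun c hc => hh c ?_⟩
  clear hh hv0
  induction n with
  | zero => simp
  | succ k ih =>
    rcases Nat.eq_zero_or_pos k with rfl | hk
    · simpa using hc
    · rw [pow_succ, mul_smul, hc]
      exact ih hk (by
        calc 2 ≤ Q := hQ
          _ = Q ^ 1 := (pow_one Q).symm
          _ ≤ Q ^ k := Nat.pow_le_pow_right (by omega) hk)

omit hQ hK hgx g in
/-- divisibility of all orders by `m` ⟹ the divisor is `m` times a divisor. -/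
theorem s35b_exists_div {m : ℕ} (hm : 1 ≤ m) (u : F) (hdvd : ∀ v : Place K F, (m : ℤ) ∣ v.ord u) :
    ∃ D : Divisor K F, rt_div hx u = m • D := by
  classical
  have hm0 : (m : ℤ) ≠ 0 := by exact_mod_cast (by omega : m ≠ 0)
  have hfin : {v : Place K F | v.ord u / (m : ℤ) ≠ 0}.Finite := by
    refine (rt_finite_support hx u).subset fun v hv => ?_
    have hv' : v.ord u / (m : ℤ) ≠ 0 := hv
    show v.ord u ≠ 0
    intro h0
    exact hv' (by rw [h0, Int.zero_ediv])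
  refine ⟨Finsupp.ofSupportFinite (fun v => v.ord u / (m : ℤ)) hfin, ?_⟩
  ext v
  rw [rt_div_apply, Finsupp.smul_apply, Finsupp.ofSupportFinite_coe, nsmul_eq_mul]
  exact (Int.mul_ediv_cancel' (hdvd v)).symm

/-- **[ABEL] without a fixed place, divisibility form.** -/
theorem s35b_abel :
    ∃ E : ℕ, 1 ≤ E ∧ ∀ m : ℕ, 1 ≤ m → ∀ (u₁ u₂ h h' : F) (c c' : K),
      u₁ ≠ 0 → u₂ ≠ 0 → (∀ v : Place K F, (m : ℤ) ∣ v.ord u₁) →
      (∀ v : Place K F, (m : ℤ) ∣ v.ord u₂) →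
      u₁ * (g • u₂) = c • h ^ m → (g • u₁) * u₂ = c' • h' ^ m →
      (∃ (a : K) (w : F), a ≠ 0 ∧ w ≠ 0 ∧ u₁ ^ E = a • w ^ m) ∧
        ∃ (a : K) (w : F), a ≠ 0 ∧ w ≠ 0 ∧ u₂ ^ E = a • w ^ m := by
  have hQ2 : 2 ≤ Q ^ 2 := by nlinarith
  obtain ⟨E, hE1, hE⟩ := s35b_exists_exponent hx (g ^ 2) (Q ^ 2) hQ2
    (fun c => fcl_pow_baseAut g Q hK 2 c) (fcl_pow_smul_x g hgx 2)
  refine ⟨E, hE1, ?_⟩
  intro m hm u₁ u₂ h h' c c' hu₁ hu₂ hdv₁ hdv₂ hR1 hR2
  obtain ⟨D₁, hd₁⟩ := s35b_exists_div hx hm u₁ hdv₁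
  obtain ⟨D₂, hd₂⟩ := s35b_exists_div hx hm u₂ hdv₂
  have hgu₁ : g • u₁ ≠ 0 := fun h0 => hu₁ ((smul_eq_zero_iff_eq g).mp h0)
  have hgu₂ : g • u₂ ≠ 0 := fun h0 => hu₂ ((smul_eq_zero_iff_eq g).mp h0)
  have hch : c • h ^ m ≠ 0 := by rw [← hR1]; exact mul_ne_zero hu₁ hgu₂
  have hch' : c' • h' ^ m ≠ 0 := by rw [← hR2]; exact mul_ne_zero hgu₁ hu₂
  have hc : c ≠ 0 := fun h0 => hch (by rw [h0, zero_smul])
  have hc' : c' ≠ 0 := fun h0 => hch' (by rw [h0, zero_smul])
  have hh : h ≠ 0 := by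
    rintro rfl
    exact hch (by rw [zero_pow (by omega), smul_zero])
  have hh' : h' ≠ 0 := by
    rintro rfl
    exact hch' (by rw [zero_pow (by omega), smul_zero])
  have hrel1 : D₁ + g • D₂ = rt_div hx h := by
    apply s35a_nsmul_injective hm
    have := congrArg (rt_div hx) hR1
    rw [rt_div_mul hx hu₁ hgu₂, fcl_div_smul hx g, s35a_div_const_smul hx hc, s35a_div_pow, hd₁,
      hd₂] at this
    rw [smul_add, ← this, smul_comm]
  have hrel2 : g • D₁ + D₂ = rt_div hx h' := by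
    apply s35a_nsmul_injective hm
    have := congrArg (rt_div hx) hR2
    rw [rt_div_mul hx hgu₁ hu₂, fcl_div_smul hx g, s35a_div_const_smul hx hc', s35a_div_pow, hd₁,
      hd₂] at this
    rw [smul_add, ← this, smul_comm]
  have hD₁ := s35a_mem_degZero hx hm hd₁
  have hD₂ := s35a_mem_degZero hx hm hd₂
  set c₁ : Pic0 K F := Pic0.mk ⟨D₁, hD₁⟩ with hc₁
  set c₂ : Pic0 K F := Pic0.mk ⟨D₂, hD₂⟩ with hc₂
  have hP1 : c₁ + g • c₂ = 0 := by
    rw [hc₁, hc₂, SemilinearAut.pic0_smul_mk, ← Pic0.mk_add, s35a_mk_eq_zero_iff]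
    show D₁ + g • D₂ ∈ Divisor.principal (K := K) (F := F)
    rw [hrel1]
    exact rt_div_isPrincipal hx hh
  have hP2 : g • c₁ + c₂ = 0 := by
    rw [hc₁, hc₂, SemilinearAut.pic0_smul_mk, ← Pic0.mk_add, s35a_mk_eq_zero_iff]
    show g • D₁ + D₂ ∈ Divisor.principal (K := K) (F := F)
    rw [hrel2]
    exact rt_div_isPrincipal hx hh'
  have hfix₁ : (g ^ 2) • c₁ = c₁ := by
    have e1 : g • c₁ = -c₂ := eq_neg_of_add_eq_zero_left hP2
    have e2 : g • c₂ = -c₁ := eq_neg_of_add_eq_zero_right hP1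
    rw [pow_two, mul_smul, e1, smul_neg, e2, neg_neg]
  have hfix₂ : (g ^ 2) • c₂ = c₂ := by
    have e1 : g • c₁ = -c₂ := eq_neg_of_add_eq_zero_left hP2
    have e2 : g • c₂ = -c₁ := eq_neg_of_add_eq_zero_right hP1
    rw [pow_two, mul_smul, e2, smul_neg, e1, neg_neg]
  exact ⟨s35a_pow_of_nsmul_eq_zero hx hu₁ hd₁ hD₁ E (hE c₁ hfix₁),
    s35a_pow_of_nsmul_eq_zero hx hu₂ hd₂ hD₂ E (hE c₂ hfix₂)⟩

end exponent

end Fermat.Agent.S35
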