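/-
S35, cell [ABEL], WORLD-INDEPENDENT INSTANCE (helper13): `s35b_abel` for ANY function field `F / k`
embedded in a Laurent series field `k((X))`.

`k` algebraically closed of characteristic `ℓ`, `F` a field with `Algebra k F`, an embedding
`ι : F →ₐ[k] k((X))`, `x : F` with `ℓ ∤ ord_X (ι x)` and `[F : k(x)] < ∞`.  Then `x` is a separating
generator (`s35b_isSepGen_of_laurent`, MacLane via `lsp_isSeparable_of_algHom`), hence for every
`g : SemilinearAut k F` with `baseAut g c = c ^ Q` (`Q ≥ 2`) and `g • x = x`: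

* `s35b_exponent_laurent` : the `g`-fixed classes of `Pic⁰(F / k)` are killed by one `h ≥ 1`;
* `s35b_abel_laurent`     : [ABEL] for `F / k`.

Instances: `F = modularFunctionFieldFullC k N` (`S35/AbelInst.lean`), or the residue field of the
Gauss valuation of a Legendre / Hesse level field embedded in `k((X))` by `gq_res`.
Prefix `s35b_`.
-/
import Mathlib
import Fermat.Agent.S35.AbelFree
import Fermat.Agent.JT3.Algebra.LaurentSep

set_option autoImplicit false
set_option linter.unusedSectionVars false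
set_option linter.unusedVariables false

namespace Fermat.Agent.S35

open AlgebraicCurve IntermediateField Polynomial Fermat.Agent.S24 Fermat.Agent.JT3

section laurent

variable {k : Type*} [Field k] [IsAlgClosed k] (ℓ : ℕ) [hℓ : Fact ℓ.Prime] [CharP k ℓ]
  {F : Type*} [Field F] [Algebra k F] (ι : F →ₐ[k] LaurentSeries k)

/-- **MacLane**: an element `x` of a function field `F ⊆ k((X))` whose `X`-order is prime to the
characteristic, with `[F : k(x)] < ∞`, is a separating generator. -/
theorem s35b_isSepGen_of_laurent {x : F} (hord : ¬ (ℓ : ℤ) ∣ (ι x).order)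
    [hfin : FiniteDimensional k⟮x⟯ F] : rt_IsSepGen k x := by
  have hx0 : x ≠ 0 := by
    rintro rfl
    apply hord
    rw [map_zero, HahnSeries.order_zero]
    exact dvd_zero _
  refine ⟨?_, hfin, ?_⟩
  · rcases Fermat.Agent.S24.hw_const_or_transcendental (K := k) x with ⟨c, hc⟩ | h
    · exfalso
      apply hord
      rw [hc, AlgHom.commutes]
      rcases eq_or_ne c 0 with rfl | hc0
      · rw [map_zero, HahnSeries.order_zero]; exact dvd_zero _
      · have hsingle : algebraMap k (LaurentSeries k) c = HahnSeries.single 0 c := by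
          have h1 : algebraMap k (PowerSeries k) c = PowerSeries.C c := by simp
          rw [HahnSeries.algebraMap_apply', h1, HahnSeries.ofPowerSeries_C]
          rfl
        rw [hsingle, HahnSeries.order_single hc0]
        exact dvd_zero _
    · exact h
  · constructor
    intro y
    exact lsp_isSeparable_of_algHom ℓ ι hx0 hord (Algebra.IsAlgebraic.isAlgebraic y)

variable {x : F} (hord : ¬ (ℓ : ℤ) ∣ (ι x).order) [FiniteDimensional k⟮x⟯ F]
  (g : SemilinearAut k F) (Q : ℕ) (hQ : 2 ≤ Q)
  (hK : ∀ c : k, SemilinearAut.baseAut g c = c ^ Q) (hgx : g • x = x)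

include hord hQ hK hgx

theorem s35b_exponent_laurent :
    ∃ h : ℕ, 1 ≤ h ∧ ∀ c : Pic0 k F, g • c = c → h • c = 0 :=
  s35b_exists_exponent (s35b_isSepGen_of_laurent ℓ ι hord) g Q hQ hK hgx

/-- **[ABEL] for a function field embedded in `k((X))`.** -/
theorem s35b_abel_laurent :
    ∃ E : ℕ, 1 ≤ E ∧ ∀ m : ℕ, 1 ≤ m → ∀ (u₁ u₂ h h' : F) (c c' : k),
      u₁ ≠ 0 → u₂ ≠ 0 → (∀ v : Place k F, (m : ℤ) ∣ v.ord u₁) →
      (∀ v : Place k F, (m : ℤ) ∣ v.ord u₂) →
      u₁ * (g • u₂) = c • h ^ m → (g • u₁) * u₂ = c' • h' ^ m →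
      (∃ (a : k) (w : F), a ≠ 0 ∧ w ≠ 0 ∧ u₁ ^ E = a • w ^ m) ∧
        ∃ (a : k) (w : F), a ≠ 0 ∧ w ≠ 0 ∧ u₂ ^ E = a • w ^ m :=
  s35b_abel (s35b_isSepGen_of_laurent ℓ ι hord) g Q hQ hK hgx

end laurent

end Fermat.Agent.S35
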