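/-
Project S35 (interim architect helper6): THE GLUE between helper13's [ABEL-FAM]
(`s35bf_leg`, `s35bf_hes`, conclusion `s35bf_AbelProp`) and helper4's [CORE-ASM]
(`s35as_FamLeg`, `s35as_FamHes`, per-level conclusion `s35as_AbelK`).  Prefix `s35ag_`.

* `s35ag_abelK_of_prop` : `s35bf_AbelProp q κ' E₀ m → s35as_AbelK O hπ q E' E hle hE m E₀`
  (binder reordering; the factor hypothesis `u = ω · e ^ m` as a series equation gives the equation
  in `↥κ'` by `Subtype.ext`);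
* `s35ag_famLeg` : `s35as_FamLeg N' q` (q odd);
* `s35ag_famHes` : `s35as_FamHes N' q` (q ≠ 3).
-/
import Mathlib
import Fermat.Agent.S35.AbelAsm.NF
import Fermat.Agent.S35.AbelAsm.NFHes
import Fermat.Agent.S35.AbelFam.Leg
import Fermat.Agent.S35.AbelFam.Hes

set_option autoImplicit false
set_option linter.unusedSectionVars false
set_option linter.unusedVariables false
set_option linter.style.haveILetI false

noncomputable section

namespace Fermat.Agent.S35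

open ModularCurve IsLocalRing IntermediateField AlgebraicCurve Polynomial
open Fermat.Agent.JT3 Fermat.Agent.SS Fermat.Agent.S28 Fermat.Agent.S24

local notation "GQ" => (AlgebraicClosure ℚ ≃ₐ[ℚ] AlgebraicClosure ℚ)
local notation "Qb" => AlgebraicClosure ℚ

section Level

variable {L : Type*} [Field L] [CharZero L] (O : ValuationSubring L)
  [IsDiscreteValuationRing O] {π : O} (hπ : Irreducible π)
variable (q : ℕ) [NeZero q] [hq : Fact q.Prime] [CharP (ResidueField O) q]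
variable (E' E : IntermediateField L (LaurentSeries L)) (hle : E' ≤ E)
  (hE : E ≤ gq_quotField O L)

set_option synthInstance.maxHeartbeats 200000 in
set_option maxHeartbeats 800000 in
/-- helper13's `s35bf_AbelProp` for `κ'` gives helper4's `s35as_AbelK`. -/
theorem s35ag_abelK_of_prop (m E0 : ℕ)
    (h : s35bf_AbelProp q (s35kp_kappa O hπ E' (hle.trans hE)) E0 m) :
    s35as_AbelK O hπ q E' E hle hE m E0 := by
  intro u₁ u₂ a a' hu₁ hu₂ ha ha' c c' hu₁0 hu₂0 hf₁ hf₂ h1 h2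
  refine h u₁ u₂ a a' hu₁ hu₂ c c' ha ha' hu₁0 hu₂0 ?_ ?_ h1 h2
  · intro 𝒪 hk halg
    obtain ⟨ω, e, hωe, hω, hω'⟩ := hf₁ 𝒪 hk halg
    refine ⟨ω, e, Subtype.ext (hωe.trans ?_), hω, hω'⟩
    push_cast
    rfl
  · intro 𝒪 hk halg
    obtain ⟨ω, e, hωe, hω, hω'⟩ := hf₂ 𝒪 hk halg
    refine ⟨ω, e, Subtype.ext (hωe.trans ?_), hω, hω'⟩
    push_cast
    rfl

end Level

section Fam

variable (N' q : ℕ) [NeZero N'] [NeZero q] [hq : Fact q.Prime]

set_option synthInstance.maxHeartbeats 200000 in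
set_option maxHeartbeats 800000 in
/-- **[ABEL-FAM], Legendre tower**, in helper4's shape. -/
theorem s35ag_famLeg (hq2 : ¬ 2 ∣ q) : s35as_FamLeg N' q := by
  intro A hA φ hφ
  obtain ⟨E0, hE0, T, hT, hfam⟩ := s35bf_leg N' q hq2 A hA φ hφ
  refine ⟨E0, hE0, T, hT, fun L1 hfd hsub hfix => ?_⟩
  intro _ _ hπ φ1 hφ1 m hqm
  exact s35ag_abelK_of_prop (A.comap (algebraMap ↥L1 Qb)) hπ q (lg_E ↥L1 N') (lg_E ↥L1 (N' * q))
    (ssm_al_E_le ↥L1 N' q) (ssm_ga_E_le_quotField (A.comap (algebraMap ↥L1 Qb)) (N' * q)) m E0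
    (hfam L1 hfd hsub hfix hπ φ1 hφ1 m hqm)

set_option synthInstance.maxHeartbeats 200000 in
set_option maxHeartbeats 800000 in
/-- **[ABEL-FAM], Hesse tower**, in helper4's shape. -/
theorem s35ag_famHes (hq3 : ¬ 3 ∣ q) : s35as_FamHes N' q := by
  intro A hA φ hφ
  obtain ⟨E0, hE0, T, hT, hfam⟩ := s35bf_hes N' q hq3 A hA φ hφ
  refine ⟨E0, hE0, T, hT, fun L1 hfd hsub hfix => ?_⟩
  intro _ _ h3O hπ φ1 hφ1 m hqm
  exact s35ag_abelK_of_prop (A.comap (algebraMap ↥L1 Qb)) hπ q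
    (hs_E ↥L1 (three_ne_zero : (3 : ↥L1) ≠ 0) N')
    (hs_E ↥L1 (three_ne_zero : (3 : ↥L1) ≠ 0) (N' * q))
    (ssm_alh_E_le ↥L1 (three_ne_zero : (3 : ↥L1) ≠ 0)
      (ssm_fh_hF9 (three_ne_zero : (3 : ↥L1) ≠ 0)) N' q)
    (hsa_E_le_quotField (three_ne_zero : (3 : ↥L1) ≠ 0)
      (A.comap (algebraMap ↥L1 Qb)) (N' * q) h3O) m E0
    (hfam L1 hfd hsub hfix h3O hπ φ1 hφ1 m hqm)

end Fam

end Fermat.Agent.S35
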