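/-
Project S35, cell **[CONN]** (helper23): ZARISKI CONNECTEDNESS of the special fibre of the
two-chart model, in Čech form.  Prefix `s35c_`.

Setting (that of `sfc_main` / `ss_Model`): `A0` a Noetherian LOCAL ring, `π : A0`, `F0` a field over
`A0`, `x ≠ 0` a coordinate; charts `B₁, B₂, B₁₂ = fc_chart A0 {x}, {x⁻¹}, {x, x⁻¹}`; `B₁` finite
over `A0[x]`; `x` (resp. `x⁻¹`) a non-zero-divisor modulo `π` on `B₁` (resp. `B₂`);
`B₁ ∩ B₂ = A0` (`hH0`); `P1, P2` two proper ideals of `B₁₂` with `π B₁₂ = P1 ∩ P2`.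

`s35c_conn`: there is a maximal ideal `𝔫` of `B₁` or of `B₂` containing both `P1 ∩ B_i` and
`P2 ∩ B_i`: the two components of the special fibre MEET.

Proof: otherwise `P1 ∩ B_i` and `P2 ∩ B_i` are comaximal in both charts, which gives idempotents
modulo `π` on both charts, compatible on the overlap; by `jf_exists_lift_idem` (lifting of
idempotents modulo `π ^ n` + the torsion bound for `H¹ = B₁₂ ⧸ (B₁ + B₂)`) they are congruent
modulo `π` to a GLOBAL function, which is a constant `c ∈ A0` by `hH0`; `c ≡ 0` modulo `P2` and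
`c ≡ 1` modulo `P1`, impossible in a local ring.

`s35c_exists_node`: in an `ss_Model` the point found is an ordinary double point (`ss_NodeAt`).
-/
import Mathlib
import Fermat.Agent.JT3.FCore.Exports
import Fermat.Agent.JT3.Algebra.FormalIdem
import Fermat.Agent.SS.CoreModel

set_option autoImplicit false
set_option linter.unusedSectionVars false

namespace Fermat.Agent.S35

open Fermat.Agent.JT3 Fermat.Agent.SS

universe v

section Contract

variable {A0 : Type*} [CommRing A0] {F0 : Type v} [Field F0] [Algebra A0 F0]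

/-- `π B₁₂ ∩ B₁ = π B₁` when `x` is a non-zero-divisor modulo `π` on `B₁` (field form). -/
theorem s35c_contract1 (π : A0) {x : F0} (hx : x ≠ 0)
    (hxS1 : x ∈ sfc_S (fc_chart A0 ({x} : Set F0)).toSubring (algebraMap A0 F0 π))
    {b : F0} (hb : b ∈ fc_chart A0 ({x} : Set F0))
    (h : ∃ c ∈ fc_chart A0 ({x, x⁻¹} : Set F0), b = algebraMap A0 F0 π * c) :
    ∃ c ∈ fc_chart A0 ({x} : Set F0), b = algebraMap A0 F0 π * c := by
  obtain ⟨c, hc, rfl⟩ := h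
  obtain ⟨k, hk⟩ := fc_clear1 hx hc
  have hS := sfc_S_pow hxS1 k
  exact hS.2.2 _ hb ⟨x ^ k * c, hk, by ring⟩

/-- `π B₁₂ ∩ B₂ = π B₂` when `x⁻¹` is a non-zero-divisor modulo `π` on `B₂` (field form). -/
theorem s35c_contract2 (π : A0) {x : F0} (hx : x ≠ 0)
    (hxS2 : x⁻¹ ∈ sfc_S (fc_chart A0 ({x⁻¹} : Set F0)).toSubring (algebraMap A0 F0 π))
    {b : F0} (hb : b ∈ fc_chart A0 ({x⁻¹} : Set F0))
    (h : ∃ c ∈ fc_chart A0 ({x, x⁻¹} : Set F0), b = algebraMap A0 F0 π * c) :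
    ∃ c ∈ fc_chart A0 ({x⁻¹} : Set F0), b = algebraMap A0 F0 π * c := by
  obtain ⟨c, hc, rfl⟩ := h
  obtain ⟨k, hk⟩ := fc_clear2 hx hc
  have hS := sfc_S_pow hxS2 k
  exact hS.2.2 _ hb ⟨x⁻¹ ^ k * c, hk, by ring⟩

/-- Membership in the principal ideal `(π)` of a subalgebra, in field form. -/
theorem s35c_mem_span_iff (π : A0) (B : Subalgebra A0 F0) (b : B) :
    b ∈ Ideal.span {algebraMap A0 B π} ↔ ∃ c ∈ B, (b : F0) = algebraMap A0 F0 π * c := by
  rw [Ideal.mem_span_singleton']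
  constructor
  · rintro ⟨y, rfl⟩
    refine ⟨y, y.2, ?_⟩
    rw [mul_comm]
    rfl
  · rintro ⟨c, hc, h⟩
    refine ⟨⟨c, hc⟩, Subtype.ext ?_⟩
    rw [h, mul_comm]
    rfl

end Contract

section Max

/-- Two ideals which are not comaximal lie in a common maximal ideal. -/
theorem s35c_exists_max {R : Type*} [CommRing R] (I J : Ideal R) (h : I ⊔ J ≠ ⊤) :
    ∃ 𝔫 : Ideal R, 𝔫.IsMaximal ∧ I ≤ 𝔫 ∧ J ≤ 𝔫 := by
  obtain ⟨𝔫, hmax, hle⟩ := Ideal.exists_le_maximal _ h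
  exact ⟨𝔫, hmax, le_trans le_sup_left hle, le_trans le_sup_right hle⟩

end Max

section Conn

variable {A0 : Type*} [CommRing A0] [IsNoetherianRing A0] [IsLocalRing A0]
  {F0 : Type v} [Field F0] [Algebra A0 F0]

/-- **[CONN], abstract core**: three subalgebras `B₁, B₂ ≤ B₁₂` of a field over the Noetherian
local ring `A0`, with `H¹ = B₁₂ ⧸ (B₁ + B₂)` finite over `A0`, `π B₁₂ ∩ B_i = π B_i`,
`B₁ ∩ B₂ = A0`, and `π B₁₂ = P1 ∩ P2` with `P1`, `P2` proper: the contractions of `P1` and `P2`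
lie in a common maximal ideal of `B₁` or of `B₂`. -/
theorem s35c_conn_core (π : A0) (B1 B2 B12 : Subalgebra A0 F0) (hle1 : B1 ≤ B12) (hle2 : B2 ≤ B12)
    (hfg : Module.Finite A0
      (B12 ⧸ (LinearMap.range (Subalgebra.inclusion hle1).toLinearMap ⊔
        LinearMap.range (Subalgebra.inclusion hle2).toLinearMap)))
    (hct1 : ∀ b ∈ B1, (∃ c ∈ B12, b = algebraMap A0 F0 π * c) →
      ∃ c ∈ B1, b = algebraMap A0 F0 π * c)
    (hct2 : ∀ b ∈ B2, (∃ c ∈ B12, b = algebraMap A0 F0 π * c) →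
      ∃ c ∈ B2, b = algebraMap A0 F0 π * c)
    (hH0 : ∀ z : F0, z ∈ B1 → z ∈ B2 → z ∈ (algebraMap A0 F0).range)
    (P1 P2 : Ideal B12) (hP1 : P1 ≠ ⊤) (hP2 : P2 ≠ ⊤)
    (hrad : Ideal.span {algebraMap A0 B12 π} = P1 ⊓ P2) :
    (∃ 𝔫 : Ideal B1, 𝔫.IsMaximal ∧ P1.comap (Subalgebra.inclusion hle1) ≤ 𝔫 ∧
      P2.comap (Subalgebra.inclusion hle1) ≤ 𝔫) ∨
    (∃ 𝔫 : Ideal B2, 𝔫.IsMaximal ∧ P1.comap (Subalgebra.inclusion hle2) ≤ 𝔫 ∧
      P2.comap (Subalgebra.inclusion hle2) ≤ 𝔫) := by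
  classical
  set ι1 : B1 →ₐ[A0] B12 := Subalgebra.inclusion hle1 with hι1
  set ι2 : B2 →ₐ[A0] B12 := Subalgebra.inclusion hle2 with hι2
  -- comaximality on both charts
  by_cases hsup1 : P1.comap ι1 ⊔ P2.comap ι1 = ⊤
  swap
  · obtain ⟨𝔫, hmax, h1, h2⟩ := s35c_exists_max _ _ hsup1
    exact Or.inl ⟨𝔫, hmax, h1, h2⟩
  by_cases hsup2 : P1.comap ι2 ⊔ P2.comap ι2 = ⊤
  swap
  · obtain ⟨𝔫, hmax, h1, h2⟩ := s35c_exists_max _ _ hsup2
    exact Or.inr ⟨𝔫, hmax, h1, h2⟩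
  exfalso
  obtain ⟨u1, hu1, e1, he1, hsum1⟩ := Submodule.mem_sup.1 ((Ideal.eq_top_iff_one _).1 hsup1)
  obtain ⟨u2, hu2, e2, he2, hsum2⟩ := Submodule.mem_sup.1 ((Ideal.eq_top_iff_one _).1 hsup2)
  rw [Ideal.mem_comap] at hu1 he1 hu2 he2
  have hι1sum : ι1 u1 + ι1 e1 = 1 := by rw [← map_add, hsum1, map_one]
  have hι2sum : ι2 u2 + ι2 e2 = 1 := by rw [← map_add, hsum2, map_one]
  -- `(π) B₁₂ ∩ B_i = (π) B_i`
  have hc1 : ∀ b : B1, ι1 b ∈ Ideal.span {algebraMap A0 B12 π} →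
      b ∈ Ideal.span {algebraMap A0 B1 π} := by
    intro b hb
    rw [s35c_mem_span_iff] at hb ⊢
    exact hct1 _ b.2 hb
  have hc2 : ∀ b : B2, ι2 b ∈ Ideal.span {algebraMap A0 B12 π} →
      b ∈ Ideal.span {algebraMap A0 B2 π} := by
    intro b hb
    rw [s35c_mem_span_iff] at hb ⊢
    exact hct2 _ b.2 hb
  have hm1 : ∀ b : B1, b ∈ Ideal.span {algebraMap A0 B1 π} →
      ι1 b ∈ Ideal.span {algebraMap A0 B12 π} := by
    intro b hb
    rw [Ideal.mem_span_singleton'] at hb ⊢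
    obtain ⟨y, rfl⟩ := hb
    exact ⟨ι1 y, by rw [map_mul, AlgHom.commutes]⟩
  -- idempotents modulo `π`
  have h1 : e1 * e1 - e1 ∈ Ideal.span {algebraMap A0 B1 π} := by
    apply hc1
    rw [hrad]
    have h : ι1 (e1 * e1 - e1) = -(ι1 u1 * ι1 e1) := by
      rw [map_sub, map_mul]
      linear_combination (ι1 e1) * hι1sum
    rw [h]
    exact ⟨P1.neg_mem (P1.mul_mem_right _ hu1), P2.neg_mem (P2.mul_mem_left _ he1)⟩
  have h2 : e2 * e2 - e2 ∈ Ideal.span {algebraMap A0 B2 π} := by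
    apply hc2
    rw [hrad]
    have h : ι2 (e2 * e2 - e2) = -(ι2 u2 * ι2 e2) := by
      rw [map_sub, map_mul]
      linear_combination (ι2 e2) * hι2sum
    rw [h]
    exact ⟨P1.neg_mem (P1.mul_mem_right _ hu2), P2.neg_mem (P2.mul_mem_left _ he2)⟩
  have h12 : ι1 e1 - ι2 e2 ∈ Ideal.span {algebraMap A0 B12 π} := by
    rw [hrad]
    refine ⟨?_, P2.sub_mem he1 he2⟩
    have h : ι1 e1 - ι2 e2 = ι2 u2 - ι1 u1 := by
      linear_combination hι1sum - hι2sum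
    rw [h]
    exact P1.sub_mem hu2 hu1
  -- the global function
  obtain ⟨a, b, hab, ha, hb⟩ := jf_exists_lift_idem ι1 ι2 π hfg e1 e2 h1 h2 h12
  have hab' : (a : F0) = (b : F0) := congrArg Subtype.val hab
  obtain ⟨c, hc⟩ := hH0 (a : F0) a.2 (hab' ▸ b.2)
  have hca : algebraMap A0 B12 c = ι1 a := Subtype.ext hc
  have hπP1 : Ideal.span {algebraMap A0 B12 π} ≤ P1 := by rw [hrad]; exact inf_le_left
  have hπP2 : Ideal.span {algebraMap A0 B12 π} ≤ P2 := by rw [hrad]; exact inf_le_right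
  rcases IsLocalRing.isUnit_or_isUnit_one_sub_self c with hu | hu
  · -- `c` a unit, but `c ∈ P2`
    apply hP2
    have hmem : ι1 a ∈ P2 := by
      have h : ι1 a = ι1 (a - e1) + ι1 e1 := by rw [map_sub]; ring
      rw [h]
      exact P2.add_mem (hπP2 (hm1 _ ha)) he1
    rw [← hca] at hmem
    exact Ideal.eq_top_of_isUnit_mem _ hmem (hu.map (algebraMap A0 B12))
  · -- `1 - c` a unit, but `1 - c ∈ P1`
    apply hP1
    have hmem : 1 - ι1 a ∈ P1 := by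
      have h : 1 - ι1 a = ι1 u1 - ι1 (a - e1) := by
        rw [map_sub]
        linear_combination -hι1sum
      rw [h]
      exact P1.sub_mem hu1 (hπP1 (hm1 _ ha))
    rw [← hca, ← map_one (algebraMap A0 B12), ← map_sub] at hmem
    exact Ideal.eq_top_of_isUnit_mem _ hmem (hu.map (algebraMap A0 B12))

/-- **[CONN] Zariski connectedness, two-chart Čech form.**  The two components `P1`, `P2` of the
special fibre meet in a closed point of the first or of the second chart. -/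
theorem s35c_conn (π : A0) {x : F0} (hx : x ≠ 0)
    (hfin1 : Module.Finite (Algebra.adjoin A0 ({x} : Set F0))
      (integralClosure (Algebra.adjoin A0 ({x} : Set F0)) F0))
    (hxS1 : x ∈ sfc_S (fc_chart A0 ({x} : Set F0)).toSubring (algebraMap A0 F0 π))
    (hxS2 : x⁻¹ ∈ sfc_S (fc_chart A0 ({x⁻¹} : Set F0)).toSubring (algebraMap A0 F0 π))
    (hH0 : ∀ z : F0, z ∈ fc_chart A0 ({x} : Set F0) → z ∈ fc_chart A0 ({x⁻¹} : Set F0) →
      z ∈ (algebraMap A0 F0).range)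
    (P1 P2 : Ideal (fc_chart A0 ({x, x⁻¹} : Set F0))) (hP1 : P1 ≠ ⊤) (hP2 : P2 ≠ ⊤)
    (hrad : Ideal.span {algebraMap A0 (fc_chart A0 ({x, x⁻¹} : Set F0)) π} = P1 ⊓ P2) :
    (∃ 𝔫 : Ideal (fc_chart A0 ({x} : Set F0)), 𝔫.IsMaximal ∧
      P1.comap (Subalgebra.inclusion (fc_chart1_le (A0 := A0) x)) ≤ 𝔫 ∧
      P2.comap (Subalgebra.inclusion (fc_chart1_le (A0 := A0) x)) ≤ 𝔫) ∨
    (∃ 𝔫 : Ideal (fc_chart A0 ({x⁻¹} : Set F0)), 𝔫.IsMaximal ∧
      P1.comap (Subalgebra.inclusion (fc_chart2_le (A0 := A0) x)) ≤ 𝔫 ∧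
      P2.comap (Subalgebra.inclusion (fc_chart2_le (A0 := A0) x)) ≤ 𝔫) :=
  s35c_conn_core π _ _ _ (fc_chart1_le x) (fc_chart2_le x) (fc_chart_H1_finite hx hfin1)
    (fun _ hb h => s35c_contract1 π hx hxS1 hb h) (fun _ hb h => s35c_contract2 π hx hxS2 hb h)
    hH0 P1 P2 hP1 hP2 hrad

end Conn

section Node

variable {A0 : Type*} [CommRing A0] {F0 : Type v} [Field F0] [Algebra A0 F0]

/-- At a closed point through which both components pass, the special fibre is not locally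
integral: `tq_Dom` fails. -/
theorem s35c_not_dom (π : A0) (B B12 : Subalgebra A0 F0) (hle : B ≤ B12)
    (hct : ∀ b ∈ B, (∃ c ∈ B12, b = algebraMap A0 F0 π * c) →
      ∃ c ∈ B, b = algebraMap A0 F0 π * c)
    (P1 P2 : Ideal B12) [hP1 : P1.IsPrime] [hP2 : P2.IsPrime]
    (hrad : Ideal.span {algebraMap A0 B12 π} = P1 ⊓ P2)
    (h12 : ¬ P1.comap (Subalgebra.inclusion hle) ≤ P2.comap (Subalgebra.inclusion hle))
    (h21 : ¬ P2.comap (Subalgebra.inclusion hle) ≤ P1.comap (Subalgebra.inclusion hle))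
    (𝔫 : Ideal B) (h1 : P1.comap (Subalgebra.inclusion hle) ≤ 𝔫)
    (h2 : P2.comap (Subalgebra.inclusion hle) ≤ 𝔫) :
    ¬ tq_Dom (algebraMap A0 B π) 𝔫 := by
  intro hdom
  obtain ⟨a, ha1, ha2⟩ := Set.not_subset.1 h12
  obtain ⟨b, hb2, hb1⟩ := Set.not_subset.1 h21
  have ha1' : Subalgebra.inclusion hle a ∈ P1 := ha1
  have ha2' : Subalgebra.inclusion hle a ∉ P2 := ha2
  have hb1' : Subalgebra.inclusion hle b ∉ P1 := hb1
  have hb2' : Subalgebra.inclusion hle b ∈ P2 := hb2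
  have hπ : ∀ z : B, z ∈ Ideal.span {algebraMap A0 B π} →
      Subalgebra.inclusion hle z ∈ P1 ⊓ P2 := by
    intro z hz
    rw [← hrad]
    rw [Ideal.mem_span_singleton'] at hz ⊢
    obtain ⟨y, rfl⟩ := hz
    exact ⟨Subalgebra.inclusion hle y, by rw [map_mul, AlgHom.commutes]⟩
  have hab : a * b ∈ Ideal.span {algebraMap A0 B π} := by
    rw [s35c_mem_span_iff]
    apply hct _ (a * b).2
    have hmem : Subalgebra.inclusion hle (a * b) ∈ Ideal.span {algebraMap A0 B12 π} := by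
      rw [hrad, map_mul]
      exact ⟨P1.mul_mem_right _ ha1', P2.mul_mem_left _ hb2'⟩
    exact (s35c_mem_span_iff π B12 _).1 hmem
  obtain ⟨s, hs, h | h⟩ := hdom a b hab
  · have := (hπ _ h).2
    rw [map_mul] at this
    rcases hP2.mem_or_mem this with h' | h'
    · exact hs (h2 h')
    · exact ha2' h'
  · have := (hπ _ h).1
    rw [map_mul] at this
    rcases hP1.mem_or_mem this with h' | h'
    · exact hs (h1 h')
    · exact hb1' h'

/-- The contractions of two incomparable primes of `B₁₂ = B[1/s]` (every element of `B₁₂` is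
cleared by a power of the unit `s` of `B₁₂`, `s ∈ B`) to `B` are incomparable. -/
theorem s35c_not_comap_le (B B12 : Subalgebra A0 F0) (hle : B ≤ B12) {s : F0} (hs : s ∈ B)
    (hsinv : s⁻¹ ∈ B12) (hs0 : s ≠ 0) (hclear : ∀ z ∈ B12, ∃ k : ℕ, s ^ k * z ∈ B)
    (P1 P2 : Ideal B12) [hP2 : P2.IsPrime] (h12 : ¬ P1 ≤ P2) :
    ¬ P1.comap (Subalgebra.inclusion hle) ≤ P2.comap (Subalgebra.inclusion hle) := by
  intro hcon
  apply h12
  intro a ha
  obtain ⟨k, hk⟩ := hclear a a.2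
  have hmem : (⟨s ^ k * a, hk⟩ : B) ∈ P1.comap (Subalgebra.inclusion hle) := by
    rw [Ideal.mem_comap]
    have : Subalgebra.inclusion hle (⟨s ^ k * a, hk⟩ : B) = (⟨s, hle hs⟩ : B12) ^ k * a :=
      Subtype.ext (by simp)
    rw [this]
    exact P1.mul_mem_left _ ha
  have h2 := hcon hmem
  rw [Ideal.mem_comap] at h2
  have : Subalgebra.inclusion hle (⟨s ^ k * a, hk⟩ : B) = (⟨s, hle hs⟩ : B12) ^ k * a :=
    Subtype.ext (by simp)
  rw [this] at h2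
  rcases hP2.mem_or_mem h2 with h' | h'
  · exfalso
    have h'' := hP2.mem_of_pow_mem k h'
    apply hP2.ne_top
    refine Ideal.eq_top_of_isUnit_mem _ h'' ?_
    refine IsUnit.of_mul_eq_one (⟨s⁻¹, hsinv⟩ : B12) (Subtype.ext ?_)
    show s * s⁻¹ = 1
    exact mul_inv_cancel₀ hs0
  · exact h'

variable [IsNoetherianRing A0] [IsLocalRing A0]

/-- **[CONN] for an `ss_Model`**: the special fibre has at least one ordinary double point, i.e. a
closed point of one of the two charts through which both components pass (and there the model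
clause `pts` gives `ss_NodeAt`). -/
theorem s35c_exists_node {π : A0} {x : F0} {σ : F0 ≃+* F0} {σ0 : A0 ≃+* A0}
    {P1 P2 : Ideal (fc_chart A0 ({x, x⁻¹} : Set F0))} (M : ss_Model π x σ σ0 P1 P2) :
    (∃ 𝔫 : Ideal (fc_chart A0 ({x} : Set F0)), 𝔫.IsMaximal ∧
      algebraMap A0 (fc_chart A0 ({x} : Set F0)) π ∈ 𝔫 ∧
      P1.comap (Subalgebra.inclusion (fc_chart1_le (A0 := A0) x)) ≤ 𝔫 ∧
      P2.comap (Subalgebra.inclusion (fc_chart1_le (A0 := A0) x)) ≤ 𝔫 ∧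
      ss_NodeAt π σ σ0 (fc_chart1_le x) P1 P2 𝔫) ∨
    (∃ 𝔫 : Ideal (fc_chart A0 ({x⁻¹} : Set F0)), 𝔫.IsMaximal ∧
      algebraMap A0 (fc_chart A0 ({x⁻¹} : Set F0)) π ∈ 𝔫 ∧
      P1.comap (Subalgebra.inclusion (fc_chart2_le (A0 := A0) x)) ≤ 𝔫 ∧
      P2.comap (Subalgebra.inclusion (fc_chart2_le (A0 := A0) x)) ≤ 𝔫 ∧
      ss_NodeAt π σ σ0 (fc_chart2_le x) P1 P2 𝔫) := by
  have hx : x ≠ 0 := M.hxS1.2.1
  have := M.prime1
  have := M.prime2
  have hxB1 : x ∈ fc_chart A0 ({x} : Set F0) := fc_x_mem_chart x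
  have hxB2 : x⁻¹ ∈ fc_chart A0 ({x⁻¹} : Set F0) := fc_x_mem_chart x⁻¹
  have hπmem1 : ∀ 𝔫 : Ideal (fc_chart A0 ({x} : Set F0)),
      P1.comap (Subalgebra.inclusion (fc_chart1_le (A0 := A0) x)) ≤ 𝔫 →
      algebraMap A0 (fc_chart A0 ({x} : Set F0)) π ∈ 𝔫 := by
    intro 𝔫 h
    apply h
    rw [Ideal.mem_comap, AlgHom.commutes]
    have : algebraMap A0 (fc_chart A0 ({x, x⁻¹} : Set F0)) π ∈ P1 ⊓ P2 := by
      rw [← M.hrad]; exact Ideal.subset_span rfl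
    exact this.1
  have hπmem2 : ∀ 𝔫 : Ideal (fc_chart A0 ({x⁻¹} : Set F0)),
      P1.comap (Subalgebra.inclusion (fc_chart2_le (A0 := A0) x)) ≤ 𝔫 →
      algebraMap A0 (fc_chart A0 ({x⁻¹} : Set F0)) π ∈ 𝔫 := by
    intro 𝔫 h
    apply h
    rw [Ideal.mem_comap, AlgHom.commutes]
    have : algebraMap A0 (fc_chart A0 ({x, x⁻¹} : Set F0)) π ∈ P1 ⊓ P2 := by
      rw [← M.hrad]; exact Ideal.subset_span rfl
    exact this.1
  rcases s35c_conn π hx M.hfin1 M.hxS1 M.hxS2 M.hH0 P1 P2 M.prime1.ne_top M.prime2.ne_top M.hrad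
    with ⟨𝔫, hmax, h1, h2⟩ | ⟨𝔫, hmax, h1, h2⟩
  · refine Or.inl ⟨𝔫, hmax, hπmem1 𝔫 h1, h1, h2, ?_⟩
    rcases M.pts1 𝔫 hmax (hπmem1 𝔫 h1) with hsm | hnode
    · exfalso
      refine s35c_not_dom π _ _ (fc_chart1_le x)
        (fun _ hb h => s35c_contract1 π hx M.hxS1 hb h) P1 P2 M.hrad ?_ ?_ 𝔫 h1 h2 hsm.2
      · exact s35c_not_comap_le _ _ (fc_chart1_le x) hxB1 (fc_chart2_le x hxB2) hx
          (fun z hz => fc_clear1 hx hz) P1 P2 M.h12
      · exact s35c_not_comap_le _ _ (fc_chart1_le x) hxB1 (fc_chart2_le x hxB2) hx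
          (fun z hz => fc_clear1 hx hz) P2 P1 M.h21
    · exact hnode
  · refine Or.inr ⟨𝔫, hmax, hπmem2 𝔫 h1, h1, h2, ?_⟩
    rcases M.pts2 𝔫 hmax (hπmem2 𝔫 h1) with hsm | hnode
    · exfalso
      have hxx : x⁻¹⁻¹ ∈ fc_chart A0 ({x, x⁻¹} : Set F0) := by
        rw [inv_inv]; exact fc_chart1_le x hxB1
      refine s35c_not_dom π _ _ (fc_chart2_le x)
        (fun _ hb h => s35c_contract2 π hx M.hxS2 hb h) P1 P2 M.hrad ?_ ?_ 𝔫 h1 h2 hsm.2
      · exact s35c_not_comap_le _ _ (fc_chart2_le x) hxB2 hxx (inv_ne_zero hx)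
          (fun z hz => fc_clear2 hx hz) P1 P2 M.h12
      · exact s35c_not_comap_le _ _ (fc_chart2_le x) hxB2 hxx (inv_ne_zero hx)
          (fun z hz => fc_clear2 hx hz) P2 P1 M.h21
    · exact hnode

end Node

end Fermat.Agent.S35
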