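/-
S35, cell [ABEL], THE INSTANCE (helper13): `s35b_abel` (`S35/AbelFree.lean`) at the reduced function
field `F̃_N = k(j̃(q^d) : d ∣ N) ⊂ k((q))` (`modularFunctionFieldFullC k N`), `k` algebraically closed
of characteristic `ℓ ∤ N`, `x = j̃` (`jcr_j`, separating generator by `jcr_isSepGen`), and
`g = ca_aut k N φ` the coefficientwise action of an automorphism `φ` of `k` with `φ c = c ^ ℓ`
(= the reduction of a Frobenius element, `egr_phi`; or `frobeniusEquiv k ℓ`).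

* `s35b_ca_baseAut`, `s35b_ca_smul_j` : the two hypotheses of the `fcl_` context;
* `s35b_exponent_inst` : the `ca_aut k N φ`-fixed classes of `Pic⁰(F̃_N / k)` are killed by one `h ≥ 1`;
* `s35b_abel_inst`     : [ABEL] for `F̃_N / k`;
* `s35b_abel_res`      : the same for `k = ResidueField A`, `A` a valuation ring of `ℚ̄` over `ℓ`.
Prefix `s35b_`.
-/
import Mathlib
import Fermat.Agent.S35.AbelFree
import Fermat.Agent.JT3.ES.CoeffAut
import Fermat.Agent.JT3.S18.ConstRed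

set_option autoImplicit false
set_option linter.unusedSectionVars false
set_option linter.unusedVariables false

namespace Fermat.Agent.S35

open AlgebraicCurve ModularCurve IntermediateField Polynomial Fermat.Agent.S24 Fermat.Agent.JT3

section general

variable {k : Type*} [Field k] (N : ℕ) [NeZero N] (φ : k ≃+* k)

theorem s35b_ca_baseAut {ℓ : ℕ} (hφ : ∀ c : k, φ c = c ^ ℓ) (c : k) :
    SemilinearAut.baseAut (ca_aut k N φ) c = c ^ ℓ := by
  rw [ca_baseAut]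
  exact hφ c

theorem s35b_ca_smul_j : ca_aut k N φ • (jcr_j (k := k) N) = jcr_j (k := k) N := by
  apply Subtype.ext
  rw [ca_coe_aut_smul]
  show coeffMap (φ : k →+* k) (jqModC k) = jqModC k
  exact coeffMap_jqModC _

variable {ℓ : ℕ} [hℓ : Fact ℓ.Prime] [CharP k ℓ] [IsAlgClosed k]

set_option synthInstance.maxHeartbeats 400000 in
/-- the classes of `Pic⁰(F̃_N / k)` fixed by the coefficientwise Frobenius are killed by one
positive integer. -/
theorem s35b_exponent_inst (hℓN : ¬ ℓ ∣ N) (ρ : ↥(GaloisRep.ratLocalizedAt ℓ) →+* k)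
    (hφ : ∀ c : k, φ c = c ^ ℓ) :
    ∃ h : ℕ, 1 ≤ h ∧ ∀ c : Pic0 k (modularFunctionFieldFullC k N),
      ca_aut k N φ • c = c → h • c = 0 :=
  s35b_exists_exponent (jcr_isSepGen (k := k) N hℓN ρ) (ca_aut k N φ) ℓ hℓ.out.two_le
    (s35b_ca_baseAut N φ hφ) (s35b_ca_smul_j N φ)

set_option synthInstance.maxHeartbeats 400000 in
/-- **[ABEL] for the reduced function field `F̃_N / k`.** -/
theorem s35b_abel_inst (hℓN : ¬ ℓ ∣ N) (ρ : ↥(GaloisRep.ratLocalizedAt ℓ) →+* k)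
    (hφ : ∀ c : k, φ c = c ^ ℓ) :
    ∃ E : ℕ, 1 ≤ E ∧ ∀ m : ℕ, 1 ≤ m →
      ∀ (u₁ u₂ h h' : modularFunctionFieldFullC k N) (c c' : k),
      u₁ ≠ 0 → u₂ ≠ 0 →
      (∀ v : Place k (modularFunctionFieldFullC k N), (m : ℤ) ∣ v.ord u₁) →
      (∀ v : Place k (modularFunctionFieldFullC k N), (m : ℤ) ∣ v.ord u₂) →
      u₁ * (ca_aut k N φ • u₂) = c • h ^ m → (ca_aut k N φ • u₁) * u₂ = c' • h' ^ m →
      (∃ (a : k) (w : modularFunctionFieldFullC k N), a ≠ 0 ∧ w ≠ 0 ∧ u₁ ^ E = a • w ^ m) ∧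
        ∃ (a : k) (w : modularFunctionFieldFullC k N), a ≠ 0 ∧ w ≠ 0 ∧ u₂ ^ E = a • w ^ m :=
  s35b_abel (jcr_isSepGen (k := k) N hℓN ρ) (ca_aut k N φ) ℓ hℓ.out.two_le
    (s35b_ca_baseAut N φ hφ) (s35b_ca_smul_j N φ)

end general

section residue

variable (N : ℕ) [NeZero N] {ℓ : ℕ} [hℓ : Fact ℓ.Prime]
  (A : ValuationSubring (AlgebraicClosure ℚ))

local notation "kA" => IsLocalRing.ResidueField A

set_option synthInstance.maxHeartbeats 400000 in
/-- **[ABEL] for `F̃_N` over the residue field of a valuation ring of `ℚ̄` over `ℓ ∤ N`.** -/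
theorem s35b_abel_res (hℓN : ¬ ℓ ∣ N) (hA : A.LiesOverPrime ℓ) (φ : kA ≃+* kA)
    (hφ : ∀ c : kA, φ c = c ^ ℓ) :
    ∃ E : ℕ, 1 ≤ E ∧ ∀ m : ℕ, 1 ≤ m →
      ∀ (u₁ u₂ h h' : modularFunctionFieldFullC kA N) (c c' : kA),
      u₁ ≠ 0 → u₂ ≠ 0 →
      (∀ v : Place kA (modularFunctionFieldFullC kA N), (m : ℤ) ∣ v.ord u₁) →
      (∀ v : Place kA (modularFunctionFieldFullC kA N), (m : ℤ) ∣ v.ord u₂) →
      u₁ * (ca_aut kA N φ • u₂) = c • h ^ m → (ca_aut kA N φ • u₁) * u₂ = c' • h' ^ m →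
      (∃ (a : kA) (w : modularFunctionFieldFullC kA N), a ≠ 0 ∧ w ≠ 0 ∧ u₁ ^ E = a • w ^ m) ∧
        ∃ (a : kA) (w : modularFunctionFieldFullC kA N), a ≠ 0 ∧ w ≠ 0 ∧ u₂ ^ E = a • w ^ m := by
  have := jcr_charP A hA
  have := jcr_isAlgClosed A
  exact s35b_abel_inst N φ hℓN (jcr_rho A hA) hφ

/-- the Frobenius automorphism of the residue field exists. -/
theorem s35b_exists_frob (hA : A.LiesOverPrime ℓ) :
    ∃ φ : kA ≃+* kA, ∀ c : kA, φ c = c ^ ℓ := by
  have := jcr_charP A hA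
  have := jcr_isAlgClosed A
  have : ExpChar kA ℓ := ExpChar.prime hℓ.out
  exact ⟨frobeniusEquiv kA ℓ, fun c => by rw [frobeniusEquiv_apply, frobenius_def]⟩

end residue

end Fermat.Agent.S35
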