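/-
Project S35 (preparation, lead design note #24 cell (A1) + end-game (a) of helper6's critique):
KOLCHIN IN DIMENSION TWO and the 2×2 end-game.  Mathlib only (helper8).

* `kol_sq_eq_zero_of_charpoly` : `charpoly f = (X - 1)²  ⟹  (f - 1)² = 0`;
* `kol_aux`, `kol_exists_fixed`, `kol_exists_fixed_subgroup`, `kol_inv`, `kol_inv_ne_bot` :
  a monoid / subgroup of unipotent operators on a two-dimensional vector space has a common nonzero
  fixed vector (two unipotent 2×2 matrices whose product is unipotent have the same fixed line: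
  `tr (g h) = 2 + tr (N M)`);
* `kol_inv_stable` : `σ⁻¹ I σ ⊆ I ⟹ ρ σ` preserves `V^I`;
* `kol_exists_eigenvalue_sq` : `f² = c` on a nonzero `f`-stable subspace ⟹ `f` has an eigenvalue
  `μ` with `μ² = c` (algebraically closed field);
* `kol_trace_of_root(_map)`, `kol_charpoly_of_root` : a root `μ`, `μ² = q²`, of `X² - t X + q`
  forces `t = ±(q + 1)`;
* `kol_charpoly_rank_two` : `charpoly f = X² - tr f · X + det f` on a free module of rank two;
* `kol_endgame` : the disjunction of S35 for an endomorphism with `det f = q`.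

Prefix `kol_`.
-/
import Mathlib

set_option autoImplicit false
set_option linter.unusedSectionVars false

namespace Fermat.Agent.S35

open Polynomial Module

section Kolchin

variable {k : Type*} [Field k] {V : Type*} [AddCommGroup V] [Module k V]

/-- Cayley–Hamilton: an endomorphism with characteristic polynomial `(X - 1)²` is unipotent. -/
theorem kol_sq_eq_zero_of_charpoly [FiniteDimensional k V] (f : V →ₗ[k] V)
    (h : f.charpoly = (X - 1) ^ 2) : (f - 1) ^ 2 = 0 := by
  have h1 := LinearMap.aeval_self_charpoly f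
  rw [h] at h1
  simpa using h1

/-- a nilpotent endomorphism of a finite-dimensional vector space has trace zero. -/
theorem kol_trace_eq_zero [FiniteDimensional k V] {N : V →ₗ[k] V} (hN : IsNilpotent N) :
    LinearMap.trace k V N = 0 :=
  (LinearMap.isNilpotent_trace_of_isNilpotent hN).eq_zero

/-- the key computation: in dimension two, if `N² = M² = 0` and `(1 + N)(1 + M)` is unipotent, then
`M` kills the image of `N`. -/
theorem kol_aux (hV : finrank k V = 2) (N M : V →ₗ[k] V) (hN : N ^ 2 = 0) (hM : M ^ 2 = 0)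
    (hNM : IsNilpotent (N + M + N * M)) (w : V) (hw : N w ≠ 0) : M (N w) = 0 := by
  have hfd : FiniteDimensional k V := Module.finite_of_finrank_pos (by omega)
  have hNa : N (N w) = 0 := by
    have := LinearMap.congr_fun hN w
    rwa [pow_two] at this
  -- the basis `(a, w)`, `a = N w`
  have hli : LinearIndependent k ![N w, w] := by
    rw [LinearIndependent.pair_iff]
    intro s t hst
    have h1 : N (s • N w + t • w) = N 0 := by rw [hst]
    rw [map_add, map_smul, map_smul, hNa, smul_zero, zero_add, map_zero] at h1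
    have ht : t = 0 := (smul_eq_zero.1 h1).resolve_right hw
    rw [ht, zero_smul, add_zero] at hst
    exact ⟨(smul_eq_zero.1 hst).resolve_right hw, ht⟩
  let b : Basis (Fin 2) k V := basisOfLinearIndependentOfCardEqFinrank hli (by simp [hV])
  have hb0 : b 0 = N w := by simp [b]
  have hb1 : b 1 = w := by simp [b]
  -- `N = coord₁ ⊗ a`
  have hNeq : N = (b.coord 1).smulRight (N w) := by
    apply b.ext
    intro i
    fin_cases i
    · show N (b 0) = (b.coord 1) (b 0) • N w
      rw [Basis.coord_apply, Basis.repr_self, Finsupp.single_apply, if_neg (by decide), zero_smul,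
        hb0, hNa]
    · show N (b 1) = (b.coord 1) (b 1) • N w
      rw [Basis.coord_apply, Basis.repr_self, Finsupp.single_eq_same, one_smul, hb1]
  -- trace argument
  have htr := kol_trace_eq_zero hNM
  have htrN := kol_trace_eq_zero (⟨2, hN⟩ : IsNilpotent N)
  have htrM := kol_trace_eq_zero (⟨2, hM⟩ : IsNilpotent M)
  rw [map_add, map_add, htrN, htrM, zero_add, zero_add] at htr
  have hprod : N * M = ((b.coord 1).comp M).smulRight (N w) := by
    conv_lhs => rw [hNeq]
    ext v
    simp
  rw [hprod, LinearMap.trace_smulRight] at htr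
  -- `M a = c • a`
  have hMa : M (N w) = b.repr (M (N w)) 0 • N w := by
    conv_lhs => rw [← b.sum_repr (M (N w))]
    rw [Fin.sum_univ_two, hb0, hb1]
    have : b.repr (M (N w)) 1 = 0 := by simpa using htr
    rw [this, zero_smul, add_zero]
  obtain ⟨c, hc⟩ : ∃ c : k, M (N w) = c • N w := ⟨_, hMa⟩
  have hMM : M (M (N w)) = 0 := by
    have := LinearMap.congr_fun hM (N w)
    rwa [pow_two] at this
  rw [hc, map_smul, hc, smul_smul] at hMM
  have hc0 : c = 0 := mul_self_eq_zero.1 ((smul_eq_zero.1 hMM).resolve_right hw)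
  rw [hc, hc0, zero_smul]

/-- **Kolchin in dimension two**: a monoid of unipotent operators on a two-dimensional vector space
has a common nonzero fixed vector. -/
theorem kol_exists_fixed (hV : finrank k V = 2) {G : Type*} [Monoid G] (ρ : G →* (V →ₗ[k] V))
    (h : ∀ s, (ρ s - 1) ^ 2 = 0) : ∃ v : V, v ≠ 0 ∧ ∀ s, ρ s v = v := by
  by_cases hall : ∀ s, ρ s = 1
  · have : Nontrivial V := Module.nontrivial_of_finrank_pos (R := k) (by omega)
    obtain ⟨v, hv⟩ := exists_ne (0 : V)
    exact ⟨v, hv, fun s => by rw [hall s]; rfl⟩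
  · rw [not_forall] at hall
    obtain ⟨s0, hs0⟩ := hall
    have hN0ne : ρ s0 - 1 ≠ 0 := sub_ne_zero.2 hs0
    obtain ⟨w, hw⟩ : ∃ w, (ρ s0 - 1 : V →ₗ[k] V) w ≠ 0 := by
      by_contra hcon
      rw [not_exists] at hcon
      exact hN0ne (LinearMap.ext fun v => not_not.1 (hcon v))
    refine ⟨(ρ s0 - 1 : V →ₗ[k] V) w, hw, fun t => ?_⟩
    have hdecomp : ρ (s0 * t) - 1 = (ρ s0 - 1) + (ρ t - 1) + (ρ s0 - 1) * (ρ t - 1) := by
      rw [map_mul]
      noncomm_ring
    have hnil : IsNilpotent ((ρ s0 - 1) + (ρ t - 1) + (ρ s0 - 1) * (ρ t - 1)) := by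
      rw [← hdecomp]
      exact ⟨2, h (s0 * t)⟩
    have hMa := kol_aux hV (ρ s0 - 1) (ρ t - 1) (h s0) (h t) hnil w hw
    rw [LinearMap.sub_apply, Module.End.one_apply, sub_eq_zero] at hMa
    exact hMa

/-- Kolchin in dimension two for a subgroup. -/
theorem kol_exists_fixed_subgroup (hV : finrank k V = 2) {G : Type*} [Group G]
    (ρ : G →* (V →ₗ[k] V)) (I : Subgroup G) (h : ∀ s ∈ I, (ρ s - 1) ^ 2 = 0) :
    ∃ v : V, v ≠ 0 ∧ ∀ s ∈ I, ρ s v = v := by
  obtain ⟨v, hv, hfix⟩ := kol_exists_fixed hV (ρ.comp I.subtype) (fun s => h s.1 s.2)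
  exact ⟨v, hv, fun s hs => hfix ⟨s, hs⟩⟩

/-- the invariants of a subgroup. -/
def kol_inv {G : Type*} [Group G] (ρ : G →* (V →ₗ[k] V)) (I : Subgroup G) : Submodule k V where
  carrier := {v | ∀ s ∈ I, ρ s v = v}
  add_mem' := fun {a b} ha hb s hs => by rw [map_add, ha s hs, hb s hs]
  zero_mem' := fun s _ => map_zero _
  smul_mem' := fun c v hv s hs => by rw [map_smul, hv s hs]

theorem kol_mem_inv {G : Type*} [Group G] (ρ : G →* (V →ₗ[k] V)) (I : Subgroup G) (v : V) :
    v ∈ kol_inv ρ I ↔ ∀ s ∈ I, ρ s v = v := Iff.rfl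

/-- Kolchin in dimension two: the invariants of a unipotent subgroup are nonzero. -/
theorem kol_inv_ne_bot (hV : finrank k V = 2) {G : Type*} [Group G]
    (ρ : G →* (V →ₗ[k] V)) (I : Subgroup G) (h : ∀ s ∈ I, (ρ s - 1) ^ 2 = 0) :
    kol_inv ρ I ≠ ⊥ := by
  obtain ⟨v, hv, hfix⟩ := kol_exists_fixed_subgroup hV ρ I h
  intro hbot
  have : v ∈ kol_inv ρ I := hfix
  rw [hbot, Submodule.mem_bot] at this
  exact hv this

/-- an element normalising `I` (in the weak sense `σ⁻¹ I σ ⊆ I`) preserves the invariants of `I`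
(any dimension). -/
theorem kol_inv_stable {G : Type*} [Group G] (ρ : G →* (V →ₗ[k] V)) (I : Subgroup G) (σ : G)
    (hσ : ∀ s ∈ I, σ⁻¹ * s * σ ∈ I) {v : V} (hv : v ∈ kol_inv ρ I) : ρ σ v ∈ kol_inv ρ I := by
  intro s hs
  have h1 : s * σ = σ * (σ⁻¹ * s * σ) := by group
  have h2 : ρ s (ρ σ v) = ρ (s * σ) v := by rw [map_mul]; rfl
  rw [h2, h1, map_mul, Module.End.mul_apply, hv _ (hσ s hs)]

/-- an endomorphism `f` preserving a nonzero subspace `W` on which `f² = c` has an eigenvalue `μ`
with `μ² = c` (algebraically closed field, finite dimension). -/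
theorem kol_exists_eigenvalue_sq [IsAlgClosed k] [FiniteDimensional k V] (f : V →ₗ[k] V)
    (W : Submodule k V) (hW : W ≠ ⊥) (hfW : ∀ w ∈ W, f w ∈ W) (c : k)
    (hsq : ∀ w ∈ W, f (f w) = c • w) :
    ∃ μ : k, Module.End.HasEigenvalue f μ ∧ μ ^ 2 = c := by
  have : Nontrivial W := Submodule.nontrivial_iff_ne_bot.2 hW
  obtain ⟨μ, hμ⟩ := Module.End.exists_eigenvalue (f.restrict hfW)
  obtain ⟨w, hw⟩ := hμ.exists_hasEigenvector
  have hw0 : (w : V) ≠ 0 := fun h => hw.2 (Subtype.ext h)
  have hfw : f (w : V) = μ • (w : V) := by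
    have := congrArg Subtype.val hw.apply_eq_smul
    simpa using this
  refine ⟨μ, ?_, ?_⟩
  · exact Module.End.hasEigenvalue_of_hasEigenvector
      ⟨Module.End.mem_eigenspace_iff.2 hfw, hw0⟩
  · have h1 := hsq w w.2
    rw [hfw, map_smul, hfw, smul_smul] at h1
    have h2 : (μ * μ - c) • (w : V) = 0 := by rw [sub_smul, h1, sub_self]
    have h3 := (smul_eq_zero.1 h2).resolve_right hw0
    rw [pow_two]
    exact sub_eq_zero.1 h3

end Kolchin

section EndGame

variable {R : Type*} [CommRing R] [IsDomain R]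

/-- a root `μ` with `μ² = q²` of `X² - t X + q` forces `t = ±(q + 1)`. -/
theorem kol_trace_of_root {t q μ : R} (hq : q ≠ 0) (hroot : μ ^ 2 - t * μ + q = 0)
    (hμ : μ ^ 2 = q ^ 2) : t = q + 1 ∨ t = -(q + 1) := by
  have h1 : (μ - q) * (μ + q) = 0 := by linear_combination hμ
  rcases mul_eq_zero.1 h1 with h | h
  · left
    have hμq : μ = q := sub_eq_zero.1 h
    rw [hμq] at hroot
    have h2 : q * (q + 1 - t) = 0 := by linear_combination hroot
    rcases mul_eq_zero.1 h2 with h3 | h3
    · exact absurd h3 hq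
    · linear_combination -h3
  · right
    have hμq : μ = -q := eq_neg_of_add_eq_zero_left h
    rw [hμq] at hroot
    have h2 : q * (q + 1 + t) = 0 := by linear_combination hroot
    rcases mul_eq_zero.1 h2 with h3 | h3
    · exact absurd h3 hq
    · linear_combination h3

/-- the same with the root in an extension ring. -/
theorem kol_trace_of_root_map {R' : Type*} [CommRing R'] [IsDomain R'] (φ : R →+* R')
    (hφ : Function.Injective φ) {t q : R} {μ : R'} (hq : q ≠ 0)
    (hroot : μ ^ 2 - φ t * μ + φ q = 0) (hμ : μ ^ 2 = φ q ^ 2) : t = q + 1 ∨ t = -(q + 1) := by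
  have hq' : φ q ≠ 0 := fun h => hq (hφ (by rw [h, map_zero]))
  rcases kol_trace_of_root hq' hroot hμ with h | h
  · left
    apply hφ
    rw [h, map_add, map_one]
  · right
    apply hφ
    rw [h, map_neg, map_add, map_one]

open Polynomial in
/-- **end-game**: a quadratic `X² - t X + q` with a root `μ`, `μ² = q²`, in an extension domain is
`X² ∓ (q + 1) X + q`. -/
theorem kol_charpoly_of_root {R' : Type*} [CommRing R'] [IsDomain R'] (φ : R →+* R')
    (hφ : Function.Injective φ) {t q : R} {μ : R'} (hq : q ≠ 0)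
    (hroot : μ ^ 2 - φ t * μ + φ q = 0) (hμ : μ ^ 2 = φ q ^ 2) :
    (X ^ 2 - C t * X + C q : R[X]) = X ^ 2 - C (q + 1) * X + C q ∨
      (X ^ 2 - C t * X + C q : R[X]) = X ^ 2 + C (q + 1) * X + C q := by
  rcases kol_trace_of_root_map φ hφ hq hroot hμ with h | h
  · left; rw [h]
  · right; rw [h, map_neg, neg_mul, sub_neg_eq_add]

end EndGame

section RankTwo

variable {A : Type*} [CommRing A] {V : Type*} [AddCommGroup V] [Module A V] [Module.Free A V]
  [Module.Finite A V]

open Polynomial in
/-- the characteristic polynomial of an endomorphism of a free module of rank two. -/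
theorem kol_charpoly_rank_two [Nontrivial A] (h2 : finrank A V = 2) (f : V →ₗ[A] V) :
    f.charpoly = X ^ 2 - C (LinearMap.trace A V f) * X + C (LinearMap.det f) := by
  have hcard : Fintype.card (Module.Free.ChooseBasisIndex A V) = 2 := by
    rw [← h2, Module.finrank_eq_card_chooseBasisIndex]
  let e : Module.Free.ChooseBasisIndex A V ≃ Fin 2 := Fintype.equivFinOfCardEq hcard
  let b : Basis (Fin 2) A V := (Module.Free.chooseBasis A V).reindex e
  rw [← LinearMap.charpoly_toMatrix f b, Matrix.charpoly_fin_two,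
    LinearMap.trace_eq_matrix_trace A b f, ← LinearMap.det_toMatrix b f]

open Polynomial in
/-- **end-game in the shape of S35**: an endomorphism `f` of a free module of rank two over a
domain with `det f = q ≠ 0`, whose characteristic polynomial has a root `μ` with `μ² = q²` in some
extension domain, has characteristic polynomial `X² ∓ (q + 1) X + q`. -/
theorem kol_endgame [IsDomain A] (h2 : finrank A V = 2) (f : V →ₗ[A] V) {q : A} (hq : q ≠ 0)
    (hdet : LinearMap.det f = q) {K : Type*} [CommRing K] [IsDomain K] (φ : A →+* K)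
    (hφ : Function.Injective φ) (μ : K) (hroot : (f.charpoly.map φ).IsRoot μ)
    (hμ : μ ^ 2 = φ q ^ 2) :
    f.charpoly = X ^ 2 - C (q + 1) * X + C q ∨ f.charpoly = X ^ 2 + C (q + 1) * X + C q := by
  have hcp := kol_charpoly_rank_two h2 f
  rw [hdet] at hcp
  rw [hcp]
  apply kol_charpoly_of_root φ hφ hq _ hμ
  rw [hcp, IsRoot.def] at hroot
  simpa using hroot

end RankTwo

end Fermat.Agent.S35
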