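/-
S35 cell [NEW-K], instance level (helper26): [NEW-K] for helper8's `P₁ = (α_q)_*`,
`P₂ = (β_q)_* : T_p J₀(N q) → T_p J₀(N)` (`S35/PMaps.lean`), from the divisor identities (D)
(`s35p_DivComm`, helper23's tower identity) at the good primes.

* `s35n_hP1_of`, `s35n_hP2_of` : (D) at every good `ℓ` ⟹ `P_i ∘ tjp_Tl (N q) p S ℓ = tjp_Tl N p S ℓ ∘ P_i`;
* `s35n_newK_P1`, `s35n_newK_P2` : `P_i ⊗ K` kills the `χ_g`-eigenvectors of `K ⊗ T_p J₀(N q)` for a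
  newform `g` of level `N q`.
Prefix `s35n_`.
-/
import Mathlib
import Fermat.Agent.S35.NewK
import Fermat.Agent.S35.PMaps

set_option autoImplicit false
set_option linter.style.haveILetI false
set_option linter.unusedSectionVars false

noncomputable section

namespace Fermat.Agent.S35

open Fermat.Agent.JT3 CongruenceSubgroup ModularCurve IsLocalRing AlgebraicCurve
open Fermat.Agent.S24
open scoped TensorProduct

local notation "Kbar" => AlgebraicClosure ℚ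

variable (N q : ℕ) [NeZero N] [NeZero q] (p : ℕ) [Fact p.Prime] (S : Finset ℕ)

/-- good primes of level `N q` are good primes of level `N` -/
theorem s35n_good_of_good {ℓ : ℕ} (h : pk_Good (N * q) S ℓ) : pk_Good N S ℓ :=
  ⟨h.1, fun hd => h.2.1 (hd.mul_right q), h.2.2⟩

/-- [P-EQUIV] for `P₁` in the `tjp_Tl` shape, from (D) -/
theorem s35n_hP1_of
    (hD : ∀ (ℓ : ℕ) (hℓ : pk_Good (N * q) S ℓ),
      @s35p_DivComm N q ℓ _ _ ⟨hℓ.1.ne_zero⟩ (heckeAlphaBar Kbar N q) (hib_alphaIntegral N q))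
    (ℓ : ℕ) (hℓ : pk_Good (N * q) S ℓ) :
    s35p_P1 N q p ∘ₗ tjp_Tl (N * q) p S ℓ = tjp_Tl N p S ℓ ∘ₗ s35p_P1 N q p := by
  haveI : NeZero ℓ := ⟨hℓ.1.ne_zero⟩
  rw [tjp_Tl_good (N * q) p S hℓ, tjp_Tl_good N p S (s35n_good_of_good N q S hℓ)]
  exact s35p_P1_hecke_of p hℓ.1 (hD ℓ hℓ)

/-- [P-EQUIV] for `P₂` in the `tjp_Tl` shape, from (D) -/
theorem s35n_hP2_of
    (hD : ∀ (ℓ : ℕ) (hℓ : pk_Good (N * q) S ℓ),
      @s35p_DivComm N q ℓ _ _ ⟨hℓ.1.ne_zero⟩ (heckeBetaBar Kbar N q) (hib_betaIntegral N q))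
    (ℓ : ℕ) (hℓ : pk_Good (N * q) S ℓ) :
    s35p_P2 N q p ∘ₗ tjp_Tl (N * q) p S ℓ = tjp_Tl N p S ℓ ∘ₗ s35p_P2 N q p := by
  haveI : NeZero ℓ := ⟨hℓ.1.ne_zero⟩
  rw [tjp_Tl_good (N * q) p S hℓ, tjp_Tl_good N p S (s35n_good_of_good N q S hℓ)]
  exact s35p_P2_hecke_of p hℓ.1 (hD ℓ hℓ)

omit [NeZero q] in
theorem s35n_ne_mul (hq : q.Prime) : N ≠ N * q := by
  intro h
  have h1 : N * 1 = N * q := by rw [mul_one]; exact h
  have := Nat.eq_of_mul_eq_mul_left (Nat.pos_of_ne_zero (NeZero.ne N)) h1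
  exact hq.one_lt.ne this

section newK

variable (hSMO : s35n_SeamSMO) (hq : q.Prime)
  {g : CuspForm (Gamma0 (N * q)) 2} (hg : g.IsNewform)
  (hMS : ∀ r : ℕ, r.Prime → r ∣ N * q → r ∈ S)
  (O : Type) [CommRing O] [IsDomain O] [IsDiscreteValuationRing O]
  [IsAdicComplete (maximalIdeal O) O] [CharZero O] [Algebra ℤ_[p] O]
  (K : Type) [Field K] [Algebra O K] [IsFractionRing O K] [Algebra ℤ_[p] K]
  [IsScalarTower ℤ_[p] O K]
  (chig : CuspForm.heckeAlgebra (N * q) 2 (↑S : Set ℕ) →+* ℂ)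
  (hchig : ∀ (ℓ : ℕ) (hℓ : ℓ.Prime) (hℓM : ¬ ℓ ∣ N * q) (hℓS : ℓ ∉ (↑S : Set ℕ)),
    chig (CuspForm.heckeAlgebra.T hℓ hℓM hℓS) = ModularFormClass.qCoeff g ℓ)
  (iota : chig.range →+* O)
  (u : K ⊗[ℤ_[p]] tj_T (N * q) p)
  (hu : ∀ (ℓ : ℕ) (hℓ : ℓ.Prime) (hℓM : ¬ ℓ ∣ N * q) (hℓS : ℓ ∉ (↑S : Set ℕ)),
    (tjp_Tl (N * q) p S ℓ).baseChange K u =
      algebraMap O K ((iota.comp chig.rangeRestrict) (CuspForm.heckeAlgebra.T hℓ hℓM hℓS)) • u)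

include hSMO hq hg hMS hchig hu

/-- **[NEW-K] for `P₁`** -/
theorem s35n_newK_P1
    (hD : ∀ (ℓ : ℕ) (hℓ : pk_Good (N * q) S ℓ),
      @s35p_DivComm N q ℓ _ _ ⟨hℓ.1.ne_zero⟩ (heckeAlphaBar Kbar N q) (hib_alphaIntegral N q)) :
    (s35p_P1 N q p).baseChange K u = 0 :=
  s35n_newK p hSMO hg S hMS N (dvd_mul_right N q)
    (s35n_ne_mul N q hq) O K chig hchig iota
    (s35p_P1 N q p) (s35n_hP1_of N q p S hD) u hu

/-- **[NEW-K] for `P₂`** -/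
theorem s35n_newK_P2
    (hD : ∀ (ℓ : ℕ) (hℓ : pk_Good (N * q) S ℓ),
      @s35p_DivComm N q ℓ _ _ ⟨hℓ.1.ne_zero⟩ (heckeBetaBar Kbar N q) (hib_betaIntegral N q)) :
    (s35p_P2 N q p).baseChange K u = 0 :=
  s35n_newK p hSMO hg S hMS N (dvd_mul_right N q)
    (s35n_ne_mul N q hq) O K chig hchig iota
    (s35p_P2 N q p) (s35n_hP2_of N q p S hD) u hu

end newK

end Fermat.Agent.S35
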